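import Fermat.Agent.ResidualCarayol.Coh
import Fermat.Agent.ResidualCarayol.Geometry.Main

/-!
# Residual Carayol

The geometric and the cohomological statements together give `Lifting.ResidualCarayol`.
-/

set_option autoImplicit false

noncomputable section

namespace Fermat.Agent.ResidualCarayol

/-- **Residual Carayol at a prime dividing the level exactly twice.** -/
theorem residualCarayol : Lifting.ResidualCarayol :=
  residualCarayol_of_geo fun _ N p _ _ _ hp hp2 hqp => Geometry.geoStatement N p hp hp2 hqp

end Fermat.Agent.ResidualCarayol

end
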