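import Fermat.Agent.ResidualCarayol.Pairs
import Mathlib.LinearAlgebra.Pi
import Mathlib.Algebra.Group.TypeTags.Hom

/-!
# Cocycles of `Γ₀(N)` in permutation modules of `GL₂(𝔽_q)` and Shapiro's lemma

`Γ₀(N)` acts through reduction modulo `q` on functions on a `GL₂(𝔽_q)`-set. On a transitive set
the cocycles up to coboundaries are the homomorphisms of the stabiliser of a base point; the sets
used are the projective line and the pairs of distinct points.
-/

set_option autoImplicit false

noncomputable section

namespace Fermat.Agent.ResidualCarayol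

open CongruenceSubgroup
open scoped MatrixGroups

variable {N q : ℕ} {X X' : Type*} [MulAction (Grp q) X] [MulAction (Grp q) X']
  {k : Type*} [CommRing k]

variable (k) in
/-- The permutation representation on functions. -/
def perm (g : Grp q) : (X → k) →ₗ[k] (X → k) := LinearMap.funLeft k k fun x => g⁻¹ • x

/-- `perm g f` evaluates `f` at `g⁻¹ • x`. -/
@[simp] lemma perm_apply (g : Grp q) (f : X → k) (x : X) : perm k g f x = f (g⁻¹ • x) := rfl

/-- `perm` of the identity. -/
lemma perm_one (f : X → k) : perm k (1 : Grp q) f = f := funext fun x => by simp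

/-- `perm` of a product is the composite. -/
lemma perm_mul (g h : Grp q) (f : X → k) : perm k (g * h) f = perm k g (perm k h f) :=
  funext fun x => by simp [mul_smul]

variable (q) in
/-- A linear map of permutation modules commuting with the group. -/
def IsEquivariant (L : (X → k) →ₗ[k] (X' → k)) : Prop :=
  ∀ (g : Grp q) (f : X → k), L (perm k g f) = perm k g (L f)

variable (N q) in
/-- The image of an element of `Γ₀(N)` in `GL₂(𝔽_q)`. -/
def red : Gamma0 N →* Grp q := (toG q).comp (Gamma0 N).subtype

variable (q) in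
/-- The cocycle identity. -/
def IsCocycle (c : Gamma0 N → X → k) : Prop :=
  ∀ γ δ x, c (γ * δ) x = c γ x + c δ ((red N q γ)⁻¹ • x)

variable (N q) in
/-- The coboundary of a function. -/
def cob (v : X → k) : Gamma0 N → X → k := fun γ x => v ((red N q γ)⁻¹ • x) - v x

/-- Coboundaries are cocycles. -/
lemma isCocycle_cob (v : X → k) : IsCocycle q (cob N q v) := fun γ δ x => by
  simp only [cob, map_mul, mul_inv_rev, mul_smul]
  abel

/-- The coboundary of `v` at `γ` is `γ v - v`. -/
lemma cob_eq (v : X → k) (γ : Gamma0 N) : cob N q v γ = perm k (red N q γ) v - v := rfl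

namespace IsCocycle

variable {c d : Gamma0 N → X → k}

/-- The cocycle identity for vectors. -/
lemma mul_eq (hc : IsCocycle q c) (γ δ : Gamma0 N) :
    c (γ * δ) = c γ + perm k (red N q γ) (c δ) := funext fun x => hc γ δ x

/-- A cocycle vanishes at `1`. -/
lemma one_eq (hc : IsCocycle q c) : c 1 = 0 := funext fun x => by
  have h := hc 1 1 x
  rw [mul_one, map_one, inv_one, one_smul] at h
  simpa using h

/-- Sums of cocycles are cocycles. -/
lemma add (hc : IsCocycle q c) (hd : IsCocycle q d) : IsCocycle q (c + d) := fun γ δ x => by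
  simp only [Pi.add_apply, hc γ δ x, hd γ δ x]; abel

/-- Differences of cocycles are cocycles. -/
lemma sub (hc : IsCocycle q c) (hd : IsCocycle q d) : IsCocycle q (c - d) := fun γ δ x => by
  simp only [Pi.sub_apply, hc γ δ x, hd γ δ x]; abel

/-- Multiples of cocycles are cocycles. -/
lemma smul (hc : IsCocycle q c) (a : k) : IsCocycle q (a • c) := fun γ δ x => by
  simp only [Pi.smul_apply, hc γ δ x, smul_add]

/-- Equivariant maps send cocycles to cocycles. -/
lemma map (hc : IsCocycle q c) {L : (X → k) →ₗ[k] (X' → k)} (hL : IsEquivariant q L) :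
    IsCocycle q fun γ => L (c γ) := fun γ δ x => by
  simp only [hc.mul_eq, map_add, Pi.add_apply, hL (red N q γ), perm_apply]

end IsCocycle

/-- Equivariant maps commute with the coboundary. -/
lemma cob_map {L : (X → k) →ₗ[k] (X' → k)} (hL : IsEquivariant q L) (v : X → k) :
    (fun γ : Gamma0 N => L (cob N q v γ)) = cob N q (L v) := funext fun γ => by
  simp only [cob_eq, map_sub, hL (red N q γ)]

/-! ### Shapiro's lemma -/

variable (N q) in
/-- The stabiliser of a point in `Γ₀(N)`. -/
def stabGroup {X : Type*} [MulAction (Grp q) X] (x₀ : X) : Subgroup SL(2, ℤ) :=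
  Gamma0 N ⊓ (MulAction.stabilizer (Grp q) x₀).comap (toG q)

variable {x₀ : X}

/-- The stabiliser group lies in `Γ₀(N)`. -/
lemma stabGroup_le : stabGroup N q x₀ ≤ Gamma0 N := inf_le_left

/-- The stabiliser group fixes the base point. -/
lemma red_smul_base (γ : stabGroup N q x₀) :
    red N q ⟨γ, stabGroup_le γ.2⟩ • x₀ = x₀ := γ.2.2

/-- The homomorphism on the stabiliser underlying a cocycle. -/
def atBase (x₀ : X) (c : Gamma0 N → X → k) (hc : IsCocycle q c) :
    Additive (stabGroup N q x₀) →+ k where
  toFun γ := c ⟨(Additive.toMul γ : stabGroup N q x₀), stabGroup_le (Additive.toMul γ).2⟩ x₀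
  map_zero' := congrFun hc.one_eq x₀
  map_add' γ δ := by
    refine (hc ⟨_, stabGroup_le (Additive.toMul γ).2⟩
      ⟨_, stabGroup_le (Additive.toMul δ).2⟩ x₀).trans ?_
    rw [inv_smul_eq_iff.2 (red_smul_base (Additive.toMul γ)).symm]

/-- `atBase` evaluates a cocycle at the base point. -/
lemma atBase_apply (c : Gamma0 N → X → k) (hc : IsCocycle q c) (γ : stabGroup N q x₀) :
    atBase x₀ c hc (Additive.ofMul γ) = c ⟨γ, stabGroup_le γ.2⟩ x₀ := rfl

variable (N q) in
/-- `Γ₀(N)` acts transitively. -/
def IsTransitiveFrom (x₀ : X) : Prop := ∀ x : X, ∃ γ : Gamma0 N, red N q γ • x₀ = x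

/-- A transporter from the base point, trivial at the base point. -/
def transporter (h : IsTransitiveFrom N q x₀) (x : X) : Gamma0 N :=
  haveI := Classical.dec (x = x₀)
  if x = x₀ then 1 else (h x).choose

/-- The transporter moves the base point to `x`. -/
lemma red_transporter (h : IsTransitiveFrom N q x₀) (x : X) :
    red N q (transporter h x) • x₀ = x := by
  classical
  by_cases e : x = x₀
  · rw [transporter, if_pos e, map_one, one_smul, e]
  · rw [transporter, if_neg e]; exact (h x).choose_spec

lemma transporter_base (h : IsTransitiveFrom N q x₀) : transporter h x₀ = 1 := by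
  classical
  rw [transporter, if_pos rfl]

/-- The transported element stabilises the base point. -/
lemma transport_mem (h : IsTransitiveFrom N q x₀) (γ : Gamma0 N) (x : X) :
    (((transporter h x)⁻¹ * γ * transporter h ((red N q γ)⁻¹ • x) : Gamma0 N) : SL(2, ℤ)) ∈
      stabGroup N q x₀ := by
  refine ⟨SetLike.coe_mem _, ?_⟩
  show red N q ((transporter h x)⁻¹ * γ * transporter h ((red N q γ)⁻¹ • x)) • x₀ = x₀
  rw [map_mul, map_mul, mul_smul, mul_smul, red_transporter, smul_inv_smul, map_inv,
    inv_smul_eq_iff, red_transporter]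

/-- Shapiro's cocycle of a homomorphism on the stabiliser. -/
def shapiro (h : IsTransitiveFrom N q x₀) (φ : Additive (stabGroup N q x₀) →+ k) :
    Gamma0 N → X → k :=
  fun γ x => φ (Additive.ofMul ⟨_, transport_mem h γ x⟩)

/-- Shapiro's map gives cocycles. -/
lemma isCocycle_shapiro (h : IsTransitiveFrom N q x₀) (φ : Additive (stabGroup N q x₀) →+ k) :
    IsCocycle q (shapiro h φ) := fun γ δ x => by
  rw [shapiro, shapiro, shapiro, ← map_add, ← ofMul_mul]
  congr 2
  apply Subtype.ext
  simp only [map_mul, mul_inv_rev, mul_smul, Subgroup.coe_mul, InvMemClass.coe_inv]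
  group

lemma atBase_shapiro (h : IsTransitiveFrom N q x₀) (φ : Additive (stabGroup N q x₀) →+ k) :
    atBase x₀ (shapiro h φ) (isCocycle_shapiro h φ) = φ := by
  refine AddMonoidHom.ext fun γ => ?_
  rw [← ofMul_toMul γ, atBase_apply, shapiro]
  congr 2
  apply Subtype.ext
  have e : (red N q ⟨_, stabGroup_le (Additive.toMul γ).2⟩)⁻¹ • x₀ = x₀ :=
    inv_smul_eq_iff.2 (red_smul_base (Additive.toMul γ)).symm
  simp [e, transporter_base]

/-- Shapiro's map is a section of evaluation at the base point. -/
lemma shapiro_base (h : IsTransitiveFrom N q x₀) (φ : Additive (stabGroup N q x₀) →+ k)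
    (γ : stabGroup N q x₀) :
    shapiro h φ ⟨γ, stabGroup_le γ.2⟩ x₀ = φ (Additive.ofMul γ) :=
  DFunLike.congr_fun (atBase_shapiro h φ) (Additive.ofMul γ)

/-- A cocycle is determined up to coboundary by its homomorphism on the stabiliser. -/
theorem exists_eq_cob (h : IsTransitiveFrom N q x₀) {c : Gamma0 N → X → k} (hc : IsCocycle q c)
    (h0 : atBase x₀ c hc = 0) : ∃ v : X → k, c = cob N q v := by
  refine ⟨fun x => -c (transporter h x) x, funext fun γ => funext fun x => ?_⟩
  set x' := (red N q γ)⁻¹ • x
  set g := (transporter h x)⁻¹ * γ * transporter h x'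
  have hg : c g x₀ = 0 := by
    have := DFunLike.congr_fun h0 (Additive.ofMul ⟨_, transport_mem h γ x⟩)
    rwa [atBase_apply] at this
  have e1 : γ * transporter h x' = transporter h x * g := by simp [g, mul_assoc]
  have e2 := hc γ (transporter h x') x
  rw [e1, hc (transporter h x) g x, inv_smul_eq_iff.2 (red_transporter h x).symm, hg,
    add_zero] at e2
  show c γ x = -c (transporter h x') x' - -c (transporter h x) x
  rw [e2]
  abel

/-- The homomorphism on the stabiliser of a coboundary vanishes. -/
theorem atBase_cob (v : X → k) : atBase x₀ (cob N q v) (isCocycle_cob v) = 0 := by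
  refine AddMonoidHom.ext fun γ => ?_
  rw [← ofMul_toMul γ, atBase_apply, AddMonoidHom.zero_apply]
  show v _ - v x₀ = 0
  rw [inv_smul_eq_iff.2 (red_smul_base (Additive.toMul γ)).symm, sub_self]

/-- Cohomologous cocycles have the same value at the base point. -/
lemma atBase_congr {c d : Gamma0 N → X → k} (hc : IsCocycle q c) (hd : IsCocycle q d) {v : X → k}
    (h : c - d = cob N q v) : atBase x₀ c hc = atBase x₀ d hd := by
  refine AddMonoidHom.ext fun γ => sub_eq_zero.1 ?_
  have h0 := DFunLike.congr_fun (atBase_cob (N := N) (x₀ := x₀) v) γ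
  rw [← ofMul_toMul γ, atBase_apply, ← h] at h0
  rw [← ofMul_toMul γ, atBase_apply, atBase_apply]
  exact h0

variable [Fact q.Prime]

/-- `Γ₀(N)` is transitive on the pairs for `q ∤ N`. -/
theorem isTransitiveFrom_pair (hqN : ¬ q ∣ N) :
    IsTransitiveFrom N q (basePair : Pair q) := fun y => by
  obtain ⟨g, hg, hgy⟩ := exists_smul_basePair y
  obtain ⟨γ, hγ, hγg⟩ := exists_gamma0_lift hqN hg
  exact ⟨⟨γ, hγ⟩, by rw [red, MonoidHom.comp_apply]; exact hγg ▸ hgy⟩

/-- `Γ₀(N)` is transitive on the projective line for `q ∤ N`. -/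
theorem isTransitiveFrom_line (hqN : ¬ q ∣ N) :
    IsTransitiveFrom N q (OnePoint.infty : Line q) := fun y => by
  obtain ⟨g, hg, hgy⟩ := exists_smul_infty y
  obtain ⟨γ, hγ, hγg⟩ := exists_gamma0_lift hqN hg
  exact ⟨⟨γ, hγ⟩, by rw [red, MonoidHom.comp_apply]; exact hγg ▸ hgy⟩

end Fermat.Agent.ResidualCarayol
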