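import Fermat.Agent.AtP.ClassEigen
import Fermat.Agent.AtP.ClassHecke
import Fermat.Agent.ConductorLevel.InertiaPoint
import Fermat.Agent.ECReduction.Galois
import Fermat.Agent.KummerES.Interface

/-!
# An eigen character fixed by inertia

For a semistable `W` with irreducible `W[p]`, residually modular of level `M`, and any Galois
action on the parabolic characters modulo `p` with the Eichler–Shimura relation, some nonzero
character with the eigenvalues of `W` is fixed by inertia at a prime `q ≠ p`: the eigen part is a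
sum of copies of `W[p]`, and inertia at `q` fixes a point of order `p`.
-/

set_option autoImplicit false

noncomputable section

open Matrix CongruenceSubgroup ModularCurve.Period
open scoped MatrixGroups WeierstrassCurve.Affine

namespace Fermat.Agent.ResidualCarayol

open GaloisBasics (Qbar GalQ)
open LevelLowering (CofiniteResModular)
open AtP (curveRep curveDet eigenPart mem_eigenPart)

variable (W : WeierstrassCurve ℤ) (p : ℕ) [Fact p.Prime]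

open scoped Classical in
/-- At `q ≠ p`, inertia fixes a nonzero `p`-torsion point of a semistable curve. -/
theorem exists_inertiaFixed_point (hΔ : W.Δ ≠ 0) (hW : W.IsSemistableModel) {q : ℕ}
    (hq : q.Prime) (hqp : q ≠ p) {A : ValuationSubring Qbar} (hA : A.LiesOverPrime q) :
    ∃ x : Submodule.torsionBy ℤ ((W.map (Int.castRingHom ℚ))⁄Qbar).Point p, x ≠ 0 ∧
      ∀ σ ∈ A.inertiaSubgroupIn ℚ, σ • x = x := by
  have hp := (Fact.out : p.Prime)
  have hqp' : ¬ q ∣ p := fun h => hqp ((Nat.prime_dvd_prime_iff_eq hq hp).mp h)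
  by_cases hgood : (q : ℤ) ∣ W.Δ
  · obtain ⟨P, hP, hfix⟩ := ConductorLevel.exists_inertia_fixed_point W hq hA hgood (hW q hq hgood)
      hp.one_lt hqp'
    refine ⟨⟨P, (Submodule.mem_torsionBy_iff _ _).mpr ?_⟩, ?_, fun σ hσ => Subtype.ext (hfix σ hσ)⟩
    · rw [natCast_zsmul, ← hP]; exact addOrderOf_nsmul_eq_zero _
    · intro h
      have h0 : P = 0 := congrArg Subtype.val h
      rw [h0, addOrderOf_zero] at hP
      exact hp.one_lt.ne hP
  · have hcard := ECTorsion.card_torsionBy_int W hΔ hp.ne_zero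
    have : Finite (Submodule.torsionBy ℤ ((W.map (Int.castRingHom ℚ))⁄Qbar).Point p) :=
      Nat.finite_of_card_ne_zero (by rw [hcard]; exact pow_ne_zero 2 hp.ne_zero)
    have := Finite.one_lt_card_iff_nontrivial.mp
      (by rw [hcard]; exact Nat.one_lt_pow two_ne_zero hp.one_lt)
    obtain ⟨x, hx⟩ := exists_ne
      (0 : Submodule.torsionBy ℤ ((W.map (Int.castRingHom ℚ))⁄Qbar).Point p)
    exact ⟨x, hx, fun σ hσ =>
      ECReduction.galoisRepUnramifiedAt_of_good W hq hqp' hgood rfl A hA σ hσ x⟩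

variable {W p} {M : ℕ} [NeZero M] {T : Finset ℕ}

/-- An action commuting with the transfers, on the eigen part. -/
def eigenAction (r : GalQ →* AddMonoid.End (parabolicHoms ℤ (Gamma0 M) (ZMod p)))
    (hr : ∀ σ, ∀ x ∈ eigenPart W M p T, r σ x ∈ eigenPart W M p T) :
    GalQ →* Module.End (ZMod p) (eigenPart W M p T) where
  toFun σ := (((r σ : parabolicHoms ℤ (Gamma0 M) (ZMod p) →+
      parabolicHoms ℤ (Gamma0 M) (ZMod p)).comp (eigenPart W M p T).subtype).codRestrict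
    (eigenPart W M p T) fun x => hr σ _ x.2).toZModLinearMap p
  map_one' := LinearMap.ext fun x => Subtype.ext (by
    show r 1 x.1 = x.1
    rw [map_one]; rfl)
  map_mul' σ τ := LinearMap.ext fun x => Subtype.ext (by
    show r (σ * τ) x.1 = r σ (r τ x.1)
    rw [map_mul]; rfl)

omit [NeZero M] in
/-- A vector of `W[p]` gives an eigen character fixed by every element fixing the vector. -/
theorem exists_fixed_eigen (hΔ : W.Δ ≠ 0) (hp2 : p ≠ 2) (hirr : W.ModRepIsIrreducible p)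
    (hT : ∀ q : ℕ, q.Prime → (q ∣ M ∨ q = p ∨ ¬ W.IsGoodPrimeFor q) → q ∈ T)
    (r : GalQ →* AddMonoid.End (parabolicHoms ℤ (Gamma0 M) (ZMod p)))
    (hlev : GaloisFactorsThroughFiniteLevel r)
    (hcomm : ∀ (σ : GalQ) (ℓ : ℕ) [Fact ℓ.Prime] (hℓM : ¬ ℓ ∣ M)
      (x y : parabolicHoms ℤ (Gamma0 M) (ZMod p)), HeckeLattice.transfer hℓM x.1 = y.1 →
        HeckeLattice.transfer hℓM (r σ x).1 = (r σ y).1)
    (hfrob : ∀ (ℓ : ℕ) [Fact ℓ.Prime] (hℓM : ¬ ℓ ∣ M), ℓ ≠ p → ∀ A : ValuationSubring Qbar,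
      A.LiesOverPrime ℓ → ∀ σ : GalQ, A.IsFrobeniusAt σ ℓ → ∀ x,
        (r σ (r σ x)).1 - HeckeLattice.transfer hℓM (r σ x).1 + ℓ • x.1 = 0)
    (hne : ∃ x ∈ eigenPart W M p T, x ≠ 0) {v : Fin 2 → ZMod p} (hv : v ≠ 0) :
    ∃ x ∈ eigenPart W M p T, x ≠ 0 ∧
      ∀ σ : GalQ, curveRep W hΔ p σ *ᵥ v = v → r σ x = x := by
  have hmem : ∀ σ, ∀ x ∈ eigenPart W M p T, r σ x ∈ eigenPart W M p T := by
    intro σ x hx ℓ _ hℓM hℓT
    rw [hcomm σ ℓ hℓM x (W.apOfModel ℓ • x) (hx ℓ hℓM hℓT), map_zsmul]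
    rfl
  set R := eigenAction r hmem with hR
  have hRlev : GaloisFactorsThroughFiniteLevel R := by
    obtain ⟨F, hF, h⟩ := hlev
    exact ⟨F, hF, fun σ hσ => LinearMap.ext fun x => Subtype.ext (by
      show r σ x.1 = x.1
      rw [h σ hσ]; rfl)⟩
  have hrel : ∀ σ, R σ + curveDet W hΔ p σ • R σ⁻¹ =
      (curveRep W hΔ p σ).trace • (1 : Module.End (ZMod p) (eigenPart W M p T)) := by
    refine AtP.rel_of_frobenius R (curveRep W hΔ p) hRlev (AtP.curveRep_finiteLevel W hΔ p) T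
      fun ℓ hℓ hℓT A hA φ hφ => ?_
    have := Fact.mk hℓ
    have hℓM : ¬ ℓ ∣ M := fun h => hℓT (hT ℓ hℓ (Or.inl h))
    have hℓp : ℓ ≠ p := fun h => hℓT (hT ℓ hℓ (Or.inr (Or.inl h)))
    have hgood : W.IsGoodPrimeFor ℓ := by
      by_contra h; exact hℓT (hT ℓ hℓ (Or.inr (Or.inr h)))
    obtain ⟨htr, hdet⟩ := AtP.curveRep_frobenius W hΔ p hℓ hℓp hgood hA hφ
    refine EigenRep.satisfiesQuadratic_of_sq (d := curveDet W hΔ p) ?_
    simp only [htr, hdet, Int.cast_smul_eq_zsmul, Nat.cast_smul_eq_nsmul]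
    refine LinearMap.ext fun x => Subtype.ext (Subtype.ext ?_)
    have h := hfrob ℓ hℓM hℓp A hA φ hφ x.1
    rw [(hmem φ x.1 x.2) ℓ hℓM hℓT] at h
    simp only [LinearMap.add_apply, LinearMap.sub_apply, LinearMap.smul_apply,
      Module.End.mul_apply, Module.End.one_apply, LinearMap.zero_apply, AddSubgroup.coe_add,
      AddSubgroupClass.coe_sub, AddSubgroupClass.coe_zsmul, AddSubmonoidClass.coe_nsmul,
      ZeroMemClass.coe_zero, Submodule.coe_add]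
    exact h
  obtain ⟨ψ, hψ⟩ := AtP.exists_matrix_algHom (d := curveDet W hΔ p) (ρ := curveRep W hΔ p) (R := R)
    hrel (AtP.span_curveRep W hΔ hp2 hirr) (TWHyp.two_ne_zero_of_ne_two hp2)
  obtain ⟨w₀, hw₀T, hw₀⟩ := hne
  obtain ⟨y, hy, hyfix⟩ := AtP.exists_fixed_vector hψ
    (w₀ := (⟨w₀, hw₀T⟩ : eigenPart W M p T)) (fun h => hw₀ (congrArg Subtype.val h)) hv
  exact ⟨y.1, y.2, fun h => hy (Subtype.ext h),
    fun σ hσ => congrArg Subtype.val (hyfix σ hσ)⟩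

/-- **The input of residual Carayol.** An eigen character modulo `p` fixed by inertia at `q`. -/
theorem exists_inertiaFixed_eigen (hΔ : W.Δ ≠ 0) (hW : W.IsSemistableModel) (hp2 : p ≠ 2)
    (hirr : W.ModRepIsIrreducible p) (hmod : CofiniteResModular W p M)
    (G : KummerES.Gamma0Modules M p) {q : ℕ} (hq : q.Prime) (hqp : q ≠ p)
    {A : ValuationSubring Qbar} (hA : A.LiesOverPrime q) :
    ∃ (T : Finset ℕ) (χ : parabolicHoms ℤ (Gamma0 M) (ZMod (p ^ 1))),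
      (∀ r : ℕ, r.Prime → (r ∣ M ∨ r = p ∨ ¬ W.IsGoodPrimeFor r) → r ∈ T) ∧ χ ≠ 0 ∧
      (∀ (ℓ : ℕ) [Fact ℓ.Prime] (hℓ : ¬ ℓ ∣ M), ℓ ∉ T →
        HeckeLattice.transfer hℓ χ.1 = W.apOfModel ℓ • χ.1) ∧
      ∀ σ ∈ A.inertiaSubgroupIn ℚ, G.rep 1 σ χ = χ := by
  classical
  suffices key : ∀ (m : ℕ), p = m →
      ∀ (r : GalQ →* AddMonoid.End (parabolicHoms ℤ (Gamma0 M) (ZMod m))),
      GaloisFactorsThroughFiniteLevel r →
      (∀ (σ : GalQ) (ℓ : ℕ) [Fact ℓ.Prime] (hℓM : ¬ ℓ ∣ M)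
        (x y : parabolicHoms ℤ (Gamma0 M) (ZMod m)), HeckeLattice.transfer hℓM x.1 = y.1 →
          HeckeLattice.transfer hℓM (r σ x).1 = (r σ y).1) →
      (∀ (ℓ : ℕ) [Fact ℓ.Prime] (hℓM : ¬ ℓ ∣ M), ℓ ≠ p → ∀ A : ValuationSubring Qbar,
        A.LiesOverPrime ℓ → ∀ σ : GalQ, A.IsFrobeniusAt σ ℓ → ∀ x,
          (r σ (r σ x)).1 - HeckeLattice.transfer hℓM (r σ x).1 + ℓ • x.1 = 0) →
      ∃ (T : Finset ℕ) (χ : parabolicHoms ℤ (Gamma0 M) (ZMod m)),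
        (∀ r : ℕ, r.Prime → (r ∣ M ∨ r = p ∨ ¬ W.IsGoodPrimeFor r) → r ∈ T) ∧ χ ≠ 0 ∧
        (∀ (ℓ : ℕ) [Fact ℓ.Prime] (hℓ : ¬ ℓ ∣ M), ℓ ∉ T →
          HeckeLattice.transfer hℓ χ.1 = W.apOfModel ℓ • χ.1) ∧
        ∀ σ ∈ A.inertiaSubgroupIn ℚ, r σ χ = χ from
    key (p ^ 1) (pow_one p).symm (G.rep 1) (G.finiteLevel 1)
      (fun σ ℓ hℓ hℓM x y h => G.hecke_comm 1 σ ℓ hℓ.out hℓM x y h)
      (fun ℓ hℓ hℓM hℓp B hB σ hσ x => G.frobenius 1 ℓ hℓ.out hℓM hℓp B hB σ hσ x)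
  rintro m rfl r hlev hcomm hfrob
  obtain ⟨T₀, -, -, φ, hφ, hφ0, hφT₀⟩ := AtP.exists_eigen_of_cofiniteResModular hmod
  set T : Finset ℕ := T₀ ∪ M.primeFactors ∪ {p} ∪ W.Δ.natAbs.primeFactors with hTdef
  have hT : ∀ q : ℕ, q.Prime → (q ∣ M ∨ q = p ∨ ¬ W.IsGoodPrimeFor q) → q ∈ T := by
    intro q hq hcase
    simp only [hTdef, Finset.mem_union, Finset.mem_singleton, Nat.mem_primeFactors]
    rcases hcase with h1 | h1 | h1
    · exact Or.inl (Or.inl (Or.inr ⟨hq, h1, NeZero.ne _⟩))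
    · exact Or.inl (Or.inr h1)
    · exact Or.inr ⟨hq, Int.natCast_dvd.mp (not_not.mp h1), Int.natAbs_ne_zero.mpr hΔ⟩
  have hne : ∃ y ∈ eigenPart W M p T, y ≠ 0 :=
    ⟨⟨φ, hφ⟩, fun ℓ _ hℓ hℓT => hφT₀ ℓ hℓ fun h' => hℓT (by simp [hTdef, h']),
      fun h0 => hφ0 (congrArg Subtype.val h0)⟩
  obtain ⟨x, hx, hxfix⟩ := exists_inertiaFixed_point W p hΔ hW hq hqp hA
  obtain ⟨v, hv, hvfix⟩ := AtP.exists_vector W hΔ hx
  obtain ⟨χ, hχT, hχ0, hfix⟩ := exists_fixed_eigen hΔ hp2 hirr hT r hlev hcomm hfrob hne hv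
  exact ⟨T, χ, hT, hχ0, fun ℓ _ hℓ hℓT => mem_eigenPart.mp hχT ℓ hℓ hℓT,
    fun σ hσ => hfix σ (hvfix σ (hxfix σ hσ))⟩

end Fermat.Agent.ResidualCarayol

end
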