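import Fermat.Agent.GroupH1.HeckePair
import Fermat.Agent.GroupH1.Through
import Fermat.Agent.HeckeCohom.Descend
import Fermat.Agent.Lifting.MinimalForm
import Fermat.Agent.TWHyp.Primes
import Fermat.Agent.LevelRaisingPrime.Frobenius
import Fermat.Agent.HeckeEigen.Lift
import Mathlib.NumberTheory.Padics.RingHoms

/-!
# From an eigen homomorphism to residual modularity

A nonzero homomorphism `Γ₀(L) → ℤ/p`, parabolic or not, with the eigenvalues of an irreducible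
semistable `W[p]` comes from a congruent eigenform of level `L`: a multiple of it lifts to `ℤ_p`
(for `p = 3` after one `T_ℓ`, `ℓ ≡ 2 (mod 3)`), and `T_ℓ₀ - (1 + ℓ₀)`, `ℓ₀ ≡ 1 (mod L)`, of the
lift is parabolic.
-/

set_option autoImplicit false

noncomputable section

open CongruenceSubgroup
open scoped MatrixGroups OnePoint

namespace Fermat.Agent.ResidualCarayol

open GroupH1 (GammaH heckeSystem Weights exists_next_eq exists_lift exists_lift_transfer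
  neg_one_mem_GammaH apply_neg_one)
open HeckeCohom (heckeOp topPull toTop wordAct wordEval OpIdx)
open LevelLowering (CofiniteResModular)

variable {p L : ℕ} [Fact p.Prime] [NeZero L]

/-- The reduction `ℤ_p → ℤ/p` as an additive map. -/
def redP (p : ℕ) [Fact p.Prime] : ℤ_[p] →+ ZMod p := (PadicInt.toZMod (p := p)).toAddMonoidHom

lemma isUnit_natCast_padic {n : ℕ} (h : ¬ p ∣ n) : IsUnit (n : ℤ_[p]) := by
  rw [PadicInt.isUnit_iff]
  refine le_antisymm (PadicInt.norm_le_one _) (not_lt.mp fun hlt => h ?_)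
  rw [← Int.natCast_dvd_natCast, ← PadicInt.norm_int_lt_one_iff_dvd]
  simpa using hlt

omit [NeZero L] in
/-- A nonzero multiple of an eigen homomorphism lifts to `ℤ_p`. -/
theorem exists_padic_lift_smul (hp2 : p ≠ 2) (φ : Additive (Gamma0 L) →+ ZMod p)
    (h3 : p = 3 → ∃ (ℓ : ℕ) (_ : Fact ℓ.Prime) (hℓL : ¬ ℓ ∣ L) (a : ℤ),
      ℓ % 3 = 2 ∧ (a : ZMod p) ≠ 0 ∧ HeckeLattice.transfer hℓL φ = a • φ) :
    ∃ (c : ZMod p) (ψ : Additive (Gamma0 L) →+ ℤ_[p]),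
      c ≠ 0 ∧ (redP p).comp ψ = c • φ := by
  let : Module ℤ_[p] (ZMod p) := Module.compHom (ZMod p) (PadicInt.toZMod (p := p))
  let π : ℤ_[p] →ₗ[ℤ_[p]] ZMod p :=
    { toFun := PadicInt.toZMod
      map_add' := map_add _
      map_smul' := fun a b => map_mul _ a b }
  have hπ : Function.Surjective π := ZMod.ringHom_surjective PadicInt.toZMod
  have hp := (Fact.out : p.Prime)
  have hu2 : IsUnit (2 : ℤ_[p]) := by
    exact_mod_cast isUnit_natCast_padic (p := p) (n := 2)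
      fun h => hp2 ((Nat.prime_dvd_prime_iff_eq hp Nat.prime_two).mp h)
  have hk2 : IsUnit (2 : ZMod p) := by
    simpa [map_ofNat] using hu2.map (PadicInt.toZMod (p := p))
  have hneg : (-1 : SL(2, ℤ)) ∈ GammaH L (⊤ : Subgroup (ZMod L)ˣ) :=
    neg_one_mem_GammaH (Subgroup.mem_top _)
  set φT : Additive (GammaH L (⊤ : Subgroup (ZMod L)ˣ)) →+ ZMod p :=
    φ.comp (toTop L).symm.toMonoidHom.toAdditive with hφT
  have hpull : topPull L (ZMod p) φT = φ := AddMonoidHom.ext fun γ => by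
    show φ (Additive.ofMul ((toTop L).symm (toTop L (Additive.toMul γ)))) = _
    rw [MulEquiv.symm_apply_apply]
    rfl
  by_cases hp3 : p = 3
  · obtain ⟨ℓ, _, hℓL, a, h2, ha, heig⟩ := h3 hp3
    choose c hc using exists_next_eq (H := (⊤ : Subgroup (ZMod L)ˣ)) (ℓ := ℓ) hℓL
    obtain ⟨ψ, hψ⟩ := exists_lift_transfer hneg (heckeSystem L ⊤ ℓ) ⟨∞, fun _ => hℓL⟩ c hc
      (Weights.ofStab hu2 hℓL h2 (Subgroup.mem_top _)) hu2 π hπ φT
    refine ⟨(a : ZMod p), topPull L ℤ_[p] ψ, ha, ?_⟩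
    rw [show (redP p).comp (topPull L ℤ_[p] ψ) = topPull L (ZMod p) (π.toAddMonoidHom.comp ψ) from
        rfl, hψ, ← HeckeCohom.heckeOp_topPull, hpull, HeckeCohom.heckeOp_of_not_dvd L hℓL, heig]
    exact (Int.cast_smul_eq_zsmul (ZMod p) a φ).symm
  · have hu3 : IsUnit (3 : ℤ_[p]) := by
      exact_mod_cast isUnit_natCast_padic (p := p) (n := 3)
        fun h => hp3 ((Nat.prime_dvd_prime_iff_eq hp Nat.prime_three).mp h)
    obtain ⟨ψ, hψ⟩ := exists_lift hneg (Weights.ofUnits hu2 hu3) π hπ φT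
      (apply_neg_one hk2 _ _)
    refine ⟨1, topPull L ℤ_[p] ψ, one_ne_zero, ?_⟩
    rw [show (redP p).comp (topPull L ℤ_[p] ψ) = topPull L (ZMod p) (π.toAddMonoidHom.comp ψ) from
        rfl, hψ, hpull, one_smul]

/-- An eigen homomorphism with a suitable auxiliary prime gives a character of the Hecke algebra. -/
theorem exists_ringHom_of_eigenHom {S : Set ℕ} (hNS : ∀ q : ℕ, q.Prime → q ∣ L → q ∈ S)
    {φ : Additive (Gamma0 L) →+ ZMod p} (hφ0 : φ ≠ 0) (a : ℕ → ℤ)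
    (ha : ∀ (ℓ : ℕ) [Fact ℓ.Prime] (hℓL : ¬ ℓ ∣ L), ℓ ∉ S →
      HeckeLattice.transfer hℓL φ = a ℓ • φ)
    {c : ZMod p} (hc : c ≠ 0) {ψ : Additive (Gamma0 L) →+ ℤ_[p]}
    (hψ : (redP p).comp ψ = c • φ) {ℓ₀ : ℕ} [hℓ₀ : Fact ℓ₀.Prime] (hℓ₀S : ℓ₀ ∉ S)
    (hone : (ℓ₀ : ZMod L) = 1) (hne : (a ℓ₀ : ZMod p) ≠ ((1 + ℓ₀ : ℤ) : ZMod p)) :
    ∃ θ : CuspForm.heckeAlgebra L 2 S →+* ZMod p, Function.Surjective θ ∧
      ∀ (ℓ : ℕ) (hℓ : ℓ.Prime) (hℓL : ¬ ℓ ∣ L) (hℓS : ℓ ∉ S),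
        θ (CuspForm.heckeAlgebra.T hℓ hℓL hℓS) = (a ℓ : ZMod p) := by
  let χ : FreeAlgebra ℤ (OpIdx S) →ₐ[ℤ] ZMod p :=
    FreeAlgebra.lift ℤ fun ℓ => ((a (ℓ.1 : ℕ) : ℤ) : ZMod p)
  have hlin : ∀ (P : FreeAlgebra ℤ (OpIdx S)) (u : ZMod p) (z : Additive (Gamma0 L) →+ ZMod p),
      wordAct L S (ZMod p) P (u • z) = u • wordAct L S (ZMod p) P z := fun P u z =>
    (HeckeCohom.comp_wordAct (N := L) (AddMonoidHom.mulLeft u) P z).symm
  have hop : ∀ (ℓ : ℕ) (hℓ : ℓ.Prime), ℓ ∉ S →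
      heckeOp L ℓ hℓ (ZMod p) φ = (a ℓ : ZMod p) • φ := by
    intro ℓ hℓ hℓS
    have := Fact.mk hℓ
    rw [HeckeCohom.heckeOp_of_not_dvd L (fun h => hℓS (hNS ℓ hℓ h)), ha ℓ _ hℓS,
      Int.cast_smul_eq_zsmul]
  have hχ : ∀ P, wordAct L S (ZMod p) P φ = χ P • φ := by
    intro P
    induction P using FreeAlgebra.induction with
    | grade0 r =>
      rw [AlgHom.commutes, AlgHom.commutes, Module.algebraMap_end_apply, algebraMap_int_eq,
        eq_intCast]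
      exact (Int.cast_smul_eq_zsmul (ZMod p) r φ).symm
    | grade1 ℓ => simpa [wordAct, χ, Int.cast_smul_eq_zsmul] using hop _ ℓ.1.2 ℓ.2
    | add P Q hP hQ => simp only [map_add, LinearMap.add_apply, hP, hQ, add_smul]
    | mul P Q hP hQ =>
      rw [map_mul, map_mul, Module.End.mul_apply, hQ, hlin, hP, smul_smul, mul_comm]
  set d : ZMod p := (a ℓ₀ : ZMod p) - ((1 + ℓ₀ : ℤ) : ZMod p) with hd
  set Y := heckeOp L ℓ₀ Fact.out ℤ_[p] ψ - (1 + ℓ₀ : ℤ) • ψ with hY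
  have hYred : (redP p).comp Y = (c * d) • φ := by
    refine AddMonoidHom.ext fun γ => ?_
    have e1 : redP p (heckeOp L ℓ₀ Fact.out ℤ_[p] ψ γ) = c * ((a ℓ₀ : ZMod p) * φ γ) := by
      rw [← AddMonoidHom.comp_apply, HeckeCohom.comp_heckeOp, hψ, HeckeCohom.heckeOp_smul,
        hop ℓ₀ hℓ₀.out hℓ₀S]
      rfl
    have e2 : redP p (ψ γ) = c * φ γ := DFunLike.congr_fun hψ γ
    rw [AddMonoidHom.comp_apply, hY, AddMonoidHom.sub_apply, AddMonoidHom.smul_apply, map_sub,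
      map_zsmul, e1, e2, AddMonoidHom.smul_apply, smul_eq_mul, hd, zsmul_eq_mul]
    ring
  have hd0 : c * d ≠ 0 := mul_ne_zero hc (sub_ne_zero.mpr hne)
  have hker : ∀ P, wordEval L S P = 0 → χ P = 0 := by
    intro P hP
    have h1 := congrArg (fun z => (redP p).comp z)
      (HeckeCohom.wordAct_heckeOp_sub hP hone (B := ℤ_[p]) ψ)
    simp only [AddMonoidHom.comp_zero] at h1
    rw [HeckeCohom.comp_wordAct, ← hY, hYred, hlin, hχ, smul_smul] at h1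
    exact (mul_eq_zero.1 ((smul_eq_zero.1 h1).resolve_right hφ0)).resolve_left hd0
  refine ⟨RingHom.liftOfSurjective (wordEval L S).toRingHom HeckeCohom.wordEval_surjective
    ⟨χ.toRingHom, fun P hP => RingHom.mem_ker.2 (hker P (RingHom.mem_ker.1 hP))⟩,
    ZMod.ringHom_surjective _, fun ℓ hℓ hℓL hℓS => ?_⟩
  rw [show CuspForm.heckeAlgebra.T hℓ hℓL hℓS =
      (wordEval L S).toRingHom (FreeAlgebra.ι ℤ ⟨⟨ℓ, hℓ⟩, hℓS⟩) by simp [wordEval, hℓL],
    RingHom.liftOfRightInverse_comp_apply]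
  simp [χ]

variable {W : WeierstrassCurve ℤ}

/-- **The output of residual Carayol.** An eigen homomorphism modulo `p` gives residual
modularity. -/
theorem cofiniteResModular_of_eigenHom (hΔ : W.Δ ≠ 0) (hW : W.IsSemistableModel) (hp2 : p ≠ 2)
    (hirr : W.ModRepIsIrreducible p) (φ : Additive (Gamma0 L) →+ ZMod p) (hφ0 : φ ≠ 0)
    (T : Finset ℕ)
    (ha : ∀ (ℓ : ℕ) [Fact ℓ.Prime] (hℓL : ¬ ℓ ∣ L), ℓ ∉ T →
      HeckeLattice.transfer hℓL φ = W.apOfModel ℓ • φ) :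
    CofiniteResModular W p L := by
  classical
  set S : Finset ℕ := T ∪ L.primeFactors with hS
  have hNS : ∀ q : ℕ, q.Prime → q ∣ L → q ∈ (S : Set ℕ) := fun q hq h =>
    Finset.mem_union_right _ (Nat.mem_primeFactors.mpr ⟨hq, h, NeZero.ne L⟩)
  have haS : ∀ (ℓ : ℕ) [Fact ℓ.Prime] (hℓL : ¬ ℓ ∣ L), ℓ ∉ (S : Set ℕ) →
      HeckeLattice.transfer hℓL φ = W.apOfModel ℓ • φ :=
    fun ℓ _ hℓL hℓS => ha ℓ hℓL fun h => hℓS (Finset.mem_union_left _ h)
  obtain ⟨c, ψ, hc, hψ⟩ := exists_padic_lift_smul hp2 φ fun h3 => by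
    subst h3
    obtain ⟨ℓ, hℓ, hℓS, -, -, h2, hne⟩ := TWHyp.exists_prime_two_mod_three W hΔ hW hirr S
    exact ⟨ℓ, ⟨hℓ⟩, fun h => hℓS (hNS ℓ hℓ h), W.apOfModel ℓ, h2, hne,
      have := Fact.mk hℓ; haS ℓ _ hℓS⟩
  set P : ℕ := ∏ q ∈ S.filter Nat.Prime, q
  have hP : 0 < P := Finset.prod_pos fun q hq => (Finset.mem_filter.mp hq).2.pos
  obtain ⟨ℓ₀, hℓ₀, hℓ₀M, -, hone, hne⟩ :=
    LevelRaisingPrime.exists_prime_one_mod_trace_ne_two W p hΔ hp2
      (LevelRaisingPrime.frobeniusTraceDet W Fact.out) hirr (L * P)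
      (Nat.mul_pos (NeZero.pos L) hP)
  have := Fact.mk hℓ₀
  have hℓ₀S : ℓ₀ ∉ (S : Set ℕ) := fun h => hℓ₀M ((dvd_mul_of_dvd_right
    (Finset.dvd_prod_of_mem _ (Finset.mem_filter.mpr ⟨h, hℓ₀⟩)) L).mul_right p)
  have honeL : (ℓ₀ : ZMod L) = 1 := by
    have := congrArg (ZMod.castHom ((dvd_mul_right L P).mul_left p) (ZMod L)) hone
    rwa [map_natCast, map_one] at this
  have honep : (ℓ₀ : ZMod p) = 1 := by
    have := congrArg (ZMod.castHom (dvd_mul_right p (L * P)) (ZMod p)) hone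
    rwa [map_natCast, map_one] at this
  obtain ⟨θ, hθ, hθT⟩ := exists_ringHom_of_eigenHom hNS hφ0 (fun ℓ => W.apOfModel ℓ) haS hc hψ
    hℓ₀S honeL (by
      push_cast
      rw [honep, one_add_one_eq_two]
      exact hne)
  obtain ⟨f, hf, Q, hQ, hchar, hT, -⟩ :=
    HeckeEigen.exists_eigenform_congruent (CuspIntStr.hasIntegralStructure L 2) θ hθ
  refine ⟨f, Q, hf, hQ, by simpa using hchar (p : ℤ) (by simp), S, fun ℓ hℓ hℓS => ?_⟩
  exact hT ℓ hℓ (fun h => hℓS (hNS ℓ hℓ h)) hℓS _ (hθT ℓ hℓ _ hℓS)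

/-- An eigen homomorphism at level `L` gives residual modularity at level `L`. -/
theorem isResiduallyModularOfLevel_of_eigenHom (hΔ : W.Δ ≠ 0) (hW : W.IsSemistableModel)
    (hp2 : p ≠ 2) (hirr : W.ModRepIsIrreducible p) (φ : Additive (Gamma0 L) →+ ZMod p)
    (hφ0 : φ ≠ 0) (T : Finset ℕ)
    (ha : ∀ (ℓ : ℕ) [Fact ℓ.Prime] (hℓL : ¬ ℓ ∣ L), ℓ ∉ T →
      HeckeLattice.transfer hℓL φ = W.apOfModel ℓ • φ) :
    W.IsResiduallyModularOfLevel p L :=
  Lifting.isResiduallyModularOfLevel_of_cofinite hΔ (NeZero.ne L)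
    (cofiniteResModular_of_eigenHom hΔ hW hp2 hirr φ hφ0 T ha)

/-- An eigen homomorphism at level `N` gives residual modularity at level `q N`. -/
theorem isResiduallyModularOfLevel_mul_of_eigenHom {N q : ℕ} [NeZero N] (hq : q.Prime)
    (hΔ : W.Δ ≠ 0) (hW : W.IsSemistableModel) (hp2 : p ≠ 2)
    (hirr : W.ModRepIsIrreducible p) (φ : Additive (Gamma0 N) →+ ZMod p) (hφ0 : φ ≠ 0)
    (T : Finset ℕ)
    (ha : ∀ (ℓ : ℕ) [Fact ℓ.Prime] (hℓN : ¬ ℓ ∣ N), ℓ ∉ T →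
      HeckeLattice.transfer hℓN φ = W.apOfModel ℓ • φ) :
    W.IsResiduallyModularOfLevel p (q * N) := by
  rw [mul_comm q N]
  exact Lifting.isResiduallyModularOfLevel_of_cofinite hΔ (mul_ne_zero (NeZero.ne N) hq.ne_zero)
    ((cofiniteResModular_of_eigenHom hΔ hW hp2 hirr φ hφ0 T ha).mul_prime
      (NeZero.pos N) hq)

end Fermat.Agent.ResidualCarayol

end
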