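import Fermat.Agent.ResidualCarayol.Geometry.Statement
import Fermat.Agent.ResidualCarayol.Input
import Fermat.Agent.ResidualCarayol.Output

/-!
# Residual Carayol from the geometric and the cohomological statements

The eigen character fixed by inertia at `q` is killed by three applications of every invariant
kernel killing old functions; the cohomological statement then produces an eigen homomorphism of
level `q N` or `N`.
-/

set_option autoImplicit false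

noncomputable section

namespace Fermat.Agent.ResidualCarayol

open CongruenceSubgroup
open ModularCurve.Period (IsParabolicHom parabolicHoms)
open scoped MatrixGroups

variable (q : ℕ) [Fact q.Prime]

/-- **The cohomological input**: an eigen character of level `q² N` killed by three applications
of the kernels killing old functions has an eigensystem of level `q N` or `N`. -/
def CohStatement (N p : ℕ) [NeZero N] [Fact p.Prime] : Prop :=
  ∀ (hqN : ¬ q ∣ N), p ≠ 2 → q ≠ p →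
    ∀ W : WeierstrassCurve ℤ, W.Δ ≠ 0 → W.IsSemistableModel → W.ModRepIsIrreducible p →
    ∀ (T : Finset ℕ) (χ : Additive (Gamma0 (q ^ 2 * N)) →+ ZMod p),
      (∀ r : ℕ, r.Prime → (r ∣ q ^ 2 * N ∨ r = p ∨ ¬ W.IsGoodPrimeFor r) → r ∈ T) →
      χ ≠ 0 → IsParabolicHom (Gamma0 (q ^ 2 * N)) χ →
      (∀ (ℓ : ℕ) [Fact ℓ.Prime] (hℓ : ¬ ℓ ∣ q ^ 2 * N), ℓ ∉ T →
        HeckeLattice.transfer hℓ χ = W.apOfModel ℓ • χ) →
      (∀ (A : Pair q → Pair q → ZMod p) (hA : IsInvariant A), KillsOld A →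
        opHom hqN A hA (opHom hqN A hA (opHom hqN A hA χ)) = 0) →
      (∃ (T₁ : Finset ℕ) (ψ : Additive (Gamma0 (q * N)) →+ ZMod p), ψ ≠ 0 ∧
        ∀ (ℓ : ℕ) [Fact ℓ.Prime] (hℓ : ¬ ℓ ∣ q * N), ℓ ∉ T₁ →
          HeckeLattice.transfer hℓ ψ = W.apOfModel ℓ • ψ) ∨
      ∃ (T₁ : Finset ℕ) (ψ : Additive (Gamma0 N) →+ ZMod p), ψ ≠ 0 ∧
        ∀ (ℓ : ℕ) [Fact ℓ.Prime] (hℓ : ¬ ℓ ∣ N), ℓ ∉ T₁ →
          HeckeLattice.transfer hℓ ψ = W.apOfModel ℓ • ψ

variable {q}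

/-- The eigen character fixed by inertia is killed by three applications of the kernels. -/
theorem exists_killed_eigen {N p : ℕ} [NeZero N] [Fact p.Prime] (hgeo : GeoStatement q N p)
    (hqN : ¬ q ∣ N) (hqp : q ≠ p) (hp2 : p ≠ 2) {W : WeierstrassCurve ℤ} (hΔ : W.Δ ≠ 0)
    (hW : W.IsSemistableModel) (hirr : W.ModRepIsIrreducible p)
    (hmod : LevelLowering.CofiniteResModular W p (q ^ 2 * N)) :
    ∃ (T : Finset ℕ) (χ : Additive (Gamma0 (q ^ 2 * N)) →+ ZMod p),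
      (∀ r : ℕ, r.Prime → (r ∣ q ^ 2 * N ∨ r = p ∨ ¬ W.IsGoodPrimeFor r) → r ∈ T) ∧
      χ ≠ 0 ∧ IsParabolicHom (Gamma0 (q ^ 2 * N)) χ ∧
      (∀ (ℓ : ℕ) [Fact ℓ.Prime] (hℓ : ¬ ℓ ∣ q ^ 2 * N), ℓ ∉ T →
        HeckeLattice.transfer hℓ χ = W.apOfModel ℓ • χ) ∧
      ∀ (A : Pair q → Pair q → ZMod p) (hA : IsInvariant A), KillsOld A →
        opHom hqN A hA (opHom hqN A hA (opHom hqN A hA χ)) = 0 := by
  have hq := (Fact.out : q.Prime)
  have hp := (Fact.out : p.Prime)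
  have : NeZero (q ^ 2 * N) := ⟨mul_ne_zero (pow_ne_zero 2 hq.ne_zero) (NeZero.ne N)⟩
  have : NeZero p := ⟨hp.ne_zero⟩
  obtain ⟨G, hG⟩ := KummerDivisor.exists_modules_algebraicRoots (q ^ 2 * N) p hp
  obtain ⟨Av, hAv⟩ := GaloisBasics.exists_liesOverPrime hq
  obtain ⟨T, χ, hT, hχ0, heig, hfix⟩ :=
    exists_inertiaFixed_eigen hΔ hW hp2 hirr hmod G hq hqp hAv
  suffices key : ∀ (m : ℕ), p = m → ∀ χ : parabolicHoms ℤ (Gamma0 (q ^ 2 * N)) (ZMod m),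
      χ ≠ 0 →
      (∀ (ℓ : ℕ) [Fact ℓ.Prime] (hℓ : ¬ ℓ ∣ q ^ 2 * N), ℓ ∉ T →
        HeckeLattice.transfer hℓ χ.1 = W.apOfModel ℓ • χ.1) →
      (∀ (A : Pair q → Pair q → ZMod m) (hA : IsInvariant A), KillsOld A →
        opHom hqN A hA (opHom hqN A hA (opHom hqN A hA χ.1)) = 0) →
      ∃ χ' : Additive (Gamma0 (q ^ 2 * N)) →+ ZMod p,
        χ' ≠ 0 ∧ IsParabolicHom (Gamma0 (q ^ 2 * N)) χ' ∧
        (∀ (ℓ : ℕ) [Fact ℓ.Prime] (hℓ : ¬ ℓ ∣ q ^ 2 * N), ℓ ∉ T →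
          HeckeLattice.transfer hℓ χ' = W.apOfModel ℓ • χ') ∧
        ∀ (A : Pair q → Pair q → ZMod p) (hA : IsInvariant A), KillsOld A →
          opHom hqN A hA (opHom hqN A hA (opHom hqN A hA χ')) = 0 from
    have ⟨χ', h'⟩ := key (p ^ 1) (pow_one p).symm χ hχ0 heig fun A hA hkill =>
      hgeo hqN G hG Av hAv A hA hkill.classSumsVanish χ hfix
    ⟨T, χ', hT, h'⟩
  rintro m rfl χ hχ0 heig hgeo'
  exact ⟨χ.1, fun h => hχ0 (Subtype.ext h), χ.2, fun ℓ _ hℓ hℓT => heig ℓ hℓ hℓT, hgeo'⟩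

/-- **Residual Carayol from the geometric and the cohomological statements.** -/
theorem residualCarayol_of
    (hgeo : ∀ (q N p : ℕ) [Fact q.Prime] [NeZero N] [NeZero p], p.Prime → p ≠ 2 → q ≠ p →
      GeoStatement q N p)
    (hcoh : ∀ (q N p : ℕ) [Fact q.Prime] [NeZero N] [Fact p.Prime], CohStatement q N p) :
    Lifting.ResidualCarayol := by
  intro W hW hΔ p hp hirr q hq hqp M hM hq2 hq3 hres
  have hp' : p.Prime := by rcases hp with rfl | rfl <;> norm_num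
  have hp2 : p ≠ 2 := by omega
  have := Fact.mk hp'
  have := Fact.mk hq
  obtain ⟨N, rfl⟩ := hq2
  have hqN : ¬ q ∣ N := fun h => hq3 (by
    rw [pow_succ]
    exact mul_dvd_mul_left _ h)
  have : NeZero N := ⟨right_ne_zero_of_mul hM.ne'⟩
  have : NeZero p := ⟨hp'.ne_zero⟩
  have hdiv : q ^ 2 * N / q = q * N := by
    rw [sq, mul_assoc, Nat.mul_div_cancel_left _ hq.pos]
  obtain ⟨T, χ, hT, hχ0, hχ, heig, hkill⟩ := exists_killed_eigen
    (hgeo q N p hp' hp2 hqp) hqN hqp hp2 hΔ hW hirr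
    (LevelLowering.cofiniteResModular_of_isResiduallyModularOfLevel hΔ hM.ne' hres)
  rw [hdiv]
  have : NeZero (q * N) := ⟨mul_ne_zero hq.ne_zero (NeZero.ne N)⟩
  rcases hcoh q N p hqN hp2 hqp W hΔ hW hirr T χ hT hχ0 hχ heig hkill with
    ⟨T₁, ψ, hψ0, hψ⟩ | ⟨T₁, ψ, hψ0, hψ⟩
  · exact isResiduallyModularOfLevel_of_eigenHom hΔ hW hp2 hirr ψ hψ0 T₁ hψ
  · exact isResiduallyModularOfLevel_mul_of_eigenHom hq hΔ hW hp2 hirr ψ hψ0 T₁ hψ

end Fermat.Agent.ResidualCarayol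

end
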