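import Fermat.Agent.ResidualCarayol.Descend
import Fermat.Agent.ResidualCarayol.Main

/-!
# The cohomological statement of residual Carayol

The auxiliary primes of the descent theorem exist for an irreducible semistable `W[p]`.
-/

set_option autoImplicit false

noncomputable section

namespace Fermat.Agent.ResidualCarayol

open CongruenceSubgroup
open scoped MatrixGroups

/-- **The cohomological input of residual Carayol.** -/
theorem cohStatement (q N p : ℕ) [Fact q.Prime] [NeZero N] [hp : Fact p.Prime] :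
    CohStatement q N p := by
  classical
  intro hqN hp2 hqp W hΔ hW hirr T χ hT hχ0 _ heig hop
  have hq := (Fact.out : q.Prime)
  have hne0 : ∀ r : ℕ, r.Prime → r ≠ p → (r : ZMod p) ≠ 0 := fun r hr hrp h => hrp
    ((Nat.prime_dvd_prime_iff_eq hp.out hr).1 ((ZMod.natCast_eq_zero_iff _ _).1 h)).symm
  have hq0 : (q : ZMod p) ≠ 0 := hne0 q hq hqp
  have h20 : (2 : ZMod p) ≠ 0 := by exact_mod_cast hne0 2 Nat.prime_two (Ne.symm hp2)
  have hTN : ∀ r : ℕ, r.Prime → r ∣ q * N → r ∈ T := fun r hr h =>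
    hT r hr (Or.inl (h.trans (mul_dvd_mul_right (dvd_pow_self q two_ne_zero) N)))
  have h3 : (3 : ZMod p) ≠ 0 ∨
      ∃ ℓ, ℓ.Prime ∧ ℓ ∉ T ∧ ℓ % 3 = 2 ∧ (W.apOfModel ℓ : ZMod p) ≠ 0 := by
    by_cases hp3 : p = 3
    · subst hp3
      obtain ⟨ℓ, hℓ, hℓT, -, -, h2, hne⟩ := TWHyp.exists_prime_two_mod_three W hΔ hW hirr T
      exact Or.inr ⟨ℓ, hℓ, hℓT, h2, hne⟩
    · exact Or.inl (by exact_mod_cast hne0 3 Nat.prime_three (Ne.symm hp3))
  have hne : ∃ ℓ, ℓ.Prime ∧ ℓ ∉ T ∧ (W.apOfModel ℓ : ZMod p) ≠ (ℓ : ZMod p) + 1 := by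
    set P : ℕ := ∏ r ∈ T.filter Nat.Prime, r
    obtain ⟨ℓ, hℓ, hℓP, -, hone, hne⟩ :=
      LevelRaisingPrime.exists_prime_one_mod_trace_ne_two W p hΔ hp2
        (LevelRaisingPrime.frobeniusTraceDet W hp.out) hirr P
        (Finset.prod_pos fun r hr => (Finset.mem_filter.mp hr).2.pos)
    refine ⟨ℓ, hℓ, fun h => hℓP
      ((Finset.dvd_prod_of_mem _ (Finset.mem_filter.mpr ⟨h, hℓ⟩)).mul_right p), ?_⟩
    have honep : (ℓ : ZMod p) = 1 := by
      have := congrArg (ZMod.castHom (dvd_mul_right p P) (ZMod p)) hone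
      rwa [map_natCast, map_one] at this
    rwa [honep, one_add_one_eq_two]
  rcases exists_eigen_of_opHom hqN hq0 h20 T hTN (fun ℓ => W.apOfModel ℓ) h3 hne χ hχ0 heig hop with
    ⟨ψ, h0, h⟩ | ⟨ψ, h0, h⟩
  · exact Or.inl ⟨T, ψ, h0, h⟩
  · exact Or.inr ⟨T, ψ, h0, h⟩

/-- Residual Carayol from the geometric statement. -/
theorem residualCarayol_of_geo
    (hgeo : ∀ (q N p : ℕ) [Fact q.Prime] [NeZero N] [NeZero p], p.Prime → p ≠ 2 → q ≠ p →
      GeoStatement q N p) : Lifting.ResidualCarayol :=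
  residualCarayol_of hgeo fun q N p _ _ _ => cohStatement q N p

end Fermat.Agent.ResidualCarayol

end
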