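import Fermat.Agent.ResidualCarayol.Eigen
import Mathlib.LinearAlgebra.Dual.Lemmas
import Mathlib.LinearAlgebra.Basis.VectorSpace

/-!
# The top layer of a stable subspace

A maximal stable subspace of a stable space of functions on pairs with vanishing fibre sums on
which killers act nilpotently is cut out by an invariant functional or by an equivariant map to
functions on the projective line modulo constants.
-/

set_option autoImplicit false

noncomputable section

namespace Fermat.Agent.ResidualCarayol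

open Matrix
open scoped OnePoint

variable {q : ℕ} [Fact q.Prime] {k : Type*} [Field k]

variable (q k) in
/-- The constant functions on the projective line. -/
def constFun : Submodule k (Line q → k) := Submodule.span k {1}

omit [Fact (Nat.Prime q)] in
/-- `constFun` consists of the constant functions. -/
lemma mem_constFun {f : Line q → k} : f ∈ constFun q k ↔ ∀ x y, f x = f y := by
  refine ⟨fun h x y => ?_, fun h => Submodule.mem_span_singleton.2 ⟨f ∞, funext fun x => ?_⟩⟩
  · obtain ⟨a, rfl⟩ := Submodule.mem_span_singleton.1 h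
    simp
  · simp [h x ∞]

/-- `perm` preserves the constant functions. -/
lemma perm_mem_constFun (g : Grp q) {f : Line q → k} (hf : f ∈ constFun q k) :
    perm k g f ∈ constFun q k :=
  mem_constFun.2 fun _ _ => mem_constFun.1 hf _ _

/-- `Deep` is monotone in the subspace. -/
lemma Deep.mono {S S' : Submodule k (Pair q → k)} (h : S ≤ S') :
    ∀ {m : ℕ} {f : Pair q → k}, Deep S m f → Deep S' m f
  | 0, _, hf => h hf
  | _ + 1, _, hf => fun X hX => Deep.mono h (hf X hX)

lemma IsKiller.mulVec_mem (hq : (q : k) ≠ 0) {A : Submodule k (Pair q → k)} (hA : IsStable A)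
    {X : Matrix (Pair q) (Pair q) k} (hX : IsKiller X) {f : Pair q → k} (hf : f ∈ A)
    (hc : IsCirc f) (hs : sumSnd f = 0) :
    X *ᵥ f ∈ A ∧ IsCirc (X *ᵥ f) ∧ sumSnd (X *ᵥ f) = 0 := by
  have hcomm := hX.compressed.comm hq (hc.isCompressed hs)
  refine ⟨?_, ?_, hX.compressed.sumSnd_mulVec hq f⟩
  · rw [← hc.ofVec_base, mulVec_mulVec, hcomm, ← mulVec_mulVec]
    exact hA.ofVec_mem hf _
  · have h := (hX.compressed.mul (hc.isCompressed hs)).isCirc hq
    rwa [← mulVec_mulVec, hc.ofVec_base] at h

/-- A vector all of whose killer images lie in `A'`, but which does not. -/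
theorem exists_socle_vector (hq : (q : k) ≠ 0) {A A' : Submodule k (Pair q → k)} (hA : IsStable A) :
    ∀ (m : ℕ) (f : Pair q → k), f ∈ A → IsCirc f → sumSnd f = 0 → Deep A' m f → f ∉ A' →
      ∃ a ∈ A, IsCirc a ∧ sumSnd a = 0 ∧ a ∉ A' ∧
        ∀ X : Matrix (Pair q) (Pair q) k, IsKiller X → X *ᵥ a ∈ A'
  | 0, f, _, _, _, hd, hn => absurd hd hn
  | m + 1, f, hf, hc, hs, hd, hn => by
    by_cases h : ∀ X : Matrix (Pair q) (Pair q) k, IsKiller X → X *ᵥ f ∈ A'
    · exact ⟨f, hf, hc, hs, hn, h⟩
    · push Not at h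
      obtain ⟨X, hX, hXf⟩ := h
      obtain ⟨h1, h2, h3⟩ := hX.mulVec_mem hq hA hf hc hs
      exact exists_socle_vector hq hA m _ h1 h2 h3 (hd X hX) hXf

/-! ### A central element separating the determinant character -/

/-- The matrices with given trace and determinant. -/
def conjClass (t n : ZMod q) : Finset (Grp q) :=
  haveI := Fintype.ofFinite (Grp q)
  Finset.univ.filter fun g =>
    (g : Matrix (Fin 2) (Fin 2) (ZMod q)).trace = t ∧ (g : Matrix (Fin 2) (Fin 2) (ZMod q)).det = n

lemma mem_conjClass {t n : ZMod q} {g : Grp q} :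
    g ∈ conjClass t n ↔ (g : Matrix (Fin 2) (Fin 2) (ZMod q)).trace = t ∧
      (g : Matrix (Fin 2) (Fin 2) (ZMod q)).det = n := by
  simp [conjClass]

lemma conj_mem_conjClass {t n : ZMod q} {g : Grp q} (hg : g ∈ conjClass t n) (h : Grp q) :
    h * g * h⁻¹ ∈ conjClass t n := by
  rw [mem_conjClass] at hg ⊢
  rw [GeneralLinearGroup.coe_mul, GeneralLinearGroup.coe_mul, trace_units_conj, det_units_conj]
  exact hg

/-- The kernel of the sum over a class. -/
def classKer (k : Type*) [Field k] (t n : ZMod q) : Matrix (Pair q) (Pair q) k :=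
  Matrix.of fun y z => ∑ g ∈ conjClass t n, if g⁻¹ • y = z then 1 else 0

lemma classKer_mulVec (t n : ZMod q) (f : Pair q → k) :
    classKer k t n *ᵥ f = ∑ g ∈ conjClass t n, perm k g f := by
  funext y
  simp only [mulVec, dotProduct, classKer, of_apply, Finset.sum_mul, Finset.sum_apply, perm_apply]
  rw [Finset.sum_comm]
  exact Finset.sum_congr rfl fun g _ => by simp

lemma isInvariant_classKer (t n : ZMod q) : IsInvariant (classKer k t n) := fun h y z => by
  show (∑ g ∈ conjClass t n, if g⁻¹ • h • y = h • z then (1 : k) else 0) =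
    ∑ g ∈ conjClass t n, if g⁻¹ • y = z then (1 : k) else 0
  refine Finset.sum_bij (fun g _ => h⁻¹ * g * h) (fun g hg => ?_)
    (fun a _ b _ e => mul_left_cancel (mul_right_cancel e)) (fun g hg => ?_) (fun g _ => ?_)
  · simpa using conj_mem_conjClass hg h⁻¹
  · exact ⟨h * g * h⁻¹, conj_mem_conjClass hg h, by group⟩
  · refine if_congr ?_ rfl rfl
    simp only [_root_.mul_inv_rev, inv_inv, mul_smul, inv_smul_eq_iff]

/-- Number of elements of the class taking `∞` to a given point. -/
def classCount (t n : ZMod q) (x : Line q) : ℕ :=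
  ((conjClass t n).filter fun g => g • (∞ : Line q) = x).card

lemma classCount_coe (t n a : ZMod q) :
    classCount t n (a : Line q) = classCount t n ((0 : ZMod q) : Line q) := by
  refine Finset.card_bij (fun g _ => upper (-a) * g * (upper (-a))⁻¹) (fun g hg => ?_)
    (fun x _ y _ e => mul_left_cancel (mul_right_cancel e)) (fun g hg => ?_)
  · rw [Finset.mem_filter] at hg ⊢
    refine ⟨conj_mem_conjClass hg.1 _, ?_⟩
    rw [mul_smul, mul_smul, inv_smul_eq_iff.2 (upper_smul_infty _).symm, hg.2, upper_smul_coe,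
      add_neg_cancel]
  · rw [Finset.mem_filter] at hg
    refine ⟨(upper (-a))⁻¹ * g * upper (-a), Finset.mem_filter.2 ⟨?_, ?_⟩, by group⟩
    · simpa using conj_mem_conjClass hg.1 (upper (-a))⁻¹
    · rw [mul_smul, mul_smul, upper_smul_infty, hg.2, inv_smul_eq_iff, upper_smul_coe,
        add_neg_cancel]

lemma card_conjClass (t n : ZMod q) :
    ((conjClass t n).card : k) =
      classCount t n (∞ : Line q) + (q : k) * classCount t n ((0 : ZMod q) : Line q) := by
  rw [Finset.card_eq_sum_card_fiberwise (f := fun g : Grp q => g • (∞ : Line q))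
    (t := Finset.univ) (fun _ _ => Finset.mem_univ _)]
  show ((∑ x : Line q, classCount t n x : ℕ) : k) = _
  rw [show (∑ x : Line q, classCount t n x) =
    classCount t n (∞ : Line q) + ∑ a : ZMod q, classCount t n (a : Line q) from
      Fintype.sum_option _]
  rw [Finset.sum_congr rfl fun a _ => classCount_coe t n a, Finset.sum_const, Finset.card_univ,
    ZMod.card, smul_eq_mul]
  push_cast
  rfl

lemma proj_classKer_indFst (hq : (q : k) ≠ 0) (t n : ZMod q) :
    (proj q k * classKer k t n * proj q k) *ᵥ indFst q k =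
      ((classCount t n (∞ : Line q) : k) - classCount t n ((0 : ZMod q) : Line q)) •
        (proj q k *ᵥ indFst q k) := by
  have h0 : ∀ s : Line q → k, proj q k *ᵥ (classKer k t n *ᵥ liftSnd s) = 0 := fun s => by
    rw [classKer_mulVec, mulVec_sum]
    exact Finset.sum_eq_zero fun g _ => proj_mulVec_liftSnd hq (perm k g s)
  have h1 : classKer k t n *ᵥ indFst q k =
      ((classCount t n (∞ : Line q) : k) - classCount t n ((0 : ZMod q) : Line q)) • indFst q k +
        (classCount t n ((0 : ZMod q) : Line q) : k) • liftSnd (fun _ => 1) := by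
    funext y
    rw [classKer_mulVec, Finset.sum_apply]
    have e : ∀ g : Grp q, perm k g (indFst q k) y =
        if g • (∞ : Line q) = y.fst then 1 else 0 := fun g => by
      simp [indFst, liftFst, Pi.single_apply, inv_smul_eq_iff, eq_comm]
    rw [Finset.sum_congr rfl fun g _ => e g, Finset.sum_boole]
    show (classCount t n y.fst : k) = _
    simp only [Pi.add_apply, Pi.smul_apply, smul_eq_mul, liftSnd, indFst, liftFst, mul_one]
    by_cases hy : y.fst = ∞
    · rw [hy, Pi.single_eq_same, mul_one, sub_add_cancel]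
    · obtain ⟨a, ha⟩ := OnePoint.ne_infty_iff_exists.1 hy
      rw [Pi.single_eq_of_ne hy, mul_zero, zero_add, ← ha, classCount_coe]
  rw [← mulVec_mulVec, ← mulVec_mulVec]
  conv_lhs => rw [proj_mulVec (indFst q k)]
  rw [mulVec_sub, mulVec_sub, mulVec_smul, mulVec_smul, h0, smul_zero, sub_zero, h1, mulVec_add,
    mulVec_smul, mulVec_smul, proj_mulVec_liftSnd hq, smul_zero, add_zero]

lemma classCount_infty (t n : ZMod q) (hn : n ≠ 0) :
    classCount t n (∞ : Line q) =
      (Finset.univ.filter fun a : ZMod q => a * (t - a) = n).card * q := by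
  rw [show (Finset.univ.filter fun a : ZMod q => a * (t - a) = n).card * q =
    ((Finset.univ.filter fun a : ZMod q => a * (t - a) = n) ×ˢ
      (Finset.univ : Finset (ZMod q))).card by
        rw [Finset.card_product, Finset.card_univ, ZMod.card]]
  refine Finset.card_bij (fun g _ => (g 0 0, g 0 1)) (fun g hg => ?_) (fun g hg h hh e => ?_)
    (fun p hp => ?_)
  · rw [Finset.mem_filter, mem_conjClass, trace_fin_two, det_fin_two,
      OnePoint.smul_infty_eq_self_iff] at hg
    refine Finset.mem_product.2 ⟨Finset.mem_filter.2 ⟨Finset.mem_univ _, ?_⟩, Finset.mem_univ _⟩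
    linear_combination hg.1.2 - g 0 0 * hg.1.1 + g 0 1 * hg.2
  · rw [Finset.mem_filter, mem_conjClass, trace_fin_two,
      OnePoint.smul_infty_eq_self_iff] at hg hh
    rw [Prod.mk.injEq] at e
    apply Units.ext; ext i j
    fin_cases i <;> fin_cases j
    · exact e.1
    · exact e.2
    · exact hg.2.trans hh.2.symm
    · show g 1 1 = h 1 1
      linear_combination hg.1.1 - hh.1.1 - e.1
  · rw [Finset.mem_product, Finset.mem_filter] at hp
    refine ⟨GeneralLinearGroup.mkOfDetNeZero !![p.1, p.2; 0, t - p.1] ?_, ?_, ?_⟩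
    · rw [det_fin_two_of, mul_zero, sub_zero, hp.1.2]; exact hn
    · rw [Finset.mem_filter, mem_conjClass, OnePoint.smul_infty_eq_self_iff]
      simp [trace_fin_two, det_fin_two, hp.1.2]
    · simp

lemma classCount_zero (t n : ZMod q) (hn : n ≠ 0) :
    classCount t n ((0 : ZMod q) : Line q) = q - 1 := by
  rw [show q - 1 = (Finset.univ.erase (0 : ZMod q)).card by
    rw [Finset.card_erase_of_mem (Finset.mem_univ _), Finset.card_univ, ZMod.card]]
  have key : ∀ g : Grp q, g • (∞ : Line q) = ((0 : ZMod q) : Line q) → g 1 0 ≠ 0 ∧ g 0 0 = 0 := by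
    intro g hg
    rw [OnePoint.smul_infty_eq_ite] at hg
    by_cases hc : g 1 0 = 0
    · rw [if_pos hc] at hg; exact absurd hg (OnePoint.infty_ne_coe _)
    · rw [if_neg hc, OnePoint.coe_eq_coe] at hg
      exact ⟨hc, by simpa [hc] using hg⟩
  refine Finset.card_bij (fun g _ => g 1 0) (fun g hg => ?_) (fun g hg h hh e => ?_)
    (fun c hc => ?_)
  · rw [Finset.mem_filter] at hg
    exact Finset.mem_erase.2 ⟨(key g hg.2).1, Finset.mem_univ _⟩
  · rw [Finset.mem_filter, mem_conjClass, trace_fin_two, det_fin_two] at hg hh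
    obtain ⟨hgc, hga⟩ := key g hg.2
    obtain ⟨-, hha⟩ := key h hh.2
    apply Units.ext; ext i j
    fin_cases i <;> fin_cases j
    · exact hga.trans hha.symm
    · show g 0 1 = h 0 1
      refine mul_right_cancel₀ hgc ?_
      linear_combination -hg.1.2 + hh.1.2 + g 1 1 * hga - h 1 1 * hha - h 0 1 * e
    · exact e
    · show g 1 1 = h 1 1
      linear_combination hg.1.1 - hh.1.1 - hga + hha
  · have hc0 := (Finset.mem_erase.1 hc).1
    refine ⟨GeneralLinearGroup.mkOfDetNeZero !![0, -n / c; c, t] ?_, ?_, ?_⟩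
    · rw [det_fin_two_of, zero_mul, zero_sub, neg_div, neg_mul, neg_neg, div_mul_cancel₀ _ hc0]
      exact hn
    · rw [Finset.mem_filter, mem_conjClass, OnePoint.smul_infty_eq_ite]
      simp [trace_fin_two, det_fin_two, hc0]
    · simp

/-- A class of nonsquare determinant for which `|C| + a` is not zero. -/
theorem exists_class (h2 : (2 : k) ≠ 0) {d : ZMod q} (hd : d ≠ 0) (hsq : ¬ IsSquare d) :
    ∃ t : ZMod q, ((conjClass t d).card : k) +
      ((classCount t d (∞ : Line q) : k) - classCount t d ((0 : ZMod q) : Line q)) ≠ 0 := by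
  have hq1 : ((q - 1 : ℕ) : k) = (q : k) - 1 := by
    rw [Nat.cast_sub (Fact.out : q.Prime).one_le, Nat.cast_one]
  by_cases hqk : (q : k) + 1 = 0
  · obtain ⟨t, ht⟩ : ∃ t : ZMod q, ∀ a, a * (t - a) ≠ d := by
      by_contra h
      push Not at h
      choose a ha using h
      have ha0 : ∀ t, a t ≠ 0 := fun t h0 => hd (by rw [← ha t, h0, zero_mul])
      have hinj : Function.Injective (fun t => Units.mk0 (a t) (ha0 t)) := fun t t' e => by
        have e' : a t = a t' := congrArg Units.val e
        have h1 := ha t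
        rw [e', ← ha t'] at h1
        exact sub_left_injective (mul_left_cancel₀ (ha0 t') h1)
      have := Fintype.card_le_of_injective _ hinj
      rw [ZMod.card, Fintype.card_units, ZMod.card] at this
      have := (Fact.out : q.Prime).two_le
      omega
    refine ⟨t, ?_⟩
    rw [card_conjClass, classCount_infty t d hd, classCount_zero t d hd,
      Finset.filter_false_of_mem fun a _ => ht a, Finset.card_empty, zero_mul, Nat.cast_zero, hq1]
    intro h
    refine mul_ne_zero h2 h2 ?_
    linear_combination h - ((q : k) - 3) * hqk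
  · refine ⟨1 + d, ?_⟩
    have hd1 : d ≠ 1 := fun h => hsq (h ▸ IsSquare.one)
    have e : (Finset.univ.filter fun a : ZMod q => a * (1 + d - a) = d) = {1, d} := by
      ext a
      simp only [Finset.mem_filter, Finset.mem_univ, true_and, Finset.mem_insert,
        Finset.mem_singleton]
      constructor
      · intro h
        have h' : (a - 1) * (a - d) = 0 := by linear_combination -h
        rcases mul_eq_zero.1 h' with h | h
        exacts [Or.inl (sub_eq_zero.1 h), Or.inr (sub_eq_zero.1 h)]
      · rintro (rfl | rfl) <;> ring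
    rw [card_conjClass, classCount_infty _ d hd, classCount_zero _ d hd, e,
      Finset.card_pair (Ne.symm hd1), Nat.cast_mul, hq1]
    intro h
    refine mul_ne_zero hqk hqk ?_
    push_cast at h
    linear_combination h

variable {A A' : Submodule k (Pair q → k)}

/-- If all traces lie in `A'` then the whole group acts trivially modulo `A'`. -/
theorem perm_sub_mem (hq : (q : k) ≠ 0) (h2 : (2 : k) ≠ 0) (hA : IsStable A) (hA' : IsStable A')
    (hs : ∀ f ∈ A, sumSnd f = 0) {m : ℕ} (hdeep : ∀ f ∈ A, Deep A' m f)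
    (htr : ∀ f ∈ A, circTrace f ∈ A') (g : Grp q) {f : Pair q → k} (hf : f ∈ A) :
    perm k g f - f ∈ A' := by
  -- determinants one
  have hsl := fun (h : Grp q) (hh : (h : Matrix (Fin 2) (Fin 2) (ZMod q)).det = 1)
    (f : Pair q → k) (hf : f ∈ A) => perm_sub_mem_of_det hq hA hA' htr hh hf
  have hdet : (g : Matrix (Fin 2) (Fin 2) (ZMod q)).det ≠ 0 := g.det_ne_zero
  set d := (g : Matrix (Fin 2) (Fin 2) (ZMod q)).det
  -- reduce to a diagonal matrix
  have hsquare : ∀ (c : ZMod q) (hc : c ≠ 0), IsSquare c → ∀ f ∈ A,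
      perm k (diagGrp c hc) f - f ∈ A' := by
    intro c hc hsq f hf
    obtain ⟨r, rfl⟩ := hsq
    have hr : r ≠ 0 := left_ne_zero_of_mul hc
    let s : Grp q := GeneralLinearGroup.mkOfDetNeZero !![r, 0; 0, r⁻¹]
      (by simp [det_fin_two_of, hr])
    rw [perm_eq_of_smul (g := diagGrp (r * r) hc) (h := s) (fun x => ?_)]
    · exact hsl s (by simp [s, det_fin_two_of, hr]) f hf
    · induction x using OnePoint.rec with
      | infty => rw [diagGrp_smul_infty, OnePoint.smul_infty_eq_self_iff.2 (by simp [s])]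
      | coe a =>
        rw [diagGrp_smul_coe, OnePoint.smul_some_eq_ite, if_neg (by simp [s, hr])]
        simp only [s, GeneralLinearGroup.val_mkOfDetNeZero, of_apply, cons_val', cons_val_zero,
          cons_val_one, cons_val_fin_one]
        congr 1
        field_simp
        ring
  have hdg : ∀ f ∈ A, perm k (diagGrp d hdet) f - f ∈ A' := by
    intro f hf
    by_cases hsq : IsSquare d
    · exact hsquare d hdet hsq f hf
    obtain ⟨t, ht⟩ := exists_class h2 hdet hsq
    set a : k := (classCount t d (∞ : Line q) : k) - classCount t d ((0 : ZMod q) : Line q)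
    let X : Matrix (Pair q) (Pair q) k :=
      proj q k * classKer k t d * proj q k - a • proj q k
    have hX : IsKiller X := ⟨(IsCompressed.of_invariant hq (isInvariant_classKer t d)).sub
      ((isCompressed_proj hq).smul a), by
        show (proj q k * classKer k t d * proj q k - a • proj q k) *ᵥ _ = 0
        rw [sub_mulVec, smul_mulVec, proj_classKer_indFst hq, sub_self]⟩
    have hXf : ∀ v ∈ A, X *ᵥ v = (∑ h ∈ conjClass t d, perm k h v) - a • v := fun v hv => by
      show (proj q k * classKer k t d * proj q k - a • proj q k) *ᵥ _ = _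
      rw [sub_mulVec, smul_mulVec, ← mulVec_mulVec, ← mulVec_mulVec,
        proj_mulVec_of_sumSnd (hs v hv), classKer_mulVec, proj_mulVec_of_sumSnd]
      simp [map_sum, sumSnd_perm, hs v hv]
    have key : ∀ (m : ℕ) (v : Pair q → k), v ∈ A → perm k (diagGrp d hdet) v + v ∈ A' →
        Deep A' m v → v ∈ A' := by
      intro m
      induction m with
      | zero => exact fun v _ _ h => h
      | succ m ih =>
        intro v hv hneg hd
        have hg : ∀ h ∈ conjClass t d, perm k h v + v ∈ A' := by
          intro h hh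
          have hh' := (mem_conjClass.1 hh).2
          have h1 := hsl (h * (diagGrp d hdet)⁻¹) (by
            rw [GeneralLinearGroup.coe_mul, det_mul, hh', coe_units_inv, det_nonsing_inv]
            simp [diagGrp, det_fin_two_of, hdet]) _ (hA (diagGrp d hdet) _ hv)
          rw [← perm_mul, inv_mul_cancel_right] at h1
          have h3 := A'.add_mem h1 hneg
          rwa [show ∀ x y z : Pair q → k, x - y + (y + z) = x + z from fun x y z => by abel] at h3
        set c : k := -((conjClass t d).card : k) - a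
        have hc : c ≠ 0 := fun h => ht (by linear_combination -h)
        have hXc : X *ᵥ v - c • v ∈ A' := by
          rw [hXf v hv, show (∑ h ∈ conjClass t d, perm k h v) - a • v - c • v =
            ∑ h ∈ conjClass t d, (perm k h v + v) by
              rw [Finset.sum_add_distrib, Finset.sum_const, ← Nat.cast_smul_eq_nsmul k]
              module]
          exact sum_mem hg
        have hXA : X *ᵥ v ∈ A := by
          rw [hXf v hv]
          exact A.sub_mem (sum_mem fun h _ => hA h v hv) (A.smul_mem _ hv)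
        have hneg' : perm k (diagGrp d hdet) (X *ᵥ v) + X *ᵥ v ∈ A' := by
          have e : perm k (diagGrp d hdet) (X *ᵥ v) + X *ᵥ v =
              (perm k (diagGrp d hdet) (X *ᵥ v - c • v) + (X *ᵥ v - c • v)) +
                c • (perm k (diagGrp d hdet) v + v) := by
            rw [map_sub, map_smul, smul_add]; abel
          rw [e]
          exact A'.add_mem (A'.add_mem (hA' _ _ hXc) hXc) (A'.smul_mem _ hneg)
        have := A'.sub_mem (ih _ hXA hneg' (hd X hX)) hXc
        rw [sub_sub_cancel] at this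
        exact (A'.smul_mem_iff hc).1 this
    refine key m _ (A.sub_mem (hA _ _ hf) hf) ?_ (hdeep _ (A.sub_mem (hA _ _ hf) hf))
    rw [map_sub, ← perm_mul,
      show diagGrp d hdet * diagGrp d hdet = diagGrp (d * d) (mul_ne_zero hdet hdet) by
      apply Units.ext; ext i j; fin_cases i <;> fin_cases j <;> simp [diagGrp, Matrix.mul_apply]]
    rw [sub_add_sub_cancel]
    exact hsquare _ _ ⟨d, rfl⟩ f hf
  have h1 := hsl (g * (diagGrp d hdet)⁻¹) (by
    rw [GeneralLinearGroup.coe_mul, det_mul, coe_units_inv, det_nonsing_inv]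
    simp [diagGrp, det_fin_two_of, d, g.det_ne_zero]) _ (hA (diagGrp d hdet) f hf)
  rw [← perm_mul, inv_mul_cancel_right] at h1
  have h3 := A'.add_mem h1 (hdg f hf)
  rwa [sub_add_sub_cancel] at h3

variable (q k) in
/-- The projection of the indicator of the base pair. -/
def gen : Pair q → k := proj q k *ᵥ single basePair

lemma sumFst_gen : sumFst (gen q k) =
    Pi.single ((0 : ZMod q) : Line q) 1 + (q : k)⁻¹ • Pi.single (∞ : Line q) 1 +
      (-(q : k)⁻¹) • 1 := by
  have hs : sumFst (single basePair : Pair q → k) = Pi.single ((0 : ZMod q) : Line q) 1 := by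
    funext x
    rw [sumFst_apply, Finset.sum_eq_single basePair]
    · simp [single, basePair, Pi.single_apply, eq_comm]
    · intro z _ hz
      simp [single, Pi.single_eq_of_ne hz]
    · exact fun h => absurd (Finset.mem_univ _) h
  have hl : sumFst (liftSnd (sumSnd (single basePair : Pair q → k))) =
      (1 - Pi.single (∞ : Line q) 1 : Line q → k) := by
    have hz : sumSnd (single basePair : Pair q → k) = Pi.single (∞ : Line q) 1 := by
      funext x
      rw [sumSnd_apply, Finset.sum_eq_single basePair]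
      · simp [single, basePair, Pi.single_apply, eq_comm]
      · intro z _ hz
        simp [single, Pi.single_eq_of_ne hz]
      · exact fun h => absurd (Finset.mem_univ _) h
    rw [hz]
    funext x
    rw [sumFst_apply, Pi.sub_apply, Pi.one_apply]
    by_cases hx : x = ∞
    · rw [hx, Pi.single_eq_same, sub_self]
      refine Finset.sum_eq_zero fun z _ => ?_
      split_ifs with h
      · rw [liftSnd, Pi.single_eq_of_ne fun e => z.ne (h.trans e.symm)]
      · rfl
    · rw [Pi.single_eq_of_ne hx, sub_zero, Finset.sum_eq_single ⟨x, ∞, hx⟩]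
      · simp [liftSnd]
      · intro z _ hz
        split_ifs with h
        · rw [liftSnd, Pi.single_eq_of_ne fun e => hz (Pair.ext h e)]
        · rfl
      · exact fun h => absurd (Finset.mem_univ _) h
  rw [gen, proj_mulVec, map_sub, map_smul, hs, hl, smul_sub, neg_smul]
  abel

/-- If all traces lie in `A'`, the quotient by `A'` is an invariant line. -/
theorem exists_invariant_functional (hq : (q : k) ≠ 0) (h2 : (2 : k) ≠ 0) (hA : IsStable A)
    (hA' : IsStable A') (hlt : A' < A)
    (hmax : ∀ B, IsStable B → A' ≤ B → B ≤ A → B = A' ∨ B = A)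
    (hs : ∀ f ∈ A, sumSnd f = 0) {m : ℕ} (hdeep : ∀ f ∈ A, Deep A' m f)
    (htr : ∀ f ∈ A, circTrace f ∈ A') :
    ∃ φ : (Pair q → k) →ₗ[k] k, (∀ f ∈ A, φ f = 0 ↔ f ∈ A') ∧
      (∀ (g : Grp q), ∀ f ∈ A, φ (perm k g f) = φ f) ∧ ∃ f ∈ A, φ f = 1 := by
  obtain ⟨f₁, hf₁, hf₁'⟩ := SetLike.exists_of_lt hlt
  obtain ⟨ψ, hψ, hψ'⟩ := Submodule.exists_dual_map_eq_bot_of_notMem hf₁'
    (inferInstance : Module.Projective k ((Pair q → k) ⧸ A'))
  have hA'0 : ∀ f ∈ A', ψ f = 0 := fun f hf =>
    (Submodule.mem_bot k).1 (hψ' ▸ Submodule.mem_map_of_mem hf)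
  set φ := (ψ f₁)⁻¹ • ψ
  have hinv : ∀ (g : Grp q), ∀ f ∈ A, φ (perm k g f) = φ f := fun g f hf => by
    rw [← sub_eq_zero, ← map_sub]
    show (ψ f₁)⁻¹ • ψ _ = 0
    rw [hA'0 _ (perm_sub_mem hq h2 hA hA' hs hdeep htr g hf), smul_zero]
  refine ⟨φ, fun f hf => ⟨fun h => ?_, fun h => ?_⟩, hinv, f₁, hf₁, inv_mul_cancel₀ hψ⟩
  · rcases hmax (A ⊓ LinearMap.ker φ) (fun g v hv => ⟨hA g v hv.1, by
        rw [SetLike.mem_coe, LinearMap.mem_ker, hinv g v hv.1]; exact hv.2⟩)
      (fun v hv => ⟨hlt.le hv, by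
        show (ψ f₁)⁻¹ • ψ v = 0
        rw [hA'0 v hv, smul_zero]⟩) inf_le_left with hB | hB
    · exact hB ▸ ⟨hf, h⟩
    · have h0 : φ f₁ = 0 := (hB.symm ▸ hf₁ : f₁ ∈ A ⊓ LinearMap.ker φ).2
      exact absurd h0 (by show (ψ f₁)⁻¹ • ψ f₁ ≠ 0; simp [hψ])
  · show (ψ f₁)⁻¹ • ψ f = 0
    rw [hA'0 f h, smul_zero]

/-- A stable space whose `IsCirc` members have vanishing sums over the first point has constant
sums over the first point. -/
theorem sumFst_mem_constFun_of_isStable (hq : (q : k) ≠ 0) {D : Submodule k (Pair q → k)}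
    (hD : IsStable D) (hcirc : ∀ v ∈ D, IsCirc v → sumFst v = 0) {f : Pair q → k} (hf : f ∈ D) :
    sumFst f ∈ constFun q k := by
  have hhalf : ∀ v ∈ D, perm k (upper (1 : ZMod q)) (sumFst v) = sumFst v := by
    intro v hv
    have h0 : sumFst ((q : k) • halfProj v) = 0 := by
      rw [← sum_perm_circTrace, map_sum]
      refine Finset.sum_eq_zero fun b _ => ?_
      rw [sumFst_perm, hcirc _ (hD.circTrace_mem (hD _ _ hv)) (isCirc_circTrace _), map_zero]
    rw [halfProj, smul_smul, mul_inv_cancel₀ hq, one_smul, map_sub, sumFst_perm,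
      sub_eq_zero] at h0
    exact h0.symm
  have hline : ∀ v ∈ D, ∀ b : ZMod q,
      sumFst v (b : Line q) = sumFst v ((0 : ZMod q) : Line q) := by
    intro v hv b
    have hn : ∀ n : ℕ, sumFst v ((n : ZMod q) : Line q) = sumFst v ((0 : ZMod q) : Line q) := by
      intro n
      induction n with
      | zero => rw [Nat.cast_zero]
      | succ n ih =>
        rw [← ih, Nat.cast_succ]
        conv_lhs => rw [← hhalf v hv, perm_apply]
        exact congrArg (sumFst v) (by rw [inv_smul_eq_iff, upper_smul_coe])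
    simpa using hn b.val
  let w : Grp q := GeneralLinearGroup.mkOfDetNeZero !![0, 1; 1, 0] (by simp [det_fin_two_of])
  have hinf : sumFst f (∞ : Line q) = sumFst f ((0 : ZMod q) : Line q) := by
    have h := hline (perm k w f) (hD w _ hf) 1
    rw [sumFst_perm, perm_apply, perm_apply] at h
    have e1 : w⁻¹ • ((1 : ZMod q) : Line q) = ((1 : ZMod q) : Line q) := by
      rw [inv_smul_eq_iff, OnePoint.smul_some_eq_ite]; simp [w]
    have e0 : w⁻¹ • ((0 : ZMod q) : Line q) = ∞ := by
      rw [inv_smul_eq_iff, OnePoint.smul_infty_eq_ite]; simp [w]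
    rw [e1, e0] at h
    rw [← h, hline f hf 1]
  have hall : ∀ x, sumFst f x = sumFst f ((0 : ZMod q) : Line q) := by
    intro x
    induction x using OnePoint.rec with
    | infty => exact hinf
    | coe b => exact hline f hf b
  exact mem_constFun.2 fun x y => (hall x).trans (hall y).symm

/-- Modulo constants every `g w - w` is the sum over the first point of a function with vanishing
sums over the second one. -/
theorem exists_sumFst_sub_mem_constFun (hq : (q : k) ≠ 0) (g : Grp q) (w : Line q → k) :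
    ∃ v : Pair q → k, sumSnd v = 0 ∧ sumFst v - (perm k g w - w) ∈ constFun q k := by
  let S := (LinearMap.ker (sumSnd (q := q) (k := k))).map sumFst ⊔ constFun q k
  have hS : ∀ g, ∀ u ∈ S, perm k g u ∈ S := fun g u hu => by
    obtain ⟨x, ⟨v, hv, rfl⟩, y, hy, rfl⟩ := Submodule.mem_sup.1 hu
    rw [map_add, ← sumFst_perm]
    exact Submodule.add_mem_sup ⟨_, by
      rw [SetLike.mem_coe, LinearMap.mem_ker, sumSnd_perm, LinearMap.mem_ker.1 hv, map_zero],
      rfl⟩ (perm_mem_constFun g hy)
  have hbase : (Pi.single ((0 : ZMod q) : Line q) 1 +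
      (q : k)⁻¹ • Pi.single (∞ : Line q) 1 : Line q → k) ∈ S := by
    have : sumFst (gen q k) ∈ S := Submodule.mem_sup_left ⟨_, sumSnd_proj hq _, rfl⟩
    rw [sumFst_gen] at this
    exact (S.add_mem_iff_left (S.smul_mem _ (Submodule.mem_sup_right
      (Submodule.mem_span_singleton_self (1 : Line q → k))))).1 this
  have hpair : ∀ y : Pair q, (Pi.single y.fst 1 + (q : k)⁻¹ • Pi.single y.snd 1 :
      Line q → k) ∈ S := fun y => by
    obtain ⟨g, -, hg⟩ := exists_smul_basePair y
    have := hS g _ hbase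
    rw [map_add, map_smul, perm_indicator, perm_indicator] at this
    rwa [← hg]
  have hdiff : ∀ b c : Line q, (Pi.single b 1 - Pi.single c 1 : Line q → k) ∈ S := by
    intro b c
    obtain ⟨x, hxb, hxc⟩ : ∃ x : Line q, x ≠ b ∧ x ≠ c := by
      by_contra h
      push Not at h
      have hle : (Finset.univ : Finset (Line q)) ⊆ {b, c} := fun x _ => by
        rw [Finset.mem_insert, Finset.mem_singleton]
        exact or_iff_not_imp_left.2 (h x)
      have := (Finset.card_le_card hle).trans Finset.card_le_two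
      rw [Finset.card_univ, card_line] at this
      have := (Fact.out : q.Prime).two_le
      omega
    have := S.smul_mem (q : k) (S.sub_mem (hpair ⟨x, b, hxb⟩) (hpair ⟨x, c, hxc⟩))
    rwa [add_sub_add_left_eq_sub, ← smul_sub, smul_smul, mul_inv_cancel₀ hq, one_smul] at this
  have hw : perm k g w - w ∈ S := by
    have e : w = ∑ x, w x • (Pi.single x 1 : Line q → k) := pi_eq_sum_univ' w
    rw [e, map_sum, ← Finset.sum_sub_distrib]
    refine sum_mem fun x _ => ?_
    rw [map_smul, perm_indicator, ← smul_sub]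
    exact S.smul_mem _ (hdiff _ _)
  obtain ⟨u, ⟨v, hv, rfl⟩, y, hy, huy⟩ := Submodule.mem_sup.1 hw
  refine ⟨v, LinearMap.mem_ker.1 hv, ?_⟩
  rw [← huy, sub_add_cancel_left]
  exact neg_mem hy

/-- A vector of `A` outside `A'` in the socle: all killers map it into `A'`. -/
structure IsSocleVector (A A' : Submodule k (Pair q → k)) (a : Pair q → k) : Prop where
  mem : a ∈ A
  circ : IsCirc a
  sumSnd_eq : sumSnd a = 0
  notMem : a ∉ A'
  killed : ∀ X : Matrix (Pair q) (Pair q) k, IsKiller X → X *ᵥ a ∈ A'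

namespace IsSocleVector

variable {a : Pair q → k}

/-- The operator of a socle vector is compressed. -/
lemma compressed (h : IsSocleVector A A' a) : IsCompressed (ofVec a) :=
  h.circ.isCompressed h.sumSnd_eq

lemma mulVec_gen (h : IsSocleVector A A' a) : ofVec a *ᵥ gen q k = a := by
  rw [gen, mulVec_mulVec, h.compressed.right, h.circ.ofVec_base]

/-- If the operator of a socle vector maps a function with vanishing sums over the second point
into `A'`, its sums over the first point are constant. -/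
theorem sumFst_mem_constFun (h : IsSocleVector A A' a) (hq : (q : k) ≠ 0) (hA' : IsStable A')
    {f : Pair q → k} (hf : sumSnd f = 0) (hfA : ofVec a *ᵥ f ∈ A') :
    sumFst f ∈ constFun q k := by
  let D := LinearMap.ker (sumSnd (q := q) (k := k)) ⊓ A'.comap (ofVec a).mulVecLin
  have hD : IsStable D := fun g v hv => ⟨by
    rw [SetLike.mem_coe, LinearMap.mem_ker, sumSnd_perm, (LinearMap.mem_ker.1 hv.1), map_zero],
    by
      rw [SetLike.mem_coe, Submodule.mem_comap, mulVecLin_apply,
        h.compressed.invariant.mulVec_perm]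
      exact hA' g _ hv.2⟩
  refine sumFst_mem_constFun_of_isStable hq hD (fun v hv hvc => ?_) (show f ∈ D from ⟨hf, hfA⟩)
  obtain ⟨c, hc⟩ := exists_isKiller_sub hq (hvc.isCompressed hv.1)
  have e : (ofVec v - c • proj q k) *ᵥ single basePair = v - c • gen q k := by
    rw [sub_mulVec, smul_mulVec, hvc.ofVec_base]; rfl
  have hmem : ofVec a *ᵥ (v - c • gen q k) ∈ A' := by
    rw [← e, mulVec_mulVec, h.compressed.comm hq hc.compressed, ← mulVec_mulVec, h.circ.ofVec_base]
    exact h.killed _ hc
  have hc0 : c = 0 := by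
    rw [mulVec_sub, mulVec_smul, h.mulVec_gen] at hmem
    have := A'.sub_mem hv.2 hmem
    rw [mulVecLin_apply, sub_sub_cancel] at this
    by_contra hne
    exact h.notMem ((A'.smul_mem_iff hne).1 this)
  rw [hc0, zero_smul, sub_zero] at hc
  rw [← hvc.ofVec_base]
  exact hc.sumFst_mulVec hq _

/-- For maximal `A'`, the operator of a socle vector maps functions with vanishing sums over the
second point and constant sums over the first one into `A'`. -/
theorem mulVec_mem (h : IsSocleVector A A' a) (hq : (q : k) ≠ 0) (hA : IsStable A)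
    (hA' : IsStable A') (hlt : A' < A)
    (hmax : ∀ B, IsStable B → A' ≤ B → B ≤ A → B = A' ∨ B = A)
    {f : Pair q → k} (hf : sumSnd f = 0) (hfc : sumFst f ∈ constFun q k) :
    ofVec a *ᵥ f ∈ A' := by
  let κ := LinearMap.ker (sumSnd (q := q) (k := k)) ⊓ (constFun q k).comap sumFst
  have hκ : IsStable κ := fun g v hv => ⟨by
    rw [SetLike.mem_coe, LinearMap.mem_ker, sumSnd_perm, (LinearMap.mem_ker.1 hv.1), map_zero],
    by rw [SetLike.mem_coe, Submodule.mem_comap, sumFst_perm]; exact perm_mem_constFun g hv.2⟩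
  let B := A' ⊔ κ.map (ofVec a).mulVecLin
  have hB : IsStable B := fun g v hv => by
    obtain ⟨x, hx, y, hy, rfl⟩ := Submodule.mem_sup.1 hv
    obtain ⟨f, hf, rfl⟩ := hy
    rw [map_add, mulVecLin_apply, ← h.compressed.invariant.mulVec_perm]
    exact Submodule.add_mem_sup (hA' g x hx) ⟨_, hκ g f hf, rfl⟩
  rcases hmax B hB le_sup_left (sup_le hlt.le (by
      rintro _ ⟨f, -, rfl⟩
      exact hA.ofVec_mem h.mem f)) with hB' | hB'
  · exact (le_sup_right.trans_eq hB' : κ.map (ofVec a).mulVecLin ≤ A') ⟨f, ⟨hf, hfc⟩, rfl⟩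
  · -- otherwise the sums of `gen` over the first point would be constant
    obtain ⟨x, hx, y, ⟨f', hf', hfy⟩, hxy⟩ :=
      Submodule.mem_sup.1 (hB'.symm ▸ h.mem : a ∈ B)
    have h1 := h.sumFst_mem_constFun hq hA' (f := gen q k - f')
      (by rw [map_sub, gen, sumSnd_proj hq, (LinearMap.mem_ker.1 hf'.1), sub_zero]) (by
        rw [mulVec_sub, h.mulVec_gen, ← mulVecLin_apply, hfy, ← hxy, add_sub_cancel_right]
        exact hx)
    have h2 := mem_constFun.1 ((constFun q k).add_mem h1 hf'.2) ((0 : ZMod q) : Line q)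
      ((1 : ZMod q) : Line q)
    rw [← map_add, sub_add_cancel] at h2
    simp [sumFst_gen, OnePoint.coe_ne_infty] at h2

/-- For maximal `A'`, the space `A` is spanned by `A'` and the image of the operator of a socle
vector. -/
theorem exists_eq_mulVec_add (h : IsSocleVector A A' a) (hq : (q : k) ≠ 0) (hA : IsStable A)
    (hA' : IsStable A') (hlt : A' < A)
    (hmax : ∀ B, IsStable B → A' ≤ B → B ≤ A → B = A' ∨ B = A) {f : Pair q → k} (hf : f ∈ A) :
    ∃ v x, sumSnd v = 0 ∧ x ∈ A' ∧ f = ofVec a *ᵥ v + x := by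
  let B := (LinearMap.ker (sumSnd (q := q) (k := k))).map (ofVec a).mulVecLin ⊔ A'
  have hB : IsStable B := fun g v hv => by
    obtain ⟨x, ⟨f, hf, rfl⟩, y, hy, rfl⟩ := Submodule.mem_sup.1 hv
    rw [map_add, mulVecLin_apply, ← h.compressed.invariant.mulVec_perm]
    exact Submodule.add_mem_sup ⟨_, by
      rw [SetLike.mem_coe, LinearMap.mem_ker, sumSnd_perm, LinearMap.mem_ker.1 hf, map_zero],
      rfl⟩ (hA' g y hy)
  rcases hmax B hB le_sup_right (sup_le (by
      rintro _ ⟨f, -, rfl⟩
      exact hA.ofVec_mem h.mem f) hlt.le) with hB' | hB'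
  · exact absurd (hB' ▸ Submodule.mem_sup_left ⟨gen q k, sumSnd_proj hq _, h.mulVec_gen⟩) h.notMem
  · obtain ⟨_, ⟨v, hv, rfl⟩, x, hx, rfl⟩ := Submodule.mem_sup.1 (hB'.symm ▸ hf : f ∈ B)
    exact ⟨v, x, LinearMap.mem_ker.1 hv, hx, rfl⟩

/-- The sums over the first point, read on `A` modulo constants through the operator of a socle
vector. -/
theorem exists_lineMap (h : IsSocleVector A A' a) (hq : (q : k) ≠ 0) (hA : IsStable A)
    (hA' : IsStable A') (hlt : A' < A)
    (hmax : ∀ B, IsStable B → A' ≤ B → B ≤ A → B = A' ∨ B = A) :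
    ∃ φ : (Pair q → k) →ₗ[k] (Line q → k), ∀ f, sumSnd f = 0 → ∀ x ∈ A',
      φ (ofVec a *ᵥ f + x) - sumFst f ∈ constFun q k := by
  let Φ : (LinearMap.ker (sumSnd (q := q) (k := k)) × A') →ₗ[k] (Pair q → k) :=
    ((ofVec a).mulVecLin.comp (Submodule.subtype _)).coprod A'.subtype
  have hΦA : ∀ p, Φ p ∈ A := fun p => A.add_mem (hA.ofVec_mem h.mem _) (hlt.le p.2.2)
  obtain ⟨s, hsΦ⟩ := (Φ.codRestrict A hΦA).exists_rightInverse_of_surjective
    (LinearMap.range_eq_top.2 fun ⟨f, hf⟩ => by
      obtain ⟨v, x, hv, hx, rfl⟩ := h.exists_eq_mulVec_add hq hA hA' hlt hmax hf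
      exact ⟨(⟨v, hv⟩, ⟨x, hx⟩), rfl⟩)
  obtain ⟨φ, hφ⟩ := LinearMap.exists_extend
    (((sumFst.comp (Submodule.subtype _)).comp (LinearMap.fst k _ _)).comp s)
  refine ⟨φ, fun f hf x hx => ?_⟩
  have hmem : ofVec a *ᵥ f + x ∈ A := A.add_mem (hA.ofVec_mem h.mem f) (hlt.le hx)
  have e := congrArg (fun L : A →ₗ[k] A => ((L ⟨_, hmem⟩ : A) : Pair q → k)) hsΦ
  simp only [LinearMap.comp_apply, LinearMap.codRestrict_apply, LinearMap.id_apply] at e
  set p := s ⟨_, hmem⟩
  have hp : φ (ofVec a *ᵥ f + x) = sumFst p.1.1 := LinearMap.congr_fun hφ ⟨_, hmem⟩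
  rw [hp, ← map_sub]
  refine h.sumFst_mem_constFun hq hA' (by rw [map_sub, hf, LinearMap.mem_ker.1 p.1.2, sub_zero]) ?_
  rw [mulVec_sub, show ofVec a *ᵥ p.1.1 - ofVec a *ᵥ f = x - p.2.1 by
    rw [eq_sub_iff_add_eq, sub_add_eq_add_sub, sub_eq_iff_eq_add, add_comm x]
    exact e]
  exact A'.sub_mem hx p.2.2

end IsSocleVector

/-- If some trace lies outside `A'`, the quotient by `A'` maps equivariantly onto the span of
`g w - w` in functions on the projective line modulo constants. -/
theorem exists_equivariant_lineMap (hq : (q : k) ≠ 0) (hA : IsStable A) (hA' : IsStable A')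
    (hlt : A' < A) (hmax : ∀ B, IsStable B → A' ≤ B → B ≤ A → B = A' ∨ B = A)
    {a : Pair q → k} (h : IsSocleVector A A' a) :
    ∃ φ : (Pair q → k) →ₗ[k] (Line q → k), (∀ f ∈ A, φ f ∈ constFun q k ↔ f ∈ A') ∧
      (∀ (g : Grp q), ∀ f ∈ A, φ (perm k g f) - perm k g (φ f) ∈ constFun q k) ∧
      ∀ (g : Grp q) (w : Line q → k), ∃ f ∈ A, φ f - (perm k g w - w) ∈ constFun q k := by
  obtain ⟨φ, hφ⟩ := h.exists_lineMap hq hA hA' hlt hmax
  refine ⟨φ, fun f hf => ?_, fun g f hf => ?_, fun g w => ?_⟩
  · obtain ⟨v, x, hv, hx, rfl⟩ := h.exists_eq_mulVec_add hq hA hA' hlt hmax hf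
    have h1 := hφ v hv x hx
    rw [A'.add_mem_iff_left hx]
    refine ⟨fun hc => h.mulVec_mem hq hA hA' hlt hmax hv ?_, fun hT => ?_⟩
    · have := (constFun q k).sub_mem hc h1
      rwa [sub_sub_cancel] at this
    · have := (constFun q k).add_mem h1 (h.sumFst_mem_constFun hq hA' hv hT)
      rwa [sub_add_cancel] at this
  · obtain ⟨v, x, hv, hx, rfl⟩ := h.exists_eq_mulVec_add hq hA hA' hlt hmax hf
    rw [map_add, ← h.compressed.invariant.mulVec_perm]
    have h1 := hφ (perm k g v) (by rw [sumSnd_perm, hv, map_zero]) (perm k g x) (hA' g x hx)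
    have h2 := perm_mem_constFun g (hφ v hv x hx)
    rw [map_sub, ← sumFst_perm] at h2
    have := (constFun q k).sub_mem h1 h2
    rwa [sub_sub_sub_cancel_right] at this
  · obtain ⟨v, hv, hvw⟩ := exists_sumFst_sub_mem_constFun hq g w
    refine ⟨ofVec a *ᵥ v, hA.ofVec_mem h.mem v, ?_⟩
    have h1 := hφ v hv 0 (zero_mem _)
    rw [add_zero] at h1
    have := (constFun q k).add_mem h1 hvw
    rwa [sub_add_sub_cancel] at this

/-- The top layer. -/
theorem step (hq : (q : k) ≠ 0) (h2 : (2 : k) ≠ 0) (hA : IsStable A) (hA' : IsStable A')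
    (hlt : A' < A) (hmax : ∀ B, IsStable B → A' ≤ B → B ≤ A → B = A' ∨ B = A)
    (hs : ∀ f ∈ A, sumSnd f = 0) {m : ℕ} (hdeep : ∀ f ∈ A, Deep ⊥ m f) :
    (∃ φ : (Pair q → k) →ₗ[k] k, (∀ f ∈ A, φ f = 0 ↔ f ∈ A') ∧
        (∀ (g : Grp q), ∀ f ∈ A, φ (perm k g f) = φ f) ∧ ∃ f ∈ A, φ f = 1) ∨
      ∃ φ : (Pair q → k) →ₗ[k] (Line q → k), (∀ f ∈ A, φ f ∈ constFun q k ↔ f ∈ A') ∧
        (∀ (g : Grp q), ∀ f ∈ A, φ (perm k g f) - perm k g (φ f) ∈ constFun q k) ∧
        ∀ (g : Grp q) (w : Line q → k), ∃ f ∈ A, φ f - (perm k g w - w) ∈ constFun q k := by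
  have hdeep' : ∀ f ∈ A, Deep A' m f := fun f hf => (hdeep f hf).mono bot_le
  by_cases htr : ∀ f ∈ A, circTrace f ∈ A'
  · exact Or.inl (exists_invariant_functional hq h2 hA hA' hlt hmax hs hdeep' htr)
  push Not at htr
  obtain ⟨f₀, hf₀, hf₀'⟩ := htr
  obtain ⟨a, ha, hac, has, han, hakill⟩ := exists_socle_vector hq hA m (circTrace f₀)
    (hA.circTrace_mem hf₀) (isCirc_circTrace f₀) (hs _ (hA.circTrace_mem hf₀))
    (hdeep' _ (hA.circTrace_mem hf₀)) hf₀'
  exact Or.inr (exists_equivariant_lineMap hq hA hA' hlt hmax ⟨ha, hac, has, han, hakill⟩)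

end Fermat.Agent.ResidualCarayol
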