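import Mathlib.LinearAlgebra.Eigenspace.Minpoly
import Mathlib.Algebra.Polynomial.Div
import Mathlib.RingTheory.Artinian.Module
import Mathlib.LinearAlgebra.FiniteDimensional.Basic
import Mathlib.RingTheory.Polynomial.Basic

/-!
# Words in commuting operators avoiding an eigen system

A word is a list of polynomials in the operators; it is good for an eigen system if it does not
vanish on it. Without nonzero eigen vectors, every vector of a finite-dimensional space is killed
by a good word.
-/

set_option autoImplicit false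

noncomputable section

namespace Fermat.Agent.ResidualCarayol

open Polynomial

/-- Primes outside `T`. -/
abbrev Letters (T : Finset ℕ) : Type := {ℓ : ℕ // ℓ.Prime ∧ ℓ ∉ T}

instance fact_prime_letters {T : Finset ℕ} (ℓ : Letters T) : Fact (ℓ : ℕ).Prime := ⟨ℓ.2.1⟩

variable {ι k : Type*} [Field k] {V W : Type*} [AddCommGroup V] [Module k V] [AddCommGroup W]
  [Module k W]

/-- The action of a word; the last letter acts first. -/
def act (Tv : ι → Module.End k V) (w : List (ι × k[X])) : Module.End k V :=
  (w.map fun p => aeval (Tv p.1) p.2).prod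

/-- A word not vanishing on the eigen system. -/
def Good (a : ι → k) (w : List (ι × k[X])) : Prop := ∀ p ∈ w, p.2.eval (a p.1) ≠ 0

/-- The value of a word on an eigen system. -/
def wordVal (a : ι → k) (w : List (ι × k[X])) : k := (w.map fun p => p.2.eval (a p.1)).prod

/-- The empty word is good. -/
lemma good_nil (a : ι → k) : Good a [] := fun _ h => absurd h List.not_mem_nil

/-- Concatenations of good words are good. -/
lemma Good.append {a : ι → k} {u w : List (ι × k[X])} (hu : Good a u) (hw : Good a w) :
    Good a (u ++ w) := fun p hp => (List.mem_append.1 hp).elim (hu p) (hw p)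

/-- A one-letter word not vanishing at the eigenvalue is good. -/
lemma good_singleton {a : ι → k} {i : ι} {P : k[X]} (h : P.eval (a i) ≠ 0) : Good a [(i, P)] :=
  fun p hp => by rw [List.mem_singleton] at hp; rw [hp]; exact h

/-- Good words have nonzero value. -/
lemma Good.wordVal_ne_zero {a : ι → k} {w : List (ι × k[X])} (hw : Good a w) : wordVal a w ≠ 0 :=
  List.prod_ne_zero fun h => by
    obtain ⟨p, hp, e⟩ := List.mem_map.1 h
    exact hw p hp e

variable {Tv : ι → Module.End k V} {Tw : ι → Module.End k W}

/-- The empty word acts trivially. -/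
lemma act_nil (v : V) : act Tv [] v = v := rfl

/-- Concatenation acts by composition. -/
lemma act_append (u w : List (ι × k[X])) (v : V) : act Tv (u ++ w) v = act Tv u (act Tv w v) := by
  simp [act]

/-- The action of a word with one more letter. -/
lemma act_cons (p : ι × k[X]) (w : List (ι × k[X])) (v : V) :
    act Tv (p :: w) v = aeval (Tv p.1) p.2 (act Tv w v) := by
  simp [act]

/-- The action of a one-letter word. -/
lemma act_singleton (i : ι) (P : k[X]) (v : V) : act Tv [(i, P)] v = aeval (Tv i) P v := by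
  simp [act]

/-- An intertwined subspace of pairs is stable under words. -/
theorem act_rel (R : Submodule k (V × W)) (hR : ∀ i, ∀ p ∈ R, (Tv i p.1, Tw i p.2) ∈ R)
    (w : List (ι × k[X])) {v : V} {u : W} (h : (v, u) ∈ R) : (act Tv w v, act Tw w u) ∈ R := by
  induction w with
  | nil => exact h
  | cons p w ih =>
    rw [act_cons, act_cons]
    obtain ⟨i, P⟩ := p
    dsimp only
    generalize act Tv w v = x at ih
    generalize act Tw w u = y at ih
    induction P using Polynomial.induction_on' with
    | add P Q hP hQ =>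
      rw [map_add, map_add, LinearMap.add_apply, LinearMap.add_apply]
      exact R.add_mem hP hQ
    | monomial n b =>
      rw [aeval_monomial, aeval_monomial, Module.End.mul_apply, Module.End.mul_apply,
        Module.algebraMap_end_apply, Module.algebraMap_end_apply]
      suffices h : ((Tv i ^ n) x, (Tw i ^ n) y) ∈ R from R.smul_mem b h
      induction n with
      | zero => exact ih
      | succ n hn => rw [pow_succ', pow_succ', Module.End.mul_apply, Module.End.mul_apply]
                     exact hR i _ hn

/-- A stable subspace is stable under words. -/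
theorem act_mem {S : Submodule k V} (hS : ∀ i, ∀ v ∈ S, Tv i v ∈ S) (w : List (ι × k[X])) {v : V}
    (hv : v ∈ S) : act Tv w v ∈ S :=
  (Submodule.mem_prod.1
    (act_rel (Tw := Tv) (S.prod ⊤) (fun i _ hp => ⟨hS i _ hp.1, trivial⟩) w (u := v)
      ⟨hv, trivial⟩)).1

/-- An intertwining map commutes with words. -/
theorem act_map (f : V →ₗ[k] W) (hf : ∀ i v, f (Tv i v) = Tw i (f v)) (w : List (ι × k[X]))
    (v : V) : f (act Tv w v) = act Tw w (f v) := by
  have h := act_rel f.graph (fun i p hp => by
    rw [LinearMap.mem_graph_iff] at hp ⊢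
    rw [hp]; exact (hf i p.1).symm) w
    ((LinearMap.mem_graph_iff f (v, f v)).2 rfl)
  exact ((LinearMap.mem_graph_iff f _).1 h).symm

/-- Words act on eigen vectors by their values. -/
theorem act_eigen {a : ι → k} {v : V} (hv : ∀ i, Tv i v = a i • v) (w : List (ι × k[X])) :
    act Tv w v = wordVal a w • v := by
  induction w with
  | nil => simp [act, wordVal]
  | cons p w ih =>
    have e : aeval (Tv p.1) p.2 v = p.2.eval (a p.1) • v := by
      by_cases h0 : v = 0
      · simp [h0]
      · exact Module.End.aeval_apply_of_hasEigenvector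
          ⟨Module.End.mem_eigenspace_iff.2 (hv p.1), h0⟩
    rw [act_cons, ih, map_smul, e, smul_smul, mul_comm]
    simp [wordVal]

/-- Without eigen vectors, every vector is killed by a good word. -/
theorem exists_good_act_eq_zero [FiniteDimensional k V] {a : ι → k}
    (hcomm : ∀ i j, Commute (Tv i) (Tv j)) (hno : ∀ v, (∀ i, Tv i v = a i • v) → v = 0) (v : V) :
    ∃ w, Good a w ∧ act Tv w v = 0 := by
  suffices key : ∀ S : Submodule k V, (∀ i, ∀ v ∈ S, Tv i v ∈ S) →
      ∀ v ∈ S, ∃ w, Good a w ∧ act Tv w v = 0 from key ⊤ (fun _ _ _ => trivial) v trivial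
  intro S
  induction S using WellFoundedLT.induction with
  | _ S ih =>
    intro hS v hv
    by_cases hbot : S = ⊥
    · exact ⟨[], good_nil a, by rw [act_nil]; exact (Submodule.mem_bot k).1 (hbot ▸ hv)⟩
    obtain ⟨M, ⟨hMS, hM0, hM⟩, hmin⟩ :=
      (IsWellFounded.wf (r := (· < · : Submodule k V → _ → Prop))).has_min
      {M | M ≤ S ∧ M ≠ ⊥ ∧ ∀ i, ∀ v ∈ M, Tv i v ∈ M} ⟨S, le_rfl, hbot, hS⟩
    obtain ⟨i, hi⟩ : ∃ i, ∃ x ∈ M, Tv i x ≠ a i • x := by
      by_contra h
      push Not at h
      exact hM0 ((Submodule.eq_bot_iff _).2 fun x hx => hno x fun i => h i x hx)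
    obtain ⟨x₀, hx₀, hx₀'⟩ := hi
    set D : Module.End k V := Tv i - a i • 1 with hD
    have hDapp : ∀ x, D x = Tv i x - a i • x := fun x => rfl
    have hDT : ∀ j, Commute D (Tv j) := fun j =>
      (hcomm i j).sub_left ((Commute.one_left _).smul_left _)
    have hDmem : ∀ (M : Submodule k V), (∀ i, ∀ v ∈ M, Tv i v ∈ M) → ∀ x ∈ M, D x ∈ M :=
      fun M h x hx => M.sub_mem (h i x hx) (M.smul_mem _ hx)
    have hkerT : ∀ (n : ℕ) (j : ι), ∀ x ∈ LinearMap.ker (D ^ n), Tv j x ∈ LinearMap.ker (D ^ n) :=
      fun n j x hx => by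
        rw [LinearMap.mem_ker, ← Module.End.mul_apply, ((hDT j).pow_left n).eq,
          Module.End.mul_apply, LinearMap.mem_ker.1 hx, map_zero]
    -- `D` is injective on the minimal stable subspace
    have hinj : ∀ x ∈ M, D x = 0 → x = 0 := by
      intro x hx hx0
      by_contra hne
      refine hmin (M ⊓ LinearMap.ker D) ⟨inf_le_left.trans hMS, fun h => hne ?_, fun j y hy =>
        ⟨hM j y hy.1, by simpa using hkerT 1 j y (by simpa using hy.2)⟩⟩ ?_
      · exact (Submodule.mem_bot k).1 (h ▸ ⟨hx, hx0⟩)
      · refine lt_of_le_of_ne inf_le_left fun h => hx₀' (sub_eq_zero.1 ?_)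
        rw [← hDapp]
        exact (h.symm ▸ hx₀ : x₀ ∈ M ⊓ LinearMap.ker D).2
    obtain ⟨Q, hPQ, hQ⟩ := Polynomial.exists_eq_pow_rootMultiplicity_mul_and_not_dvd
      (minpoly k D) (minpoly.ne_zero (Algebra.IsIntegral.isIntegral D)) 0
    set r := (minpoly k D).rootMultiplicity 0
    rw [map_zero, sub_zero] at hPQ hQ
    have hQ0 : Q.eval 0 ≠ 0 := fun h => hQ (X_dvd_iff.2 (by rw [coeff_zero_eq_eval_zero]; exact h))
    have hzero : D ^ r * aeval D Q = 0 := by
      have h := minpoly.aeval k D
      rwa [hPQ, map_mul, map_pow, aeval_X] at h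
    set P : k[X] := Q.comp (X - C (a i))
    have hP : aeval (Tv i) P = aeval D Q := by
      rw [aeval_comp, map_sub, aeval_X, aeval_C, Algebra.algebraMap_eq_smul_one]
    set v' := act Tv [(i, P)] v
    have hv' : v' ∈ S ⊓ LinearMap.ker (D ^ r) := ⟨act_mem hS _ hv, by
      show (D ^ r) (act Tv [(i, P)] v) = 0
      rw [act_singleton, hP, ← Module.End.mul_apply, hzero, LinearMap.zero_apply]⟩
    have hlt : S ⊓ LinearMap.ker (D ^ r) < S := by
      refine lt_of_le_of_ne inf_le_left fun h => ?_
      obtain ⟨x, hx, hxne⟩ := (Submodule.ne_bot_iff M).1 hM0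
      have h0 : (D ^ r) x = 0 := (h.symm ▸ hMS hx : x ∈ S ⊓ LinearMap.ker (D ^ r)).2
      refine hxne ?_
      suffices key : ∀ n, ∀ x ∈ M, (D ^ n) x = 0 → x = 0 from key r x hx h0
      intro n
      induction n with
      | zero => exact fun _ _ h => h
      | succ n ihn =>
        intro x hx h0
        rw [pow_succ, Module.End.mul_apply] at h0
        exact hinj x hx (ihn (D x) (hDmem M hM x hx) h0)
    obtain ⟨w, hw, hw0⟩ := ih _ hlt (fun j y hy => ⟨hS j y hy.1, hkerT r j y hy.2⟩) v' hv'
    exact ⟨w ++ [(i, P)], hw.append (good_singleton (by simpa [P] using hQ0)),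
      by rw [act_append]; exact hw0⟩

end Fermat.Agent.ResidualCarayol
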