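import Fermat.Agent.ResidualCarayol.HeckeCoeff
import Fermat.Agent.ResidualCarayol.Step
import Fermat.Agent.ResidualCarayol.Words
import Fermat.Agent.HeckeCohom.Descend

/-!
# Words of Hecke operators on homomorphisms, cochains and functions

The Hecke operators outside `T` on `Hom(Γ₀(L), k)`, on cochains with values in functions and on
functions, with their intertwiners.
-/

set_option autoImplicit false

noncomputable section

namespace Fermat.Agent.ResidualCarayol

open CongruenceSubgroup Polynomial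
open Fermat.Agent.HeckeCohom (topPull toTop heckeOp_topPull heckeOp_of_not_dvd)
open scoped MatrixGroups OnePoint

variable {N q L : ℕ} [Fact q.Prime] {k : Type*} [Field k] {T : Finset ℕ}
  {X X' : Type*} [MulAction (Grp q) X] [MulAction (Grp q) X']

/-- Letters do not divide the level. -/
lemma letter_not_dvd (hT : ∀ r : ℕ, r.Prime → r ∣ L → r ∈ T) (ℓ : Letters T) : ¬ (ℓ : ℕ) ∣ L :=
  fun h => ℓ.2.2 (hT _ ℓ.2.1 h)

omit [Fact (Nat.Prime q)] in
/-- A prime dividing `q² N` divides `q N`. -/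
lemma dvd_mul_of_dvd_sq_mul {r : ℕ} (hr : r.Prime) (h : r ∣ q ^ 2 * N) : r ∣ q * N :=
  (hr.dvd_mul.1 h).elim (fun h => dvd_mul_of_dvd_left (hr.dvd_of_dvd_pow h) _)
    (dvd_mul_of_dvd_right · _)

/-! ### Homomorphisms -/

variable (k) in
/-- `T_ℓ` on `Hom(Γ₀(L), k)`. -/
def homT (hT : ∀ r : ℕ, r.Prime → r ∣ L → r ∈ T) (ℓ : Letters T) :
    Module.End k (Additive (Gamma0 L) →+ k) where
  toFun := HeckeLattice.transfer (letter_not_dvd hT ℓ)
  map_add' := map_add _
  map_smul' c χ := AddMonoidHom.ext fun γ => by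
    rw [← ofMul_toMul γ]
    show _ = c * HeckeLattice.transfer (letter_not_dvd hT ℓ) χ _
    rw [HeckeLattice.CosetSystem.transfer_apply, HeckeLattice.CosetSystem.transfer_apply,
      Finset.mul_sum]
    rfl

lemma homT_apply (hT : ∀ r : ℕ, r.Prime → r ∣ L → r ∈ T) (ℓ : Letters T)
    (χ : Additive (Gamma0 L) →+ k) :
    homT k hT ℓ χ = HeckeLattice.transfer (letter_not_dvd hT ℓ) χ := rfl

lemma homT_commute (hT : ∀ r : ℕ, r.Prime → r ∣ L → r ∈ T) (ℓ r : Letters T) :
    Commute (homT k hT ℓ) (homT k hT r) := by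
  by_cases hne : (ℓ : ℕ) = r
  · rw [Subtype.ext hne]
  refine LinearMap.ext fun χ => ?_
  obtain ⟨φ, rfl⟩ : ∃ φ, topPull L k φ = χ :=
    ⟨χ.comp (toTop L).symm.toMonoidHom.toAdditive, AddMonoidHom.ext fun γ => by
      show χ (Additive.ofMul ((toTop L).symm (toTop L (Additive.toMul γ)))) = _
      rw [MulEquiv.symm_apply_apply]
      rfl⟩
  simp only [Module.End.mul_apply, homT_apply,
    ← heckeOp_of_not_dvd L (letter_not_dvd hT ℓ), ← heckeOp_of_not_dvd L (letter_not_dvd hT r),
    heckeOp_topPull]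
  rw [GroupH1.transfer_comm hne]

/-- `Hom(Γ₀(L), k)` is finite dimensional. -/
theorem finiteDimensional_hom (L : ℕ) [NeZero L] :
    FiniteDimensional k (Additive (Gamma0 L) →+ k) := by
  have : Group.FG SL(2, ℤ) := Group.fg_iff.mpr ⟨{ModularGroup.S, ModularGroup.T},
    SpecialLinearGroup.SL2Z_generators, Set.toFinite _⟩
  obtain ⟨s, hs, hfin⟩ := AddGroup.fg_iff.mp (inferInstance : AddGroup.FG (Additive (Gamma0 L)))
  have : Finite s := hfin.to_subtype
  let res : (Additive (Gamma0 L) →+ k) →ₗ[k] (s → k) :=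
    { toFun := fun χ x => χ x.1
      map_add' := fun _ _ => rfl
      map_smul' := fun _ _ => rfl }
  refine Module.Finite.of_injective res fun χ χ' h => ?_
  exact AddMonoidHom.eq_of_eqOn_dense hs fun x hx => congrFun h ⟨x, hx⟩

/-- Without eigen homomorphisms, good words kill everything. -/
theorem exists_good_homT_eq_zero [NeZero L] (hT : ∀ r : ℕ, r.Prime → r ∣ L → r ∈ T) {a : ℕ → k}
    (hno : ∀ φ : Additive (Gamma0 L) →+ k, (∀ (ℓ : ℕ) [Fact ℓ.Prime] (hℓ : ¬ ℓ ∣ L), ℓ ∉ T →
      HeckeLattice.transfer hℓ φ = a ℓ • φ) → φ = 0)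
    (χ : Additive (Gamma0 L) →+ k) :
    ∃ w, Good (fun ℓ : Letters T => a ℓ) w ∧ act (homT k hT) w χ = 0 := by
  have := finiteDimensional_hom (k := k) L
  exact exists_good_act_eq_zero (homT_commute hT)
    (fun φ h => hno φ fun ℓ hℓ hℓL hℓT => h ⟨ℓ, hℓ.out, hℓT⟩) χ

/-! ### Cochains and functions -/

omit [Fact (Nat.Prime q)] in
/-- Letters differ from `q`. -/
lemma letter_ne (hT : ∀ r : ℕ, r.Prime → r ∣ q * N → r ∈ T) (ℓ : Letters T) : (ℓ : ℕ) ≠ q :=
  fun h => letter_not_dvd hT ℓ (by rw [h]; exact dvd_mul_right q N)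

omit [Fact (Nat.Prime q)] in
/-- Letters do not divide `N`. -/
lemma letter_not_dvd_level (hT : ∀ r : ℕ, r.Prime → r ∣ q * N → r ∈ T) (ℓ : Letters T) :
    ¬ (ℓ : ℕ) ∣ N :=
  fun h => letter_not_dvd hT ℓ (dvd_mul_of_dvd_right h q)

variable (q k X) in
/-- `T_ℓ` on cochains. -/
def coT (hT : ∀ r : ℕ, r.Prime → r ∣ q * N → r ∈ T) (ℓ : Letters T) :
    Module.End k (Gamma0 N → X → k) :=
  heckeT (letter_not_dvd_level hT ℓ) (letter_ne hT ℓ)

variable (q k X) in
/-- `T_ℓ` on functions. -/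
def funT (hT : ∀ r : ℕ, r.Prime → r ∣ q * N → r ∈ T) (ℓ : Letters T) :
    Module.End k (X → k) where
  toFun := heckeFun (letter_ne hT ℓ)
  map_add' v w := by simp [heckeFun, Finset.sum_add_distrib]
  map_smul' c v := by simp [heckeFun, Finset.smul_sum]

variable (hT : ∀ r : ℕ, r.Prime → r ∣ q * N → r ∈ T)

lemma coT_eq_sum (ℓ : Letters T) (c : Gamma0 N → X → k) (γ : Gamma0 N) :
    ∃ (δ : HeckeLattice.Idx (ℓ : ℕ) → Gamma0 N) (g : HeckeLattice.Idx (ℓ : ℕ) → Grp q),
      coT q k X hT ℓ c γ = ∑ x, perm k (g x) (c (δ x)) :=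
  ⟨_, _, heckeT_eq_sum (letter_not_dvd_level hT ℓ) (letter_ne hT ℓ) c γ⟩

variable (N q k) in
/-- The cocycles. -/
def cocycles (X : Type*) [MulAction (Grp q) X] : Submodule k (Gamma0 N → X → k) where
  carrier := {c | IsCocycle q c}
  zero_mem' := fun _ _ _ => (add_zero 0).symm
  add_mem' := fun hc hd => hc.add hd
  smul_mem' := fun a _ hc => hc.smul a

/-- Words preserve cocycles. -/
theorem isCocycle_act {c : Gamma0 N → X → k} (hc : IsCocycle q c)
    (w : List (Letters T × k[X])) : IsCocycle q (act (coT q k X hT) w c) :=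
  act_mem (S := cocycles N q k X)
    (fun ℓ _ hd => IsCocycle.heckeT hd (letter_not_dvd_level hT ℓ) (letter_ne hT ℓ)) w hc

variable (N) in
/-- The cochains with values in a subspace. -/
def valuedIn (A : Submodule k (X → k)) : Submodule k (Gamma0 N → X → k) :=
  Submodule.pi Set.univ fun _ => A

/-- Membership in `valuedIn`. -/
lemma mem_valuedIn {A : Submodule k (X → k)} {c : Gamma0 N → X → k} :
    c ∈ valuedIn N A ↔ ∀ γ, c γ ∈ A := by
  simp [valuedIn, Submodule.mem_pi]

/-- Hecke operators preserve the cochains with values in a stable subspace. -/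
theorem coT_mem_valuedIn {A : Submodule k (X → k)} (hA : ∀ g : Grp q, ∀ f ∈ A, perm k g f ∈ A)
    (ℓ : Letters T) {c : Gamma0 N → X → k} (hc : c ∈ valuedIn N A) :
    coT q k X hT ℓ c ∈ valuedIn N A := by
  refine mem_valuedIn.2 fun γ => ?_
  obtain ⟨δ, g, e⟩ := coT_eq_sum hT ℓ c γ
  exact e ▸ sum_mem fun x _ => hA _ _ (mem_valuedIn.1 hc _)

/-- Words preserve the cochains with values in a stable subspace. -/
theorem act_mem_valuedIn {A : Submodule k (X → k)} (hA : ∀ g : Grp q, ∀ f ∈ A, perm k g f ∈ A)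
    (w : List (Letters T × k[X])) {c : Gamma0 N → X → k} (hc : c ∈ valuedIn N A) :
    act (coT q k X hT) w c ∈ valuedIn N A :=
  act_mem (fun ℓ _ hd => coT_mem_valuedIn hT hA ℓ hd) w hc

variable (N q k) in
/-- The coboundary as a linear map. -/
def cobₗ (X : Type*) [MulAction (Grp q) X] : (X → k) →ₗ[k] (Gamma0 N → X → k) where
  toFun := cob N q
  map_add' v w := funext fun γ => funext fun x => by simp [cob]; ring
  map_smul' a v := funext fun γ => funext fun x => by simp [cob]; ring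

/-- Words commute with the coboundary. -/
theorem act_cob (w : List (Letters T × k[X])) (v : X → k) :
    act (coT q k X hT) w (cob N q v) = cob N q (act (funT q k X hT) w v) :=
  (act_map (cobₗ N q k X) (fun ℓ v =>
    (heckeT_cob (letter_not_dvd_level hT ℓ) (letter_ne hT ℓ) v).symm) w v).symm

variable (N) in
/-- Composition with a linear map. -/
def mapC (L : (X → k) →ₗ[k] (X' → k)) : (Gamma0 N → X → k) →ₗ[k] (Gamma0 N → X' → k) :=
  LinearMap.pi fun γ => L.comp (LinearMap.proj γ)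

/-- `mapC` evaluated at an element. -/
lemma mapC_apply (L : (X → k) →ₗ[k] (X' → k)) (c : Gamma0 N → X → k) (γ : Gamma0 N) :
    mapC N L c γ = L (c γ) := rfl

/-- Equivariant maps commute with words. -/
theorem mapC_act {L : (X → k) →ₗ[k] (X' → k)} (hL : IsEquivariant q L)
    (w : List (Letters T × k[X])) (c : Gamma0 N → X → k) :
    mapC N L (act (coT q k X hT) w c) = act (coT q k X' hT) w (mapC N L c) :=
  act_map _ (fun ℓ c =>
    (heckeT_map (letter_not_dvd_level hT ℓ) (letter_ne hT ℓ) hL c).symm) w c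

/-! ### The two base points -/

/-- Coboundaries vanish at the pair. -/
lemma atPair_cob (hqN : ¬ q ∣ N) (v : Pair q → k) :
    atPair hqN (cob N q v) (isCocycle_cob v) = 0 := by
  rw [atPair, atBase_cob, AddMonoidHom.zero_comp]

/-- A cocycle vanishing at the pair is a coboundary. -/
lemma exists_eq_cob_of_atPair (hqN : ¬ q ∣ N) {c : Gamma0 N → Pair q → k} (hc : IsCocycle q c)
    (h0 : atPair hqN c hc = 0) : ∃ v, c = cob N q v := by
  refine exists_eq_cob (isTransitiveFrom_pair hqN) hc (AddMonoidHom.ext fun γ => ?_)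
  rw [← ofMul_toMul γ]
  have h := DFunLike.congr_fun h0 (Additive.ofMul ((conjT hqN).symm (Additive.toMul γ)))
  simp only [atPair_apply, MulEquiv.apply_symm_apply, AddMonoidHom.zero_apply] at h
  exact h

/-- Words commute with evaluation at the base pair. -/
theorem atPair_act (hqN : ¬ q ∣ N) {c : Gamma0 N → Pair q → k} (hc : IsCocycle q c)
    (w : List (Letters T × k[X])) :
    atPair hqN (act (coT q k (Pair q) hT) w c) (isCocycle_act hT hc w) =
      act (homT k fun r hr h => hT r hr (dvd_mul_of_dvd_sq_mul hr h)) w (atPair hqN c hc) := by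
  let R : Submodule k
      ((Gamma0 N → Pair q → k) × (Additive (Gamma0 (q ^ 2 * N)) →+ k)) :=
    { carrier := {p | ∃ h : IsCocycle q p.1, atPair hqN p.1 h = p.2}
      zero_mem' := ⟨(cocycles N q k (Pair q)).zero_mem, AddMonoidHom.ext fun _ => rfl⟩
      add_mem' := by
        rintro p p' ⟨hp, e⟩ ⟨hp', e'⟩
        refine ⟨hp.add hp', AddMonoidHom.ext fun γ => ?_⟩
        rw [Prod.snd_add, ← e, ← e']
        rfl
      smul_mem' := by
        rintro b p ⟨hp, e⟩
        refine ⟨hp.smul b, AddMonoidHom.ext fun γ => ?_⟩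
        rw [Prod.smul_snd, ← e]
        rfl }
  obtain ⟨h₁, h₂⟩ := act_rel R (Tv := coT q k (Pair q) hT)
    (Tw := homT k fun r hr h => hT r hr (dvd_mul_of_dvd_sq_mul hr h))
    (fun ℓ => by
      rintro ⟨d, φ⟩ ⟨hp, e⟩
      refine ⟨hp.heckeT (letter_not_dvd_level hT ℓ) (letter_ne hT ℓ), ?_⟩
      exact (atPair_heckeT hqN (letter_not_dvd_level hT ℓ) (letter_ne hT ℓ) hp).trans
        (congrArg _ e))
    w (v := c) (u := atPair hqN c hc) ⟨hc, rfl⟩
  exact h₂

/-- Words commute with evaluation at the base point. -/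
theorem atLine_act (hqN : ¬ q ∣ N) {c : Gamma0 N → Line q → k} (hc : IsCocycle q c)
    (w : List (Letters T × k[X])) :
    atLine hqN (act (coT q k (Line q) hT) w c) (isCocycle_act hT hc w) =
      act (homT k hT) w (atLine hqN c hc) := by
  let R : Submodule k
      ((Gamma0 N → Line q → k) × (Additive (Gamma0 (q * N)) →+ k)) :=
    { carrier := {p | ∃ h : IsCocycle q p.1, atLine hqN p.1 h = p.2}
      zero_mem' := ⟨(cocycles N q k (Line q)).zero_mem, AddMonoidHom.ext fun _ => rfl⟩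
      add_mem' := by
        rintro p p' ⟨hp, e⟩ ⟨hp', e'⟩
        refine ⟨hp.add hp', AddMonoidHom.ext fun γ => ?_⟩
        rw [Prod.snd_add, ← e, ← e']
        rfl
      smul_mem' := by
        rintro b p ⟨hp, e⟩
        refine ⟨hp.smul b, AddMonoidHom.ext fun γ => ?_⟩
        rw [Prod.smul_snd, ← e]
        rfl }
  obtain ⟨h₁, h₂⟩ := act_rel R (Tv := coT q k (Line q) hT) (Tw := homT k hT)
    (fun ℓ => by
      rintro ⟨d, φ⟩ ⟨hp, e⟩
      refine ⟨hp.heckeT (letter_not_dvd_level hT ℓ) (letter_ne hT ℓ), ?_⟩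
      exact (atLine_heckeT hqN (letter_not_dvd_level hT ℓ) (letter_ne hT ℓ) hp).trans
        (congrArg _ e))
    w (v := c) (u := atLine hqN c hc) ⟨hc, rfl⟩
  exact h₂

end Fermat.Agent.ResidualCarayol
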