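import Fermat.Agent.ResidualCarayol.Lifting
import Fermat.Agent.ResidualCarayol.Operators

/-!
# Descent from level `q² N`

If an eigen homomorphism of `Γ₀(q² N)` modulo `p ≠ q` is killed by the cube of every invariant
kernel killing the old functions, its eigen system occurs on `Γ₀(q N)` or on `Γ₀(N)`: otherwise
good words kill, layer by layer, the part of its Shapiro cocycle with vanishing fibre sums.
-/

set_option autoImplicit false

noncomputable section

namespace Fermat.Agent.ResidualCarayol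

open CongruenceSubgroup Matrix Polynomial
open scoped MatrixGroups OnePoint

variable {N q : ℕ} [Fact q.Prime] {k : Type*} [Field k] {T : Finset ℕ}

/-- The standing hypotheses: no eigen homomorphism with the eigen system on `Γ₀(q N)` or `Γ₀(N)`,
and the two auxiliary primes. -/
structure DescentHyp (N q : ℕ) (T : Finset ℕ) (a : ℕ → k) : Prop where
  ne_N : N ≠ 0
  hqN : ¬ q ∣ N
  q_ne : (q : k) ≠ 0
  two_ne : (2 : k) ≠ 0
  hT : ∀ r : ℕ, r.Prime → r ∣ q * N → r ∈ T
  three : (3 : k) ≠ 0 ∨ ∃ ℓ : Letters T, (ℓ : ℕ) % 3 = 2 ∧ a ℓ ≠ 0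
  not_eisenstein : ∃ ℓ : Letters T, a ℓ ≠ (ℓ : ℕ) + 1
  no_line : ∀ φ : Additive (Gamma0 (q * N)) →+ k,
    (∀ (ℓ : ℕ) [Fact ℓ.Prime] (hℓ : ¬ ℓ ∣ q * N), ℓ ∉ T →
      HeckeLattice.transfer hℓ φ = a ℓ • φ) → φ = 0
  no_base : ∀ φ : Additive (Gamma0 N) →+ k,
    (∀ (ℓ : ℕ) [Fact ℓ.Prime] (hℓ : ¬ ℓ ∣ N), ℓ ∉ T →
      HeckeLattice.transfer hℓ φ = a ℓ • φ) → φ = 0

variable {a : ℕ → k}

/-- The eigen values at the letters. -/
abbrev letterVal (T : Finset ℕ) (a : ℕ → k) : Letters T → k := fun ℓ => a ℓ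

namespace DescentHyp

variable (H : DescentHyp N q T a)

include H in
/-- A good word makes a cocycle on the line a coboundary. -/
theorem exists_word_line {c : Gamma0 N → Line q → k} (hc : IsCocycle q c) :
    ∃ w v, Good (letterVal T a) w ∧ act (coT q k (Line q) H.hT) w c = cob N q v := by
  have : NeZero (q * N) := ⟨mul_ne_zero (Fact.out : q.Prime).ne_zero H.ne_N⟩
  obtain ⟨w, hw, h0⟩ := exists_good_homT_eq_zero H.hT H.no_line (atLine H.hqN c hc)
  rw [← atLine_act H.hT H.hqN hc w] at h0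
  obtain ⟨v, hv⟩ := exists_eq_cob_of_atLine H.hqN (isCocycle_act H.hT hc w) h0
  exact ⟨w, v, hw, hv⟩

include H in
/-- A good word makes a cocycle modulo constants a coboundary modulo constants. -/
theorem exists_word_quasi {d : Gamma0 N → Line q → k} (hd : IsQuasi q d) :
    ∃ w u, Good (letterVal T a) w ∧
      act (coT q k (Line q) H.hT) w d - cob N q u ∈ valuedIn N (constFun q k) := by
  have hconst : ∀ (w : List (Letters T × k[X])), ∀ c ∈ valuedIn N (constFun q k),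
      act (coT q k (Line q) H.hT) w c ∈ valuedIn N (constFun q k) := fun w _ hc =>
    act_mem_valuedIn H.hT (fun g _ hf => perm_mem_constFun g hf) w hc
  rcases H.three with h3 | ⟨ℓ, hℓ3, hℓ0⟩
  · obtain ⟨D, hD, hDd⟩ := exists_isCocycle_of_quasi H.two_ne h3 hd
    obtain ⟨w, u, hw, hu⟩ := H.exists_word_line hD
    refine ⟨w, u, hw, ?_⟩
    have h := hconst w (d - D) (mem_valuedIn.2 fun γ => by
      rw [Pi.sub_apply, ← neg_sub]; exact neg_mem (hDd γ))
    rwa [map_sub, hu] at h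
  · obtain ⟨D, v, hD, hDd⟩ := exists_isCocycle_of_quasi_heckeT H.two_ne
      (letter_not_dvd_level H.hT ℓ) (letter_ne H.hT ℓ) hℓ3 hd
    obtain ⟨w, u, hw, hu⟩ := H.exists_word_line hD
    refine ⟨w ++ [(ℓ, X)], u + act (funT q k (Line q) H.hT) w v,
      hw.append (good_singleton (by simpa using hℓ0)), ?_⟩
    have h := hconst w (coT q k (Line q) H.hT ℓ d - (D + cob N q v)) (mem_valuedIn.2 fun γ => by
      have h' := neg_mem (hDd γ)
      rw [show -(D γ -
            (heckeT (letter_not_dvd_level H.hT ℓ) (letter_ne H.hT ℓ) d γ - cob N q v γ)) =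
          coT q k (Line q) H.hT ℓ d γ - (D γ + cob N q v γ) by
        show _ = heckeT _ _ d γ - _; abel] at h'
      exact h')
    rw [map_sub, map_add, hu, act_cob] at h
    rw [act_append, act_singleton, aeval_X,
      show cob N q (u + act (funT q k (Line q) H.hT) w v) =
        cob N q u + cob N q (act (funT q k (Line q) H.hT) w v) from map_add (cobₗ N q k _) _ _]
    exact h

include H in
/-- A good word pushes a cochain into the next layer: trivial quotient. -/
theorem exists_word_triv {A A' : Submodule k (Pair q → k)} (hA : IsStable A)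
    (φ : (Pair q → k) →ₗ[k] k) (hφ : ∀ f ∈ A, φ f = 0 ↔ f ∈ A')
    (hinv : ∀ (g : Grp q), ∀ f ∈ A, φ (perm k g f) = φ f)
    {c : Gamma0 N → Pair q → k} (hc : IsCocycle q c) (hcA : c ∈ valuedIn N A) :
    ∃ w, Good (letterVal T a) w ∧ act (coT q k (Pair q) H.hT) w c ∈ valuedIn N A' := by
  have : NeZero N := ⟨H.ne_N⟩
  have hTN : ∀ r : ℕ, r.Prime → r ∣ N → r ∈ T := fun r hr h => H.hT r hr (dvd_mul_of_dvd_right h q)
  have hval : ∀ γ, c γ ∈ A := mem_valuedIn.1 hcA
  let ψ : Additive (Gamma0 N) →+ k :=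
    { toFun := fun γ => φ (c (Additive.toMul γ))
      map_zero' := by rw [toMul_zero, hc.one_eq, map_zero]
      map_add' := fun γ δ => by rw [toMul_add, hc.mul_eq, map_add, hinv _ _ (hval _)] }
  obtain ⟨w, hw, h0⟩ := exists_good_homT_eq_zero hTN H.no_base ψ
  let R : Submodule k ((Gamma0 N → Pair q → k) × (Additive (Gamma0 N) →+ k)) :=
    { carrier := {x | x.1 ∈ valuedIn N A ∧ ∀ γ, φ (x.1 γ) = x.2 (Additive.ofMul γ)}
      zero_mem' := ⟨zero_mem _, fun _ => map_zero φ⟩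
      add_mem' := fun hx hy => ⟨add_mem hx.1 hy.1, fun γ => by
        simp [hx.2 γ, hy.2 γ]⟩
      smul_mem' := fun b x hx => ⟨Submodule.smul_mem _ b hx.1, fun γ => by
        simp [hx.2 γ]⟩ }
  obtain ⟨h1, h2⟩ := act_rel R (Tv := coT q k (Pair q) H.hT) (Tw := homT k hTN)
    (fun ℓ => by
      rintro ⟨d, χ⟩ ⟨hdA, hdχ⟩
      refine ⟨coT_mem_valuedIn H.hT hA ℓ hdA, fun γ => ?_⟩
      show φ (heckeT (letter_not_dvd_level H.hT ℓ) (letter_ne H.hT ℓ) d γ) =
        HeckeLattice.transfer _ χ (Additive.ofMul γ)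
      rw [heckeT_eq_sum, map_sum, HeckeLattice.CosetSystem.transfer_apply]
      exact Finset.sum_congr rfl fun x _ =>
        (hinv _ _ (mem_valuedIn.1 hdA _)).trans (hdχ _))
    w (v := c) (u := ψ) ⟨hcA, fun _ => rfl⟩
  refine ⟨w, hw, mem_valuedIn.2 fun γ => (hφ _ (mem_valuedIn.1 h1 γ)).1 ?_⟩
  rw [h2 γ, h0, AddMonoidHom.zero_apply]

include H in
/-- A good word pushes a cochain into the next layer, up to a coboundary: quotient on the line. -/
theorem exists_word_layer {A A' : Submodule k (Pair q → k)} (hA : IsStable A)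
    (φ : (Pair q → k) →ₗ[k] (Line q → k)) (hφ : ∀ f ∈ A, φ f ∈ constFun q k ↔ f ∈ A')
    (heq : ∀ (g : Grp q), ∀ f ∈ A, φ (perm k g f) - perm k g (φ f) ∈ constFun q k)
    (hsurj : ∀ (g : Grp q) (w : Line q → k), ∃ f ∈ A, φ f - (perm k g w - w) ∈ constFun q k)
    {c : Gamma0 N → Pair q → k} (hc : IsCocycle q c) (hcA : c ∈ valuedIn N A) :
    ∃ w v, Good (letterVal T a) w ∧
      act (coT q k (Pair q) H.hT) w c - cob N q v ∈ valuedIn N A' := by
  have hval : ∀ γ, c γ ∈ A := mem_valuedIn.1 hcA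
  have hd : IsQuasi q (mapC N φ c) := fun γ δ => by
    have h := heq (red N q γ) (c δ) (hval δ)
    rw [mapC_apply, mapC_apply, mapC_apply, hc.mul_eq, map_add,
      show φ (c γ) + φ (perm k (red N q γ) (c δ)) -
          (φ (c γ) + perm k (toG q (γ : SL(2, ℤ))) (φ (c δ)))
        = φ (perm k (red N q γ) (c δ)) - perm k (red N q γ) (φ (c δ)) by
          rw [show toG q (γ : SL(2, ℤ)) = red N q γ from rfl]; abel]
    exact h
  obtain ⟨w, u, hw, hu⟩ := H.exists_word_quasi hd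
  let R : Submodule k ((Gamma0 N → Pair q → k) × (Gamma0 N → Line q → k)) :=
    { carrier := {x | x.1 ∈ valuedIn N A ∧ mapC N φ x.1 - x.2 ∈ valuedIn N (constFun q k)}
      zero_mem' := ⟨zero_mem _, by simp⟩
      add_mem' := fun hx hy => ⟨add_mem hx.1 hy.1, by
        rw [Prod.fst_add, Prod.snd_add, map_add, add_sub_add_comm]
        exact add_mem hx.2 hy.2⟩
      smul_mem' := fun b x hx => ⟨Submodule.smul_mem _ b hx.1, by
        rw [Prod.smul_fst, Prod.smul_snd, map_smul, ← smul_sub]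
        exact Submodule.smul_mem _ b hx.2⟩ }
  obtain ⟨h1, h2⟩ := act_rel R (Tv := coT q k (Pair q) H.hT) (Tw := coT q k (Line q) H.hT)
    (fun ℓ => by
      rintro ⟨d, e⟩ ⟨hdA, hde⟩
      refine ⟨coT_mem_valuedIn H.hT hA ℓ hdA, mem_valuedIn.2 fun γ => ?_⟩
      show φ (heckeT (letter_not_dvd_level H.hT ℓ) (letter_ne H.hT ℓ) d γ) -
        heckeT (letter_not_dvd_level H.hT ℓ) (letter_ne H.hT ℓ) e γ ∈ _
      rw [heckeT_eq_sum, heckeT_eq_sum, map_sum, ← Finset.sum_sub_distrib]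
      refine sum_mem fun x _ => ?_
      have h := add_mem (heq (repQ (letter_ne H.hT ℓ) x)⁻¹ _ (mem_valuedIn.1 hdA
          ((HeckeLattice.gamma0System N ℓ (letter_not_dvd_level H.hT ℓ)).cocycle γ x)))
        (perm_mem_constFun (repQ (letter_ne H.hT ℓ) x)⁻¹ (mem_valuedIn.1 hde
          ((HeckeLattice.gamma0System N ℓ (letter_not_dvd_level H.hT ℓ)).cocycle γ x)))
      rw [Pi.sub_apply, map_sub] at h
      simp only [mapC_apply, sub_add_sub_cancel] at h
      exact h)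
    w (v := c) (u := mapC N φ c) ⟨hcA, by simp⟩
  set c1 := act (coT q k (Pair q) H.hT) w c
  have hc1 : ∀ γ, φ (c1 γ) - cob N q u γ ∈ constFun q k := fun γ => by
    have := add_mem (mem_valuedIn.1 h2 γ) (mem_valuedIn.1 hu γ)
    simpa [mapC_apply] using this
  -- one more letter makes the primitive lie in the image
  obtain ⟨ℓ, hℓ⟩ := H.not_eisenstein
  have hℓq := letter_ne H.hT ℓ
  choose f hfA hf using fun x => hsurj (repQ hℓq x)⁻¹ u
  set F := ∑ x, f x
  have hFA : F ∈ A := sum_mem fun x _ => hfA x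
  set b : k := (ℓ : ℕ) + 1
  have hcard : (Fintype.card (HeckeLattice.Idx (ℓ : ℕ)) : k) = b := by
    rw [← Nat.card_eq_fintype_card,
      show Nat.card (HeckeLattice.Idx (ℓ : ℕ)) = Nat.card (Option (ZMod (ℓ : ℕ))) from rfl,
      Finite.card_option, Nat.card_zmod]
    simp [b]
  have hF : φ F - (heckeFun hℓq u - b • u) ∈ constFun q k := by
    rw [map_sum, heckeFun, ← hcard, Nat.cast_smul_eq_nsmul k, ← Finset.card_univ,
      ← Finset.sum_const, ← Finset.sum_sub_distrib, ← Finset.sum_sub_distrib]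
    exact sum_mem fun x _ => hf x
  refine ⟨(ℓ, X - C b) :: w, F, fun x hx => ?_, mem_valuedIn.2 fun γ => ?_⟩
  · rcases List.mem_cons.1 hx with rfl | hx
    · simpa [b, letterVal, sub_eq_zero] using hℓ
    · exact hw x hx
  rw [act_cons, map_sub, aeval_X, aeval_C]
  show (coT q k (Pair q) H.hT ℓ c1 - b • c1) γ - cob N q F γ ∈ A'
  have hTA : coT q k (Pair q) H.hT ℓ c1 γ ∈ A :=
    mem_valuedIn.1 (coT_mem_valuedIn H.hT hA ℓ h1) γ
  have hmem : (coT q k (Pair q) H.hT ℓ c1 - b • c1) γ - cob N q F γ ∈ A :=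
    A.sub_mem (A.sub_mem hTA (A.smul_mem b (mem_valuedIn.1 h1 γ)))
      (A.sub_mem (hA _ _ hFA) hFA)
  refine (hφ _ hmem).1 ?_
  have hT1 : φ (coT q k (Pair q) H.hT ℓ c1 γ) - cob N q (heckeFun hℓq u) γ ∈ constFun q k := by
    rw [← heckeT_cob (letter_not_dvd_level H.hT ℓ) hℓq]
    show φ (heckeT _ hℓq c1 γ) - _ ∈ _
    rw [heckeT_eq_sum, heckeT_eq_sum, map_sum, ← Finset.sum_sub_distrib]
    refine sum_mem fun x _ => ?_
    have h := add_mem (heq (repQ hℓq x)⁻¹ _ (mem_valuedIn.1 h1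
        ((HeckeLattice.gamma0System N ℓ (letter_not_dvd_level H.hT ℓ)).cocycle γ x)))
      (perm_mem_constFun (repQ hℓq x)⁻¹
        (hc1 ((HeckeLattice.gamma0System N ℓ (letter_not_dvd_level H.hT ℓ)).cocycle γ x)))
    rw [map_sub, sub_add_sub_cancel] at h
    exact h
  have hF' : φ (cob N q F γ) - cob N q (heckeFun hℓq u - b • u) γ ∈ constFun q k := by
    rw [cob_eq, cob_eq, map_sub]
    have h := sub_mem (add_mem (heq (red N q γ) F hFA) (perm_mem_constFun (red N q γ) hF)) hF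
    rw [map_sub, sub_add_sub_cancel, sub_sub_sub_comm] at h
    exact h
  have h := sub_mem (sub_mem hT1 (Submodule.smul_mem _ b (hc1 γ))) hF'
  rw [show cob N q (heckeFun hℓq u - b • u) γ = cob N q (heckeFun hℓq u) γ - b • cob N q u γ from
    congrFun (show cob N q (heckeFun hℓq u - b • u) = cob N q (heckeFun hℓq u) - b • cob N q u by
      show cobₗ N q k _ _ = cobₗ N q k _ _ - b • cobₗ N q k _ _
      rw [map_sub, map_smul]) γ] at h
  rw [map_sub, Pi.sub_apply, Pi.smul_apply, map_sub, map_smul]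
  convert h using 1
  rw [smul_sub]
  abel

include H in
/-- Good words make cocycles with values in a deep stable subspace coboundaries. -/
theorem exists_word_deep {m : ℕ} (A : Submodule k (Pair q → k)) (hA : IsStable A)
    (hs : ∀ f ∈ A, sumSnd f = 0) (hdeep : ∀ f ∈ A, Deep ⊥ m f)
    {c : Gamma0 N → Pair q → k} (hc : IsCocycle q c) (hcA : c ∈ valuedIn N A) :
    ∃ w v, Good (letterVal T a) w ∧ act (coT q k (Pair q) H.hT) w c = cob N q v := by
  induction A using WellFoundedLT.induction generalizing c with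
  | _ A ih =>
    by_cases hbot : A = ⊥
    · refine ⟨[], 0, good_nil _, ?_⟩
      rw [act_nil, show cob N q (0 : Pair q → k) = 0 from map_zero (cobₗ N q k _)]
      exact funext fun γ => (Submodule.mem_bot k).1 (hbot ▸ mem_valuedIn.1 hcA γ)
    obtain ⟨A', ⟨hA', hlt⟩, hmax⟩ :=
      (IsWellFounded.wf (r := (· > · : Submodule k (Pair q → k) → _ → Prop))).has_min
        {B | IsStable B ∧ B < A}
        ⟨⊥, fun g f hf => by rw [(Submodule.mem_bot k).1 hf, map_zero]; exact zero_mem _,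
          bot_lt_iff_ne_bot.2 hbot⟩
    have hstep : ∃ w v, Good (letterVal T a) w ∧
        act (coT q k (Pair q) H.hT) w c - cob N q v ∈ valuedIn N A' := by
      rcases step H.q_ne H.two_ne hA hA' hlt (fun B hB h1 h2 => by
          by_contra h
          push Not at h
          exact hmax B ⟨hB, lt_of_le_of_ne h2 h.2⟩ (lt_of_le_of_ne h1 (Ne.symm h.1))) hs hdeep with
        ⟨φ, hφ, hinv, -⟩ | ⟨φ, hφ, heq, hsurj⟩
      · obtain ⟨w, hw, h⟩ := H.exists_word_triv hA φ hφ hinv hc hcA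
        refine ⟨w, 0, hw, ?_⟩
        rw [show cob N q (0 : Pair q → k) = 0 from map_zero (cobₗ N q k _), sub_zero]
        exact h
      · exact H.exists_word_layer hA φ hφ heq hsurj hc hcA
    obtain ⟨w, v, hw, h⟩ := hstep
    obtain ⟨w', v', hw', h'⟩ := ih A' hlt hA' (fun f hf => hs f (hlt.le hf))
      (fun f hf => hdeep f (hlt.le hf)) ((isCocycle_act H.hT hc w).sub (isCocycle_cob v)) h
    refine ⟨w' ++ w, v' + act (funT q k (Pair q) H.hT) w' v, hw'.append hw, ?_⟩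
    rw [map_sub, act_cob, sub_eq_iff_eq_add] at h'
    rw [act_append, h']
    exact (map_add (cobₗ N q k _) _ _).symm

include H in
/-- The eigen homomorphism is zero. -/
theorem eq_zero_of_opHom (χ : Additive (Gamma0 (q ^ 2 * N)) →+ k)
    (hχ : ∀ (ℓ : ℕ) [Fact ℓ.Prime] (hℓ : ¬ ℓ ∣ q ^ 2 * N), ℓ ∉ T →
      HeckeLattice.transfer hℓ χ = a ℓ • χ)
    (hop : ∀ (A : Pair q → Pair q → k) (hA : IsInvariant A), KillsOld A →
      opHom H.hqN A hA (opHom H.hqN A hA (opHom H.hqN A hA χ)) = 0) : χ = 0 := by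
  have hq := H.q_ne
  have hT2 : ∀ r : ℕ, r.Prime → r ∣ q ^ 2 * N → r ∈ T := fun r hr h =>
    H.hT r hr (dvd_mul_of_dvd_sq_mul hr h)
  -- Shapiro
  set sh : (Additive (Gamma0 (q ^ 2 * N)) →+ k) → Gamma0 N → Pair q → k := fun ψ =>
    shapiro (isTransitiveFrom_pair H.hqN)
      (ψ.comp (MonoidHom.toAdditive (conjT H.hqN).symm.toMonoidHom)) with hsh
  have hshc : ∀ ψ, IsCocycle q (sh ψ) := fun ψ => isCocycle_shapiro _ _
  have hat : ∀ ψ, atPair H.hqN (sh ψ) (hshc ψ) = ψ := fun ψ => by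
    refine AddMonoidHom.ext fun γ => ?_
    rw [← ofMul_toMul γ, atPair_apply]
    simp only [sh, shapiro_base]
    show ψ (Additive.ofMul ((conjT H.hqN).symm (conjT H.hqN (Additive.toMul γ)))) = _
    rw [MulEquiv.symm_apply_apply]
  obtain ⟨e, n, he, hee, hdeep⟩ := exists_idempotent (q := q) (k := k) hq
  have heq : IsEquivariant q (kerOp e) := isEquivariant_kerOp he.compressed.invariant
  -- the operator of `e` is the action on the values of any cocycle
  have hopE : ∀ (d : Gamma0 N → Pair q → k) (hd : IsCocycle q d),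
      opHom H.hqN e he.compressed.invariant (atPair H.hqN d hd) =
        atPair H.hqN (fun γ => kerOp e (d γ)) (hd.map heq) := by
    intro d hd
    obtain ⟨v, hv⟩ := exists_eq_cob_of_atPair H.hqN ((hshc _).sub hd) (by
      refine AddMonoidHom.ext fun γ => ?_
      rw [← ofMul_toMul γ, atPair_apply, AddMonoidHom.zero_apply, Pi.sub_apply, Pi.sub_apply,
        sub_eq_zero, ← atPair_apply _ _ (hshc _), hat, atPair_apply] :
      atPair H.hqN (sh (atPair H.hqN d hd) - d) ((hshc _).sub hd) = 0)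
    refine AddMonoidHom.ext fun γ => ?_
    rw [← ofMul_toMul γ, atPair_apply]
    refine (opHom_apply _ _ _ _ _).trans ?_
    have h0 := DFunLike.congr_fun (atPair_cob H.hqN (kerOp e v)) (Additive.ofMul (Additive.toMul γ))
    rw [atPair_apply, AddMonoidHom.zero_apply,
      show cob N q (kerOp e v) = fun γ => kerOp e ((sh (atPair H.hqN d hd) - d) γ) by
        rw [hv]; exact (cob_map heq v).symm] at h0
    simp only [Pi.sub_apply, map_sub] at h0
    exact sub_eq_zero.1 h0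
  set c := sh χ with hcdef
  have hc : IsCocycle q c := hshc χ
  have hec : atPair H.hqN (fun γ => kerOp e (c γ)) (hc.map heq) = 0 := by
    have h := hop e he.compressed.invariant (he.killsOld hq)
    rw [← hat χ, hopE c hc, hopE _ (hc.map heq), hopE _ ((hc.map heq).map heq)] at h
    rw [← h]
    refine AddMonoidHom.ext fun γ => ?_
    rw [← ofMul_toMul γ, atPair_apply, atPair_apply]
    show kerOp e _ basePair = kerOp e (kerOp e (kerOp e _)) basePair
    rw [kerOp_eq_mulVec, kerOp_eq_mulVec, kerOp_eq_mulVec, mulVec_mulVec, mulVec_mulVec,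
      hee, hee]
  have heig : ∀ w, atPair H.hqN (act (coT q k (Pair q) H.hT) w c) (isCocycle_act H.hT hc w) =
      wordVal (letterVal T a) w • χ := fun w => by
    rw [atPair_act H.hT H.hqN hc w, hat]
    exact act_eigen (fun ℓ : Letters T => hχ (ℓ : ℕ) (letter_not_dvd hT2 ℓ) ℓ.2.2) w
  -- vanishing fibre sums
  have hsum : IsEquivariant q (sumSnd (q := q) (k := k)) := sumSnd_perm
  obtain ⟨w1, v0, hw1, hv0⟩ := H.exists_word_line (hc.map hsum)
  have hv0' : mapC N sumSnd (act (coT q k (Pair q) H.hT) w1 c) = cob N q v0 := by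
    rw [mapC_act H.hT hsum]; exact hv0
  set c1 := act (coT q k (Pair q) H.hT) w1 c - cob N q ((q : k)⁻¹ • liftSnd v0)
  have hc1 : IsCocycle q c1 := (isCocycle_act H.hT hc w1).sub (isCocycle_cob _)
  have hc1s : ∀ γ, sumSnd (c1 γ) = 0 := fun γ => by
    rw [show c1 γ = act (coT q k (Pair q) H.hT) w1 c γ -
      cob N q ((q : k)⁻¹ • liftSnd v0) γ from rfl, map_sub, ← mapC_apply (N := N) sumSnd, hv0',
      sub_eq_zero]
    refine (congrFun ?_ γ).trans (congrFun (cob_map hsum _).symm γ)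
    rw [map_smul, sumSnd_liftSnd, smul_smul, inv_mul_cancel₀ hq, one_smul]
  -- the idempotent part
  obtain ⟨u, hu⟩ := exists_eq_cob_of_atPair H.hqN (hc.map heq) hec
  set u1 := act (funT q k (Pair q) H.hT) w1 u - kerOp e ((q : k)⁻¹ • liftSnd v0)
  have hec1 : ∀ γ, kerOp e (c1 γ) = cob N q u1 γ := fun γ => by
    rw [show c1 γ = act (coT q k (Pair q) H.hT) w1 c γ -
      cob N q ((q : k)⁻¹ • liftSnd v0) γ from rfl, map_sub, ← mapC_apply (N := N) (kerOp e),
      mapC_act H.hT heq,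
      show mapC N (kerOp e) c = cob N q u from hu, act_cob,
      congrFun (cob_map heq ((q : k)⁻¹ • liftSnd v0)) γ, cob_eq, cob_eq, cob_eq]
    simp only [u1, map_sub]
    abel
  set c2 : Gamma0 N → Pair q → k := c1 - fun γ => kerOp e (c1 γ)
  have hc2 : IsCocycle q c2 := hc1.sub (hc1.map heq)
  set K := LinearMap.ker (sumSnd (q := q) (k := k)) ⊓ LinearMap.ker (kerOp e)
  have hK : IsStable K := fun g f hf => ⟨by
    rw [SetLike.mem_coe, LinearMap.mem_ker, sumSnd_perm, LinearMap.mem_ker.1 hf.1, map_zero], by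
    rw [SetLike.mem_coe, LinearMap.mem_ker, heq, LinearMap.mem_ker.1 hf.2, map_zero]⟩
  have hc2K : c2 ∈ valuedIn N K := mem_valuedIn.2 fun γ => ⟨by
    show sumSnd (c1 γ - kerOp e (c1 γ)) = 0
    rw [map_sub, hc1s, kerOp_eq_mulVec, he.compressed.sumSnd_mulVec hq, sub_zero], by
    show kerOp e (c1 γ - kerOp e (c1 γ)) = 0
    rw [map_sub, sub_eq_zero, kerOp_eq_mulVec, kerOp_eq_mulVec, mulVec_mulVec, hee]⟩
  obtain ⟨w2, v, hw2, hv⟩ := H.exists_word_deep (m := n) K hK (fun f hf => hf.1)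
    (fun f hf => hdeep f (by rw [← kerOp_eq_mulVec]; exact hf.2)) hc2 hc2K
  have hfin : act (coT q k (Pair q) H.hT) (w2 ++ w1) c = cob N q
      (v + act (funT q k (Pair q) H.hT) w2 ((q : k)⁻¹ • liftSnd v0 + u1)) := by
    have e1 : act (coT q k (Pair q) H.hT) w1 c =
        c2 + cob N q ((q : k)⁻¹ • liftSnd v0 + u1) := by
      refine funext fun γ => ?_
      rw [show cob N q ((q : k)⁻¹ • liftSnd v0 + u1) =
          cob N q ((q : k)⁻¹ • liftSnd v0) + cob N q u1 from map_add (cobₗ N q k _) _ _,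
        Pi.add_apply, Pi.add_apply, ← hec1]
      simp only [c2, c1, Pi.sub_apply]
      abel
    rw [act_append, e1, map_add, hv, act_cob]
    exact (map_add (cobₗ N q k _) _ _).symm
  have h0 := heig (w2 ++ w1)
  simp only [hfin, atPair_cob] at h0
  exact (smul_eq_zero.1 h0.symm).resolve_left (hw2.append hw1).wordVal_ne_zero

end DescentHyp

/-- **Descent.** An eigen homomorphism of `Γ₀(q² N)` killed by the cube of every kernel killing
the old functions gives one with the same eigen values on `Γ₀(q N)` or on `Γ₀(N)`. -/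
theorem exists_eigen_of_opHom [NeZero N] (hqN : ¬ q ∣ N) (hq : (q : k) ≠ 0) (h2 : (2 : k) ≠ 0)
    (T : Finset ℕ) (hT : ∀ r : ℕ, r.Prime → r ∣ q * N → r ∈ T) (a : ℕ → ℤ)
    (h3 : (3 : k) ≠ 0 ∨ ∃ ℓ : ℕ, ℓ.Prime ∧ ℓ ∉ T ∧ ℓ % 3 = 2 ∧ (a ℓ : k) ≠ 0)
    (hne : ∃ ℓ : ℕ, ℓ.Prime ∧ ℓ ∉ T ∧ (a ℓ : k) ≠ (ℓ : k) + 1)
    (χ : Additive (Gamma0 (q ^ 2 * N)) →+ k) (hχ0 : χ ≠ 0)
    (hχ : ∀ (ℓ : ℕ) [Fact ℓ.Prime] (hℓ : ¬ ℓ ∣ q ^ 2 * N), ℓ ∉ T →
      HeckeLattice.transfer hℓ χ = a ℓ • χ)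
    (hop : ∀ (A : Pair q → Pair q → k) (hA : IsInvariant A), KillsOld A →
      opHom hqN A hA (opHom hqN A hA (opHom hqN A hA χ)) = 0) :
    (∃ φ : Additive (Gamma0 (q * N)) →+ k, φ ≠ 0 ∧
      ∀ (ℓ : ℕ) [Fact ℓ.Prime] (hℓ : ¬ ℓ ∣ q * N), ℓ ∉ T →
        HeckeLattice.transfer hℓ φ = a ℓ • φ) ∨
      ∃ φ : Additive (Gamma0 N) →+ k, φ ≠ 0 ∧
        ∀ (ℓ : ℕ) [Fact ℓ.Prime] (hℓ : ¬ ℓ ∣ N), ℓ ∉ T →
          HeckeLattice.transfer hℓ φ = a ℓ • φ := by
  by_contra h
  have H : DescentHyp N q T fun ℓ => (a ℓ : k) :=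
    { ne_N := NeZero.ne N
      hqN := hqN
      q_ne := hq
      two_ne := h2
      hT := hT
      three := h3.imp id fun ⟨ℓ, hℓ, hℓT, h, h'⟩ => ⟨⟨ℓ, hℓ, hℓT⟩, h, h'⟩
      not_eisenstein := let ⟨ℓ, hℓ, hℓT, h'⟩ := hne; ⟨⟨ℓ, hℓ, hℓT⟩, h'⟩
      no_line := fun φ hφ => by
        by_contra h0
        exact h (Or.inl ⟨φ, h0, fun ℓ _ hℓ hℓT =>
          (hφ ℓ hℓ hℓT).trans (Int.cast_smul_eq_zsmul k (a ℓ) φ)⟩)
      no_base := fun φ hφ => by
        by_contra h0
        exact h (Or.inr ⟨φ, h0, fun ℓ _ hℓ hℓT =>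
          (hφ ℓ hℓ hℓT).trans (Int.cast_smul_eq_zsmul k (a ℓ) φ)⟩) }
  exact hχ0 (H.eq_zero_of_opHom χ
    (fun ℓ _ hℓ hℓT => (hχ ℓ hℓ hℓT).trans (Int.cast_smul_eq_zsmul k (a ℓ) χ).symm) hop)

end Fermat.Agent.ResidualCarayol
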