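import Fermat.Agent.ResidualCarayol.Structure
import Mathlib.RingTheory.Artinian.Ring
import Mathlib.RingTheory.Ideal.IdempotentFG

/-!
# The compressed kernels killing the functions of one point

The line of functions on pairs with vanishing fibre sums that are fixed by the triangular matrices
gives a character of the commutative algebra of compressed kernels.  Its kernel contains an
idempotent whose complement is annihilated by a power of that kernel.
-/

set_option autoImplicit false

noncomputable section

namespace Fermat.Agent.ResidualCarayol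

open Matrix
open scoped OnePoint

variable {q : ℕ} [Fact q.Prime] {k : Type*} [Field k]

variable (q k) in
/-- The pairs with first point `∞`. -/
def indFst : Pair q → k := liftFst (Pi.single (∞ : Line q) 1)

lemma liftFst_perm (g : Grp q) (f : Line q → k) :
    (liftFst (perm k g f) : Pair q → k) = perm k g (liftFst f) := rfl

/-- `perm` moves the indicator of a point. -/
lemma perm_indicator (g : Grp q) (x : Line q) :
    perm k g (Pi.single x (1 : k)) = Pi.single (g • x) 1 := by
  funext y
  simp [Pi.single_apply, inv_smul_eq_iff]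

lemma perm_indFst {g : Grp q} (hg : g • (∞ : Line q) = ∞) :
    perm k g (indFst q k) = indFst q k := by
  rw [indFst, ← liftFst_perm, perm_indicator, hg]

/-- A function fixed by triangular matrices with vanishing fibre sums is a multiple of the
projection of `indFst`. -/
theorem exists_eq_smul_proj_indFst (hq : (q : k) ≠ 0) {f : Pair q → k}
    (hs : sumSnd f = 0) (hf : ∀ g : Grp q, g • (∞ : Line q) = ∞ → perm k g f = f) :
    ∃ a : k, f = a • (proj q k *ᵥ indFst q k) := by
  classical
  have hinv : ∀ g : Grp q, g • (∞ : Line q) = ∞ → ∀ y, f (g • y) = f y := fun g hg y => by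
    have h := congrFun (hf g hg) (g • y)
    rw [perm_apply, inv_smul_smul] at h
    exact h.symm
  let y₀ : Pair q := ⟨∞, ((0 : ZMod q) : Line q), OnePoint.infty_ne_coe _⟩
  let y₁ : Pair q := ⟨((1 : ZMod q) : Line q), ((0 : ZMod q) : Line q), by simp⟩
  -- the values
  have h2 : ∀ y : Pair q, y.fst = ∞ → f y = f y₀ := fun y hy => by
    obtain ⟨b, hb⟩ := OnePoint.ne_infty_iff_exists.1 (hy ▸ y.ne.symm)
    rw [← hinv (upper b) (upper_smul_infty b) y₀]
    exact congrArg f (Pair.ext (hy.trans (upper_smul_infty b).symm)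
      (by rw [Pair.smul_snd, ← hb, upper_smul_coe, zero_add]))
  have h3 : ∀ y : Pair q, y.fst ≠ ∞ → y.snd ≠ ∞ → f y = f y₁ := fun y hy hy' => by
    obtain ⟨a, ha⟩ := OnePoint.ne_infty_iff_exists.1 hy
    obtain ⟨b, hb⟩ := OnePoint.ne_infty_iff_exists.1 hy'
    have hab : a - b ≠ 0 := sub_ne_zero.2 fun h => y.ne (by rw [← ha, ← hb, h])
    let g := upper b * diagGrp (a - b) hab
    have hg : g • (∞ : Line q) = ∞ := by rw [mul_smul, diagGrp_smul_infty, upper_smul_infty]
    rw [← hinv g hg y₁]
    refine congrArg f (Pair.ext ?_ ?_)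
    · rw [Pair.smul_fst, mul_smul, diagGrp_smul_coe, upper_smul_coe, mul_one, sub_add_cancel, ha]
    · rw [Pair.smul_snd, mul_smul, diagGrp_smul_coe, upper_smul_coe, mul_zero, zero_add, hb]
  have h1 : ∀ y : Pair q, y.snd = ∞ → f y = 0 := fun y hy => by
    have hcst : ∀ z : Pair q, z.snd = ∞ → f z = f y := fun z hz => by
      obtain ⟨a, ha⟩ := OnePoint.ne_infty_iff_exists.1 (hy ▸ y.ne)
      obtain ⟨c, hc⟩ := OnePoint.ne_infty_iff_exists.1 (hz ▸ z.ne)
      rw [← hinv (upper (c - a)) (upper_smul_infty _) y]
      exact congrArg f (Pair.ext (by rw [Pair.smul_fst, ← ha, upper_smul_coe, add_sub_cancel, hc])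
        (by rw [Pair.smul_snd, hy, upper_smul_infty, hz]))
    have h := congrFun hs (∞ : Line q)
    rw [sumSnd_apply, Finset.sum_congr rfl fun z _ => (show (if z.snd = ∞ then f z else 0) =
      (if z.snd = ∞ then (1 : k) else 0) * f y by split_ifs with hz <;> simp [hcst z, *]),
      ← Finset.sum_mul, card_fibre, Pi.zero_apply] at h
    exact (mul_eq_zero.1 h).resolve_left hq
  have hrel : f y₀ + ((q : k) - 1) * f y₁ = 0 := by
    have h := congrFun hs ((0 : ZMod q) : Line q)
    rw [sumSnd_apply, Pi.zero_apply] at h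
    have e : ∀ z : Pair q, (if z.snd = ((0 : ZMod q) : Line q) then f z else 0) =
        (if z.snd = ((0 : ZMod q) : Line q) then (1 : k) else 0) * f y₁ +
          (if z = y₀ then f y₀ - f y₁ else 0) := fun z => by
      by_cases hz : z.snd = ((0 : ZMod q) : Line q)
      · by_cases hz' : z.fst = ∞
        · have : z = y₀ := Pair.ext hz' hz
          simp [this, y₀]
        · rw [if_pos hz, if_pos hz, if_neg (fun h => hz' (by rw [h])),
            h3 z hz' (by rw [hz]; exact OnePoint.coe_ne_infty _)]
          ring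
      · rw [if_neg hz, if_neg hz, if_neg (fun h => hz (by rw [h]))]
        ring
    rw [Finset.sum_congr rfl fun z _ => e z, Finset.sum_add_distrib, ← Finset.sum_mul, card_fibre,
      Finset.sum_ite_eq' Finset.univ y₀ fun _ => f y₀ - f y₁, if_pos (Finset.mem_univ _)] at h
    linear_combination h
  refine ⟨-((q : k) * f y₁), funext fun y => ?_⟩
  have hu : ∀ x : Line q, sumSnd (indFst q k) x = if x = ∞ then (0 : k) else 1 := fun x => by
    rw [sumSnd_apply]
    by_cases hx : x = ∞
    · rw [if_pos hx]
      refine Finset.sum_eq_zero fun z _ => ?_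
      split_ifs with hz
      · rw [indFst, liftFst, Pi.single_eq_of_ne fun h => z.ne (h.trans (hz.trans hx).symm)]
      · rfl
    · rw [if_neg hx, Finset.sum_eq_single ⟨∞, x, Ne.symm hx⟩]
      · simp [indFst, liftFst]
      · intro z _ hz
        split_ifs with hz'
        · rw [indFst, liftFst, Pi.single_eq_of_ne fun h => hz (Pair.ext h hz')]
        · rfl
      · exact fun h => absurd (Finset.mem_univ _) h
  rw [proj_mulVec, Pi.smul_apply, Pi.sub_apply, Pi.smul_apply, liftSnd, hu, indFst, liftFst,
    smul_eq_mul, smul_eq_mul]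
  by_cases hy : y.snd = ∞
  · rw [h1 y hy, if_pos hy, Pi.single_eq_of_ne fun h => y.ne (h.trans hy.symm)]
    ring
  · by_cases hy' : y.fst = ∞
    · rw [h2 y hy', if_neg hy, hy', Pi.single_eq_same]
      field_simp
      linear_combination hrel
    · rw [h3 y hy' hy, if_neg hy, Pi.single_eq_of_ne hy']
      field_simp
      ring

/-- A compressed kernel killing the functions of the first point. -/
structure IsKiller (X : Matrix (Pair q) (Pair q) k) : Prop where
  compressed : IsCompressed X
  killsFst : X *ᵥ indFst q k = 0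

lemma IsInvariant.mulVec_liftFst_eq_zero {A : Matrix (Pair q) (Pair q) k} (hA : IsInvariant A)
    (h : A *ᵥ indFst q k = 0) (f : Line q → k) : A *ᵥ liftFst f = 0 := by
  have e : (liftFst f : Pair q → k) = ∑ x, f x • liftFst (Pi.single x 1) := by
    funext y
    simp [liftFst, Finset.sum_apply, Pi.single_apply]
  rw [e, mulVec_sum]
  refine Finset.sum_eq_zero fun x _ => ?_
  obtain ⟨g, -, hg⟩ := exists_smul_infty x
  rw [mulVec_smul, ← hg, ← perm_indicator, liftFst_perm, hA.mulVec_perm, ← indFst, h, map_zero,
    smul_zero]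

/-- Killers kill old functions. -/
lemma IsKiller.killsOld (hq : (q : k) ≠ 0) {X : Matrix (Pair q) (Pair q) k} (hX : IsKiller X) :
    KillsOld X := fun f =>
  ⟨hX.compressed.invariant.mulVec_liftFst_eq_zero hX.killsFst f,
    hX.compressed.mulVec_liftSnd hq f⟩

/-- Images of killers have vanishing sums over the first point. -/
lemma IsKiller.sumFst_mulVec (hq : (q : k) ≠ 0) {X : Matrix (Pair q) (Pair q) k} (hX : IsKiller X)
    (f : Pair q → k) : sumFst (X *ᵥ f) = 0 := by
  funext x
  have e : ∀ v : Pair q → k, sumFst v x = liftFst (Pi.single x 1) ⬝ᵥ v := fun v => by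
    simp [sumFst_apply, dotProduct, liftFst, Pi.single_apply]
  rw [e, dotProduct_mulVec, ← mulVec_transpose, hX.compressed.symm hq,
    hX.compressed.invariant.mulVec_liftFst_eq_zero hX.killsFst, zero_dotProduct, Pi.zero_apply]

/-- The projection is compressed. -/
lemma isCompressed_proj (hq : (q : k) ≠ 0) : IsCompressed (proj q k) :=
  ⟨isInvariant_proj, proj_mul_proj hq, proj_mul_proj hq⟩

/-- Sums of compressed operators are compressed. -/
lemma IsCompressed.add {X Y : Matrix (Pair q) (Pair q) k} (hX : IsCompressed X)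
    (hY : IsCompressed Y) : IsCompressed (X + Y) :=
  ⟨hX.invariant.add hY.invariant, by rw [mul_add, hX.left, hY.left],
    by rw [add_mul, hX.right, hY.right]⟩

/-- Differences of compressed operators are compressed. -/
lemma IsCompressed.sub {X Y : Matrix (Pair q) (Pair q) k} (hX : IsCompressed X)
    (hY : IsCompressed Y) : IsCompressed (X - Y) :=
  ⟨hX.invariant.sub hY.invariant, by rw [mul_sub, hX.left, hY.left],
    by rw [sub_mul, hX.right, hY.right]⟩

/-- Multiples of compressed operators are compressed. -/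
lemma IsCompressed.smul {X : Matrix (Pair q) (Pair q) k} (hX : IsCompressed X) (a : k) :
    IsCompressed (a • X) :=
  ⟨hX.invariant.smul a, by rw [mul_smul_comm, hX.left], by rw [smul_mul_assoc, hX.right]⟩

lemma isCompressed_zero : IsCompressed (0 : Matrix (Pair q) (Pair q) k) :=
  ⟨fun _ _ _ => rfl, mul_zero _, zero_mul _⟩

/-- Every compressed kernel is a scalar plus a killer. -/
theorem exists_isKiller_sub (hq : (q : k) ≠ 0) {X : Matrix (Pair q) (Pair q) k}
    (hX : IsCompressed X) : ∃ a : k, IsKiller (X - a • proj q k) := by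
  obtain ⟨a, ha⟩ := exists_eq_smul_proj_indFst hq (hX.sumSnd_mulVec hq (indFst q k))
    (fun g hg => by rw [← hX.invariant.mulVec_perm, perm_indFst hg])
  exact ⟨a, hX.sub ((isCompressed_proj hq).smul a), by rw [sub_mulVec, smul_mulVec, ha, sub_self]⟩

/-! ### The idempotent -/

variable (q k) in
/-- Scalars plus compressed kernels. -/
def kernelAlgebra : Subalgebra k (Matrix (Pair q) (Pair q) k) where
  carrier := {M | ∃ a : k, IsCompressed (M - a • 1)}
  mul_mem' := by
    rintro M M' ⟨a, ha⟩ ⟨b, hb⟩
    refine ⟨a * b, ?_⟩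
    have e : M * M' - (a * b) • 1 =
        (M - a • 1) * (M' - b • 1) + b • (M - a • 1) + a • (M' - b • 1) := by
      simp only [sub_mul, mul_sub, smul_mul_assoc, one_mul, mul_smul_comm, mul_one, smul_sub,
        smul_smul]
      rw [mul_comm b a]
      abel
    rw [e]
    exact ((ha.mul hb).add (ha.smul b)).add (hb.smul a)
  add_mem' := by
    rintro M M' ⟨a, ha⟩ ⟨b, hb⟩
    exact ⟨a + b, by rw [add_smul, add_sub_add_comm]; exact ha.add hb⟩
  algebraMap_mem' a := ⟨a, by
    rw [Algebra.algebraMap_eq_smul_one, sub_self]; exact isCompressed_zero⟩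

/-- Applying `m` killers brings a vector into `S`. -/
def Deep (S : Submodule k (Pair q → k)) : ℕ → (Pair q → k) → Prop
  | 0, f => f ∈ S
  | m + 1, f => ∀ X : Matrix (Pair q) (Pair q) k, IsKiller X → Deep S m (X *ᵥ f)

/-- The idempotent killer with nilpotent complement. -/
theorem exists_idempotent (hq : (q : k) ≠ 0) :
    ∃ (e : Matrix (Pair q) (Pair q) k) (n : ℕ), IsKiller e ∧ e * e = e ∧
      ∀ f, e *ᵥ f = 0 → Deep ⊥ n f := by
  classical
  let A := kernelAlgebra q k
  let _ : CommRing A :=
    { (inferInstance : Ring A) with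
      mul_comm := fun x y => by
        obtain ⟨a, ha⟩ := x.2
        obtain ⟨b, hb⟩ := y.2
        refine Subtype.ext ?_
        show x.1 * y.1 = y.1 * x.1
        have h := ha.comm hq hb
        simp only [sub_mul, mul_sub, smul_mul_assoc, one_mul, mul_smul_comm, mul_one, smul_sub,
          smul_smul, mul_comm b a] at h
        linear_combination (norm := abel) h }
  let I : Ideal A :=
    { carrier := {x | IsKiller x.1}
      add_mem' := fun {x y} hx hy =>
        ⟨hx.compressed.add hy.compressed, by
          show (x.1 + y.1) *ᵥ _ = 0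
          rw [add_mulVec, hx.killsFst, hy.killsFst, add_zero]⟩
      zero_mem' := ⟨isCompressed_zero, zero_mulVec _⟩
      smul_mem' := fun c x hx => by
        obtain ⟨a, ha⟩ := c.2
        have e : c.1 * x.1 = (c.1 - a • 1) * x.1 + a • x.1 := by
          rw [sub_mul, smul_mul_assoc, one_mul, sub_add_cancel]
        refine ⟨?_, ?_⟩
        · show IsCompressed (c.1 * x.1)
          rw [e]; exact (ha.mul hx.compressed).add (hx.compressed.smul a)
        · show (c.1 * x.1) *ᵥ _ = 0
          rw [← mulVec_mulVec, hx.killsFst, mulVec_zero] }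
  have : IsArtinianRing A := IsArtinianRing.of_finite k A
  have : IsNoetherianRing A := IsNoetherianRing.of_finite k A
  obtain ⟨n, hn⟩ := IsArtinian.monotone_stabilizes
    (⟨fun m => OrderDual.toDual (I ^ m), fun a b h => Ideal.pow_le_pow_right h⟩ :
      ℕ →o (Submodule A A)ᵒᵈ)
  let J : Ideal A := I ^ (n + 1)
  have hJn : ∀ m, n ≤ m → I ^ m = I ^ n := fun m hm => (hn m hm).symm
  have hJ : IsIdempotentElem J := by
    show J * J = J
    rw [← pow_add, hJn _ (by omega)]; exact (hJn (n + 1) (by omega)).symm
  obtain ⟨e, he, hJe⟩ := (Ideal.isIdempotentElem_iff_of_fg J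
    ((isNoetherianRing_iff_ideal_fg A).1 inferInstance J)).1 hJ
  have heI : e ∈ I := Ideal.pow_le_self (Nat.succ_ne_zero n)
    (show e ∈ J from hJe ▸ Ideal.mem_span_singleton_self e)
  refine ⟨e.1, n + 1, heI, congrArg Subtype.val he, fun f hf => ?_⟩
  have key : ∀ m : ℕ, ∀ j : ℕ, j + m = n + 1 → ∀ M ∈ I ^ j, Deep ⊥ m (M.1 *ᵥ f) := by
    intro m
    induction m with
    | zero =>
      intro j hj M hM
      rw [show j = n + 1 by omega, show I ^ (n + 1) = J from rfl, hJe,
        Ideal.mem_span_singleton'] at hM
      obtain ⟨a, rfl⟩ := hM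
      show (a.1 * e.1) *ᵥ f ∈ (⊥ : Submodule k (Pair q → k))
      rw [← mulVec_mulVec, hf, mulVec_zero]
      exact zero_mem _
    | succ m ih =>
      intro j hj M hM X hX
      have hXA : X ∈ kernelAlgebra q k := ⟨0, by simpa using hX.compressed⟩
      have hmem : (⟨X, hXA⟩ : A) * M ∈ I ^ (j + 1) := by
        rw [pow_succ']
        exact Ideal.mul_mem_mul (show (⟨X, hXA⟩ : A) ∈ I from hX) hM
      have := ih (j + 1) (by omega) _ hmem
      rwa [MulMemClass.coe_mul, ← mulVec_mulVec] at this
  have := key (n + 1) 0 (by omega) 1 (by rw [pow_zero, Ideal.one_eq_top]; exact trivial)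
  rwa [OneMemClass.coe_one, one_mulVec] at this

end Fermat.Agent.ResidualCarayol
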