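import Fermat.Agent.ResidualCarayol.OpHom
import Fermat.Agent.HeckeLattice.Transfer

/-!
# Hecke operators on cocycles in permutation modules

The transfer of `T_ℓ` acts on cocycles of `Γ₀(N)` in permutation modules of `GL₂(𝔽_q)`, `ℓ ≠ q`,
compatibly with Shapiro's lemma for the two base points.
-/

set_option autoImplicit false

noncomputable section

namespace Fermat.Agent.ResidualCarayol

open CongruenceSubgroup Matrix Matrix.SpecialLinearGroup
open Fermat.Agent.HeckeLattice (CosetSystem gamma0System toGL Idx rep)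
open scoped MatrixGroups OnePoint

/-- The integral representatives of `T_ℓ`. -/
def repZ (ℓ : ℕ) (x : Idx ℓ) : Matrix (Fin 2) (Fin 2) ℤ :=
  x.elim !![(ℓ : ℤ), 0; 0, 1] (fun j => !![1, (j.val : ℤ); 0, (ℓ : ℤ)])

lemma det_repZ (ℓ : ℕ) (x : Idx ℓ) : (repZ ℓ x).det = ℓ := by
  induction x using OnePoint.rec <;> simp [repZ, det_fin_two_of]

/-- The representatives come from integral matrices. -/
lemma coe_rep {ℓ : ℕ} [hℓ : Fact ℓ.Prime] (x : Idx ℓ) :
    ((rep ℓ x : GL (Fin 2) ℝ) : Matrix (Fin 2) (Fin 2) ℝ) = (repZ ℓ x).map (Int.cast : ℤ → ℝ) := by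
  induction x using OnePoint.rec <;> ext i j <;> fin_cases i <;> fin_cases j <;>
    simp [rep, repZ, hℓ.out.ne_zero]

lemma coe_toGL_gamma0 {N : ℕ} (u : Gamma0 N) :
    ((HeckeLattice.toGL u : GL (Fin 2) ℝ) : Matrix (Fin 2) (Fin 2) ℝ) =
      u.1.1.map (Int.castRingHom ℝ) := by
  ext i j; simp [HeckeLattice.toGL]

/-- The defining relation of the cocycle, for integral matrices. -/
lemma repZ_mul {N ℓ : ℕ} [Fact ℓ.Prime] (h : ¬ ℓ ∣ N) (γ : Gamma0 N) (x : Idx ℓ) :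
    repZ ℓ x * γ.1.1 =
      ((gamma0System N ℓ h).cocycle γ x).1.1 * repZ ℓ ((gamma0System N ℓ h).next γ x) := by
  have e := congrArg (fun A : GL (Fin 2) ℝ => (A : Matrix (Fin 2) (Fin 2) ℝ))
    ((gamma0System N ℓ h).rep_mul γ x)
  simp only [Units.val_mul, coe_toGL_gamma0, show (gamma0System N ℓ h).β = rep ℓ from rfl,
    coe_rep] at e
  rw [show (Int.cast : ℤ → ℝ) = ⇑(Int.castRingHom ℝ) from rfl, ← Matrix.map_mul,
    ← Matrix.map_mul] at e
  exact Matrix.map_injective Int.cast_injective e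

/-- The system permutes the representatives bijectively. -/
lemma sum_next {N ℓ : ℕ} [Fact ℓ.Prime] (h : ¬ ℓ ∣ N) {A : Type*} [AddCommMonoid A] (γ : Gamma0 N)
    (f : Idx ℓ → A) : ∑ x, f ((gamma0System N ℓ h).next γ x) = ∑ x, f x :=
  Equiv.sum_comp ((gamma0System N ℓ h).nextPerm γ) f

variable {N q : ℕ} [Fact q.Prime] {X X' : Type*} [MulAction (Grp q) X] [MulAction (Grp q) X']
  {k : Type*} [CommRing k] {ℓ : ℕ} [Fact ℓ.Prime]

lemma prime_cast_ne (hℓq : ℓ ≠ q) : (ℓ : ZMod q) ≠ 0 := fun h =>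
  hℓq ((Nat.prime_dvd_prime_iff_eq Fact.out Fact.out).1 ((ZMod.natCast_eq_zero_iff _ _).1 h)).symm

/-- The representatives modulo `q`. -/
def repQ (hℓq : ℓ ≠ q) (x : Idx ℓ) : Grp q :=
  GeneralLinearGroup.mkOfDetNeZero ((repZ ℓ x).map (Int.castRingHom (ZMod q))) (by
    rw [← RingHom.mapMatrix_apply, ← RingHom.map_det, det_repZ, map_natCast]
    exact prime_cast_ne hℓq)

lemma coe_repQ (hℓq : ℓ ≠ q) (x : Idx ℓ) :
    (repQ hℓq x : Matrix (Fin 2) (Fin 2) (ZMod q)) = (repZ ℓ x).map (Int.castRingHom (ZMod q)) :=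
  rfl

/-- The defining relation of the cocycle, modulo `q`. -/
lemma repQ_mul (h : ¬ ℓ ∣ N) (hℓq : ℓ ≠ q) (γ : Gamma0 N) (x : Idx ℓ) :
    repQ hℓq x * red N q γ = red N q ((gamma0System N ℓ h).cocycle γ x) *
      repQ hℓq ((gamma0System N ℓ h).next γ x) := by
  apply Units.ext
  have key : ∀ u : Gamma0 N, (red N q u : Matrix (Fin 2) (Fin 2) (ZMod q)) =
      u.1.1.map (Int.castRingHom (ZMod q)) := fun u => by
    ext i j; exact toG_apply q u.1 i j
  rw [Units.val_mul, Units.val_mul, key, key, coe_repQ, coe_repQ, ← Matrix.map_mul,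
    ← Matrix.map_mul, repZ_mul h γ x]

lemma inv_red_smul_repQ (h : ¬ ℓ ∣ N) (hℓq : ℓ ≠ q) (γ : Gamma0 N) (x : Idx ℓ) (i : X) :
    (red N q ((gamma0System N ℓ h).cocycle γ x))⁻¹ • repQ hℓq x • i =
      repQ hℓq ((gamma0System N ℓ h).next γ x) • (red N q γ)⁻¹ • i := by
  rw [inv_smul_eq_iff, ← mul_smul (red N q _) (repQ hℓq _), ← repQ_mul h hℓq, mul_smul,
    smul_inv_smul]

/-- `T_ℓ` on cochains. -/
def heckeT (h : ¬ ℓ ∣ N) (hℓq : ℓ ≠ q) : (Gamma0 N → X → k) →ₗ[k] (Gamma0 N → X → k) where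
  toFun c γ i := ∑ x, c ((gamma0System N ℓ h).cocycle γ x) (repQ hℓq x • i)
  map_add' c d := funext fun γ => funext fun i => by simp [Finset.sum_add_distrib]
  map_smul' a c := funext fun γ => funext fun i => by simp [Finset.mul_sum]

/-- `heckeT` evaluated at a point. -/
lemma heckeT_apply (h : ¬ ℓ ∣ N) (hℓq : ℓ ≠ q) (c : Gamma0 N → X → k) (γ : Gamma0 N) (i : X) :
    heckeT h hℓq c γ i = ∑ x, c ((gamma0System N ℓ h).cocycle γ x) (repQ hℓq x • i) := rfl

/-- `heckeT` as a sum of permuted values. -/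
lemma heckeT_eq_sum (h : ¬ ℓ ∣ N) (hℓq : ℓ ≠ q) (c : Gamma0 N → X → k) (γ : Gamma0 N) :
    heckeT h hℓq c γ = ∑ x, perm k (repQ hℓq x)⁻¹ (c ((gamma0System N ℓ h).cocycle γ x)) :=
  funext fun i => by simp [heckeT_apply, Finset.sum_apply]

/-- `heckeT` preserves cocycles. -/
lemma IsCocycle.heckeT {c : Gamma0 N → X → k} (hc : IsCocycle q c) (h : ¬ ℓ ∣ N)
    (hℓq : ℓ ≠ q) : IsCocycle q (ResidualCarayol.heckeT h hℓq c) := fun γ δ i => by
  simp only [heckeT_apply, CosetSystem.cocycle_mul, hc _ _ _, inv_red_smul_repQ h hℓq,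
    Finset.sum_add_distrib]
  congr 1
  exact sum_next h γ fun x =>
    c ((gamma0System N ℓ h).cocycle δ x) (repQ hℓq x • (red N q γ)⁻¹ • i)

/-- The operator on functions. -/
def heckeFun (hℓq : ℓ ≠ q) (v : X → k) : X → k := ∑ x : Idx ℓ, perm k (repQ hℓq x)⁻¹ v

/-- `heckeT` of a coboundary is the coboundary of `heckeFun`. -/
lemma heckeT_cob (h : ¬ ℓ ∣ N) (hℓq : ℓ ≠ q) (v : X → k) :
    heckeT h hℓq (cob N q v) = cob N q (heckeFun hℓq v) := funext fun γ => funext fun i => by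
  simp only [heckeT_apply, cob, inv_red_smul_repQ h hℓq, heckeFun, Finset.sum_apply, perm_apply,
    inv_inv, Finset.sum_sub_distrib]
  rw [sum_next h γ fun x => v (repQ hℓq x • (red N q γ)⁻¹ • i)]

/-- `heckeT` commutes with equivariant maps. -/
lemma heckeT_map (h : ¬ ℓ ∣ N) (hℓq : ℓ ≠ q) {L : (X → k) →ₗ[k] (X' → k)} (hL : IsEquivariant q L)
    (c : Gamma0 N → X → k) :
    heckeT h hℓq (fun γ => L (c γ)) = fun γ => L (heckeT h hℓq c γ) := funext fun γ => by
  rw [heckeT_eq_sum, heckeT_eq_sum, map_sum]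
  exact Finset.sum_congr rfl fun x _ => (hL _ _).symm

/-! ### Shapiro -/

/-- `ℓ` does not divide `q N`. -/
lemma not_dvd_mul_prime (h : ¬ ℓ ∣ N) (hℓq : ℓ ≠ q) : ¬ ℓ ∣ q * N := fun e =>
  ((Nat.Prime.dvd_mul Fact.out).1 e).elim
    (fun e' => hℓq ((Nat.prime_dvd_prime_iff_eq Fact.out Fact.out).1 e')) h

lemma not_dvd_sq_mul (h : ¬ ℓ ∣ N) (hℓq : ℓ ≠ q) : ¬ ℓ ∣ q ^ 2 * N := fun e =>
  ((Nat.Prime.dvd_mul Fact.out).1 e).elim
    (fun e' => hℓq ((Nat.prime_dvd_prime_iff_eq Fact.out Fact.out).1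
      ((Fact.out : ℓ.Prime).dvd_of_dvd_pow e'))) h

lemma repQ_smul_infty (hℓq : ℓ ≠ q) (x : Idx ℓ) : repQ hℓq x • (∞ : Line q) = ∞ := by
  rw [OnePoint.smul_infty_eq_self_iff, coe_repQ]
  induction x using OnePoint.rec <;> simp [repZ]

/-- The homomorphism of `Γ₀(qN)` underlying a cocycle on the projective line. -/
def atLine (hqN : ¬ q ∣ N) (c : Gamma0 N → Line q → k) (hc : IsCocycle q c) :
    Additive (Gamma0 (q * N)) →+ k where
  toFun γ := c ⟨(Additive.toMul γ).1, ((gamma0_mul_iff hqN).1 (Additive.toMul γ).2).1⟩ ∞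
  map_zero' := congrFun hc.one_eq ∞
  map_add' γ δ := by
    refine (hc ⟨(Additive.toMul γ).1, ((gamma0_mul_iff hqN).1 (Additive.toMul γ).2).1⟩
      ⟨(Additive.toMul δ).1, ((gamma0_mul_iff hqN).1 (Additive.toMul δ).2).1⟩ ∞).trans ?_
    rw [show (red N q ⟨(Additive.toMul γ).1, ((gamma0_mul_iff hqN).1 (Additive.toMul γ).2).1⟩)⁻¹ •
      (∞ : Line q) = ∞ from inv_smul_eq_iff.2 ((gamma0_mul_iff hqN).1 (Additive.toMul γ).2).2.symm]

/-- A cocycle vanishing at `∞` is a coboundary. -/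
lemma exists_eq_cob_of_atLine (hqN : ¬ q ∣ N) {c : Gamma0 N → Line q → k} (hc : IsCocycle q c)
    (h0 : atLine hqN c hc = 0) : ∃ v, c = cob N q v := by
  refine exists_eq_cob (isTransitiveFrom_line hqN) hc (AddMonoidHom.ext fun γ => ?_)
  exact DFunLike.congr_fun h0 (Additive.ofMul ⟨(Additive.toMul γ).1,
    (gamma0_mul_iff hqN).2 (Additive.toMul γ).2⟩)

/-- Evaluation at `∞` carries `heckeT` to the transfer. -/
lemma atLine_heckeT (hqN : ¬ q ∣ N) (h : ¬ ℓ ∣ N) (hℓq : ℓ ≠ q) {c : Gamma0 N → Line q → k}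
    (hc : IsCocycle q c) :
    atLine hqN (heckeT h hℓq c) (hc.heckeT h hℓq) =
      HeckeLattice.transfer (not_dvd_mul_prime h hℓq) (atLine hqN c hc) := by
  refine AddMonoidHom.ext fun γ => ?_
  obtain ⟨g, rfl⟩ : ∃ g, Additive.ofMul g = γ := ⟨Additive.toMul γ, rfl⟩
  rw [CosetSystem.transfer_apply]
  show (∑ x, c _ (repQ hℓq x • (∞ : Line q))) = _
  refine Finset.sum_congr rfl fun x _ => ?_
  have hmem : ∀ u : Gamma0 (q * N), (u : SL(2, ℤ)) ∈ Gamma0 N := fun u =>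
    ((gamma0_mul_iff hqN).1 u.2).1
  have e := ((gamma0System N ℓ h).eq_of_rep_mul (γ := ⟨g.1, hmem g⟩)
    (g := ⟨_, hmem ((gamma0System (q * N) ℓ (not_dvd_mul_prime h hℓq)).cocycle g x)⟩)
    ((gamma0System (q * N) ℓ (not_dvd_mul_prime h hℓq)).rep_mul g x)).2
  rw [repQ_smul_infty]
  exact congrArg (fun u => c u ∞) e

/-- The homomorphism of `Γ₀(q² N)` underlying a cocycle on pairs. -/
def atPair (hqN : ¬ q ∣ N) (c : Gamma0 N → Pair q → k) (hc : IsCocycle q c) :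
    Additive (Gamma0 (q ^ 2 * N)) →+ k :=
  (atBase basePair c hc).comp (MonoidHom.toAdditive (conjT hqN).toMonoidHom)

/-- `atPair` evaluates a cocycle at the conjugate element. -/
lemma atPair_apply (hqN : ¬ q ∣ N) (c : Gamma0 N → Pair q → k) (hc : IsCocycle q c)
    (γ : Gamma0 (q ^ 2 * N)) :
    atPair hqN c hc (Additive.ofMul γ) =
      c ⟨conjT hqN γ, stabGroup_le (conjT hqN γ).2⟩ basePair := rfl

/-- `diag(q, 1) (1 j; 0 ℓ) = ` translation `· (1 j'; 0 ℓ) · diag(q, 1)`. -/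
def shiftIdx (q ℓ : ℕ) (x : Idx ℓ) : Idx ℓ :=
  x.elim ∞ fun j => (((q : ZMod ℓ) * j : ZMod ℓ) : Idx ℓ)

lemma shiftIdx_bijective (hℓq : ℓ ≠ q) : Function.Bijective (shiftIdx q ℓ) := by
  have hq : (q : ZMod ℓ) ≠ 0 := fun e =>
    hℓq ((Nat.prime_dvd_prime_iff_eq Fact.out Fact.out).1 ((ZMod.natCast_eq_zero_iff _ _).1 e))
  refine Finite.injective_iff_bijective.1 fun x y e => ?_
  induction x using OnePoint.rec <;> induction y using OnePoint.rec <;>
    simp_all [shiftIdx]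

/-- The translation part. -/
def shiftElt (N q ℓ : ℕ) (x : Idx ℓ) : Gamma0 N :=
  ⟨⟨!![1, x.elim 0 fun j => ((q : ℤ) * j.val - ((q : ZMod ℓ) * j).val) / ℓ; 0, 1],
    by rw [det_fin_two_of]; ring⟩, by
    show (((0 : ℤ)) : ZMod N) = 0
    exact Int.cast_zero⟩

lemma shiftElt_mul (N q : ℕ) {ℓ : ℕ} [Fact ℓ.Prime] (x : Idx ℓ) :
    (shiftElt N q ℓ x).1.1 * repZ ℓ (shiftIdx q ℓ x) * !![(q : ℤ), 0; 0, 1] =
      !![(q : ℤ), 0; 0, 1] * repZ ℓ x := by
  induction x using OnePoint.rec with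
  | infty =>
    ext i j
    fin_cases i <;> fin_cases j <;>
      simp [shiftElt, shiftIdx, repZ, Matrix.mul_apply, Fin.sum_univ_two, mul_comm]
  | coe t =>
    have hd : (ℓ : ℤ) ∣ (q : ℤ) * t.val - ((q : ZMod ℓ) * t).val := by
      rw [← ZMod.intCast_zmod_eq_zero_iff_dvd]
      push_cast
      rw [ZMod.natCast_zmod_val, ZMod.natCast_zmod_val, sub_self]
    obtain ⟨m, hm⟩ := hd
    have hℓ0 : (ℓ : ℤ) ≠ 0 := Int.natCast_ne_zero.2 (Fact.out : ℓ.Prime).ne_zero
    ext i j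
    fin_cases i <;> fin_cases j <;>
      simp [shiftElt, shiftIdx, repZ, Matrix.mul_apply, Fin.sum_univ_two, -ZMod.natCast_val, hm,
        Int.mul_ediv_cancel_left _ hℓ0]
    all_goals linarith [hm]

lemma conjT_mul_diag (hqN : ¬ q ∣ N) (γ : Gamma0 (q ^ 2 * N)) :
    (conjT hqN γ).1.1 * !![(q : ℤ), 0; 0, 1] = !![(q : ℤ), 0; 0, 1] * γ.1.1 := by
  show (conjUp γ).1 * _ = _
  ext i j
  fin_cases i <;> fin_cases j
  · simp [conjUp, Matrix.mul_apply, Fin.sum_univ_two, mul_comm]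
  · simp [conjUp, Matrix.mul_apply, Fin.sum_univ_two]
  · have := mul_lowerLeft_div γ
    simp [conjUp, Matrix.mul_apply, Fin.sum_univ_two]
    linear_combination this
  · simp [conjUp, Matrix.mul_apply, Fin.sum_univ_two]

lemma red_shiftElt_repQ_smul (hℓq : ℓ ≠ q) (x : Idx ℓ) :
    red N q (shiftElt N q ℓ x) • repQ hℓq (shiftIdx q ℓ x) • (basePair : Pair q) = basePair := by
  have e := congrArg (fun A : Matrix (Fin 2) (Fin 2) ℤ => (A 0 1 : ZMod q)) (shiftElt_mul N q x)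
  have e' := congrArg (fun A : Matrix (Fin 2) (Fin 2) ℤ => (A 1 0 : ZMod q)) (shiftElt_mul N q x)
  rw [← mul_smul, smul_basePair_iff]
  have key : ∀ i j, (red N q (shiftElt N q ℓ x) * repQ hℓq (shiftIdx q ℓ x)) i j =
      (((shiftElt N q ℓ x).1.1 * repZ ℓ (shiftIdx q ℓ x)) i j : ZMod q) := fun i j => by
    rw [Units.val_mul, coe_repQ, show (red N q (shiftElt N q ℓ x) : Matrix _ _ (ZMod q)) =
      (shiftElt N q ℓ x).1.1.map (Int.castRingHom (ZMod q)) from Matrix.ext fun a b =>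
        toG_apply q _ a b, ← Matrix.map_mul]
    rfl
  refine ⟨?_, ?_⟩
  · rw [key]
    simpa [Matrix.mul_apply, Fin.sum_univ_two, ← Matrix.mul_assoc] using e
  · rw [key]
    induction x using OnePoint.rec <;>
      simp [shiftElt, shiftIdx, repZ, Matrix.mul_apply, Fin.sum_univ_two]

/-- Shapiro's isomorphism for the pair `(0, ∞)` carries `T_ℓ` on cocycles to the transfer. -/
theorem atPair_heckeT (hqN : ¬ q ∣ N) (h : ¬ ℓ ∣ N) (hℓq : ℓ ≠ q) {c : Gamma0 N → Pair q → k}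
    (hc : IsCocycle q c) :
    atPair hqN (heckeT h hℓq c) (hc.heckeT h hℓq) =
      HeckeLattice.transfer (not_dvd_sq_mul h hℓq) (atPair hqN c hc) := by
  refine AddMonoidHom.ext fun γ => ?_
  obtain ⟨g, rfl⟩ : ∃ g, Additive.ofMul g = γ := ⟨Additive.toMul γ, rfl⟩
  rw [CosetSystem.transfer_apply, atPair_apply]
  set D := gamma0System N ℓ h
  set D' := gamma0System (q ^ 2 * N) ℓ (not_dvd_sq_mul h hℓq)
  let G : Gamma0 (q ^ 2 * N) → Gamma0 N := fun u => ⟨conjT hqN u, stabGroup_le (conjT hqN u).2⟩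
  let u := shiftElt N q ℓ
  have hq0 : (q : ℤ) ≠ 0 := natCast_ne q
  -- the representatives
  have hcoc : ∀ x, D.next (G g) (shiftIdx q ℓ x) = shiftIdx q ℓ (D'.next g x) ∧
      D.cocycle (G g) (shiftIdx q ℓ x) = (u x)⁻¹ * G (D'.cocycle g x) * u (D'.next g x) := by
    intro x
    refine D.eq_of_rep_mul (Units.ext ?_)
    have key : (u x).1.1 * (repZ ℓ (shiftIdx q ℓ x) * (G g).1.1) =
        (G (D'.cocycle g x)).1.1 * ((u (D'.next g x)).1.1 *
          repZ ℓ (shiftIdx q ℓ (D'.next g x))) := by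
      have hinj : ∀ A B : Matrix (Fin 2) (Fin 2) ℤ,
          A * !![(q : ℤ), 0; 0, 1] = B * !![(q : ℤ), 0; 0, 1] → A = B := fun A B e => by
        ext i j
        have e' := congrFun (congrFun e i) j
        fin_cases j <;> simp [Matrix.mul_apply, Fin.sum_univ_two] at e' ⊢
        · exact e'.resolve_right (by exact_mod_cast (Fact.out : q.Prime).ne_zero)
        · exact e'
      apply hinj
      calc (u x).1.1 * (repZ ℓ (shiftIdx q ℓ x) * (G g).1.1) * !![(q : ℤ), 0; 0, 1]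
          = ((u x).1.1 * repZ ℓ (shiftIdx q ℓ x) * !![(q : ℤ), 0; 0, 1]) * g.1.1 := by
            simp only [Matrix.mul_assoc, G, conjT_mul_diag hqN g]
        _ = !![(q : ℤ), 0; 0, 1] * ((D'.cocycle g x).1.1 * repZ ℓ (D'.next g x)) := by
            rw [shiftElt_mul, Matrix.mul_assoc, repZ_mul (not_dvd_sq_mul h hℓq) g x]
        _ = _ := by
            rw [← Matrix.mul_assoc, ← conjT_mul_diag hqN, Matrix.mul_assoc, ← shiftElt_mul N q]
            simp only [Matrix.mul_assoc, G, u]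
    have key' : repZ ℓ (shiftIdx q ℓ x) * (G g).1.1 =
        ((u x)⁻¹ * G (D'.cocycle g x) * u (D'.next g x) : Gamma0 N).1.1 *
          repZ ℓ (shiftIdx q ℓ (D'.next g x)) := by
      have e1 : ((u x)⁻¹).1.1 * (u x).1.1 = 1 := by
        show (((u x)⁻¹ * u x : Gamma0 N)).1.1 = 1
        rw [inv_mul_cancel]; rfl
      show _ = ((u x)⁻¹).1.1 * (G (D'.cocycle g x)).1.1 * (u (D'.next g x)).1.1 * _
      rw [Matrix.mul_assoc, Matrix.mul_assoc, ← key, ← Matrix.mul_assoc, e1, Matrix.one_mul]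
    have hm := congrArg (fun A : Matrix (Fin 2) (Fin 2) ℤ => A.map (Int.castRingHom ℝ)) key'
    simp only [Matrix.map_mul] at hm
    simp only [Units.val_mul, coe_toGL_gamma0, show D.β = rep ℓ from rfl, coe_rep,
      show (Int.cast : ℤ → ℝ) = ⇑(Int.castRingHom ℝ) from rfl]
    exact hm
  -- the values
  set w : Idx ℓ → k := fun x => c (u x) basePair
  have hval : ∀ x, c (D.cocycle (G g) (shiftIdx q ℓ x))
      (repQ hℓq (shiftIdx q ℓ x) • basePair) =
        atPair hqN c hc (Additive.ofMul (D'.cocycle g x)) + (w (D'.next g x) - w x) := by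
    intro x
    have hfix := red_shiftElt_repQ_smul (N := N) hℓq x
    have hyu : repQ hℓq (shiftIdx q ℓ x) • (basePair : Pair q) =
        (red N q (u x))⁻¹ • basePair := eq_inv_smul_iff.2 hfix
    have hG : (red N q (G (D'.cocycle g x)))⁻¹ • (basePair : Pair q) = basePair :=
      inv_smul_eq_iff.2 (red_smul_base (conjT hqN (D'.cocycle g x))).symm
    have hinv : c (u x)⁻¹ ((red N q (u x))⁻¹ • basePair) = -c (u x) basePair := by
      have e := hc (u x) (u x)⁻¹ basePair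
      rw [mul_inv_cancel, hc.one_eq, Pi.zero_apply] at e
      linear_combination -e
    rw [(hcoc x).2, hyu, hc, hc, map_inv, inv_inv, smul_inv_smul, map_mul, map_inv,
      _root_.mul_inv_rev, inv_inv, mul_smul, smul_inv_smul, hG, hinv, atPair_apply]
    ring
  show ∑ x, c (D.cocycle (G g) x) (repQ hℓq x • basePair) = _
  rw [← Equiv.sum_comp (Equiv.ofBijective _ (shiftIdx_bijective (q := q) hℓq))
    (fun x => c (D.cocycle (G g) x) (repQ hℓq x • basePair))]
  simp only [Equiv.ofBijective_apply, hval, Finset.sum_add_distrib, Finset.sum_sub_distrib,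
    D', sum_next _ g w, sub_self, add_zero]
  exact Finset.sum_congr (Finset.ext fun _ => by simp) fun _ _ => rfl

end Fermat.Agent.ResidualCarayol
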