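import Fermat.Agent.ResidualCarayol.OpHom
import Mathlib.Data.Matrix.Mul

/-!
# Invariant kernels on pairs, compressed to the functions with vanishing fibre sums

After compression by the projection onto the functions on pairs with vanishing sums along the
second projection every invariant kernel is symmetric, so these kernels commute.
-/

set_option autoImplicit false

noncomputable section

namespace Fermat.Agent.ResidualCarayol

open Matrix
open scoped OnePoint

variable {q : ℕ} [Fact q.Prime] {k : Type*} [Field k]

/-- `kerOp` is matrix multiplication. -/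
lemma kerOp_eq_mulVec (A : Matrix (Pair q) (Pair q) k) (f : Pair q → k) :
    kerOp A f = A *ᵥ f := rfl

/-- Functions of the second point. -/
def liftSnd (f : Line q → k) (y : Pair q) : k := f y.snd

/-- Functions of the first point. -/
def liftFst (f : Line q → k) (y : Pair q) : k := f y.fst

/-- Sums along the second projection. -/
def sumSnd : (Pair q → k) →ₗ[k] (Line q → k) where
  toFun f x := ∑ y, if y.snd = x then f y else 0
  map_add' f f' := funext fun x => by
    simp only [Pi.add_apply, ← Finset.sum_add_distrib]
    exact Finset.sum_congr rfl fun y _ => by split_ifs <;> simp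
  map_smul' a f := funext fun x => by simp [Finset.mul_sum]

/-- Sums along the first projection. -/
def sumFst : (Pair q → k) →ₗ[k] (Line q → k) where
  toFun f x := ∑ y, if y.fst = x then f y else 0
  map_add' f f' := funext fun x => by
    simp only [Pi.add_apply, ← Finset.sum_add_distrib]
    exact Finset.sum_congr rfl fun y _ => by split_ifs <;> simp
  map_smul' a f := funext fun x => by simp [Finset.mul_sum]

/-- The sum over the pairs with given second point. -/
lemma sumSnd_apply (f : Pair q → k) (x : Line q) :
    sumSnd f x = ∑ y, if y.snd = x then f y else 0 := rfl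

/-- The sum over the pairs with given first point. -/
lemma sumFst_apply (f : Pair q → k) (x : Line q) :
    sumFst f x = ∑ y, if y.fst = x then f y else 0 := rfl

/-- `sumSnd` is equivariant. -/
lemma sumSnd_perm (g : Grp q) (f : Pair q → k) : sumSnd (perm k g f) = perm k g (sumSnd f) :=
  funext fun x => by
    simp only [sumSnd_apply, perm_apply]
    refine Fintype.sum_equiv (MulAction.toPerm g⁻¹) _ _ fun y => ?_
    simp [smul_left_cancel_iff]

/-- `sumFst` is equivariant. -/
lemma sumFst_perm (g : Grp q) (f : Pair q → k) : sumFst (perm k g f) = perm k g (sumFst f) :=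
  funext fun x => by
    simp only [sumFst_apply, perm_apply]
    refine Fintype.sum_equiv (MulAction.toPerm g⁻¹) _ _ fun y => ?_
    simp [smul_left_cancel_iff]

/-- There are `q` pairs with given second point. -/
lemma card_fibre (x : Line q) : (∑ y : Pair q, if y.snd = x then (1 : k) else 0) = q := by
  classical
  rw [Finset.sum_boole]
  congr 1
  have e : (Finset.univ.filter fun y : Pair q => y.snd = x).card =
      (Finset.univ.erase x).card := by
    refine Finset.card_bij (fun y _ => y.fst) ?_ ?_ ?_
    · intro y hy
      simp only [Finset.mem_filter, Finset.mem_univ, true_and] at hy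
      exact Finset.mem_erase.2 ⟨hy ▸ y.ne, Finset.mem_univ _⟩
    · intro y hy y' hy' h
      simp only [Finset.mem_filter, Finset.mem_univ, true_and] at hy hy'
      exact Pair.ext h (hy.trans hy'.symm)
    · intro a ha
      exact ⟨⟨a, x, (Finset.mem_erase.1 ha).1⟩, by simp, rfl⟩
  rw [e, Finset.card_erase_of_mem (Finset.mem_univ _), Finset.card_univ, card_line,
    Nat.add_sub_cancel]

/-- `sumSnd` after `liftSnd` is multiplication by `q`. -/
lemma sumSnd_liftSnd (f : Line q → k) : sumSnd (liftSnd f) = (q : k) • f := funext fun x => by
  rw [sumSnd_apply, Pi.smul_apply, smul_eq_mul, ← card_fibre x, Finset.sum_mul]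
  refine Finset.sum_congr rfl fun y _ => ?_
  split_ifs with h
  · rw [liftSnd, h, one_mul]
  · rw [zero_mul]

variable (q k) in
/-- The projection onto the functions with vanishing sums along the second projection. -/
def proj : Matrix (Pair q) (Pair q) k :=
  1 - (q : k)⁻¹ • Matrix.of fun y z => if z.snd = y.snd then 1 else 0

/-- The projection removes the part coming from the second point. -/
lemma proj_mulVec (f : Pair q → k) :
    proj q k *ᵥ f = f - (q : k)⁻¹ • liftSnd (sumSnd f) := by
  rw [proj, sub_mulVec, one_mulVec, smul_mulVec]
  congr 2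
  funext y
  simp [mulVec, dotProduct, liftSnd, sumSnd_apply]

omit [Fact (Nat.Prime q)] in
lemma transpose_proj : (proj q k)ᵀ = proj q k := by
  ext y z
  simp [proj, Matrix.one_apply, eq_comm]

/-- The projection fixes functions with vanishing sums. -/
lemma proj_mulVec_of_sumSnd {f : Pair q → k} (hf : sumSnd f = 0) : proj q k *ᵥ f = f := by
  rw [proj_mulVec, hf]; funext y; simp [liftSnd]

/-- The projection kills functions of the second point. -/
lemma proj_mulVec_liftSnd (hq : (q : k) ≠ 0) (f : Line q → k) :
    proj q k *ᵥ liftSnd f = 0 := by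
  rw [proj_mulVec, sumSnd_liftSnd]
  funext y
  simp [liftSnd, hq]

/-- Projected functions have vanishing sums. -/
lemma sumSnd_proj (hq : (q : k) ≠ 0) (f : Pair q → k) : sumSnd (proj q k *ᵥ f) = 0 := by
  rw [proj_mulVec, map_sub, map_smul, sumSnd_liftSnd, smul_smul, inv_mul_cancel₀ hq, one_smul,
    sub_self]

/-- The projection is idempotent. -/
lemma proj_mul_proj (hq : (q : k) ≠ 0) : proj q k * proj q k = proj q k :=
  Matrix.ext_of_mulVec_single fun y => by
    rw [← mulVec_mulVec]
    exact proj_mulVec_of_sumSnd (sumSnd_proj hq _)

/-! ### Invariance -/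

/-- Products of invariant kernels are invariant. -/
lemma IsInvariant.mul {A B : Matrix (Pair q) (Pair q) k} (hA : IsInvariant A)
    (hB : IsInvariant B) : IsInvariant (A * B : Matrix (Pair q) (Pair q) k) := fun g y z => by
  simp only [Matrix.mul_apply]
  refine (Fintype.sum_equiv (MulAction.toPerm g) _ _ fun w => ?_).symm
  rw [MulAction.toPerm_apply, hA, hB]

omit [Field k] in
/-- Transposes of invariant kernels are invariant. -/
lemma IsInvariant.transpose {A : Matrix (Pair q) (Pair q) k} (hA : IsInvariant A) :
    IsInvariant (Aᵀ : Matrix (Pair q) (Pair q) k) := fun g y z => hA g z y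

/-- Sums of invariant kernels are invariant. -/
lemma IsInvariant.add {A B : Matrix (Pair q) (Pair q) k} (hA : IsInvariant A)
    (hB : IsInvariant B) : IsInvariant (A + B : Matrix (Pair q) (Pair q) k) := fun g y z => by
  simp [Matrix.add_apply, hA g y z, hB g y z]

/-- Differences of invariant kernels are invariant. -/
lemma IsInvariant.sub {A B : Matrix (Pair q) (Pair q) k} (hA : IsInvariant A)
    (hB : IsInvariant B) : IsInvariant (A - B : Matrix (Pair q) (Pair q) k) := fun g y z => by
  simp [Matrix.sub_apply, hA g y z, hB g y z]

/-- Multiples of invariant kernels are invariant. -/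
lemma IsInvariant.smul {A : Matrix (Pair q) (Pair q) k} (hA : IsInvariant A) (a : k) :
    IsInvariant (a • A : Matrix (Pair q) (Pair q) k) := fun g y z => by
  simp [Matrix.smul_apply, hA g y z]

/-- The projection is invariant. -/
lemma isInvariant_proj : IsInvariant (proj q k) := fun g y z => by
  simp [proj, Matrix.one_apply, smul_left_cancel_iff]

/-- Invariant kernels commute with `perm`. -/
lemma IsInvariant.mulVec_perm {A : Matrix (Pair q) (Pair q) k} (hA : IsInvariant A) (g : Grp q)
    (f : Pair q → k) : A *ᵥ perm k g f = perm k g (A *ᵥ f) :=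
  isEquivariant_kerOp hA g f

/-! ### Orbits of pairs of pairs -/

/-- The antisymmetric part of an invariant kernel lives where one pair continues the other. -/
theorem exists_asymm {A : Matrix (Pair q) (Pair q) k} (hA : IsInvariant A) : ∃ c : k, ∀ y z,
    A y z - A z y =
      c * ((if z.fst = y.snd then 1 else 0) - if z.snd = y.fst then 1 else 0) := by
  let z₁ : Pair q := ⟨∞, ((1 : ZMod q) : Line q), OnePoint.infty_ne_coe _⟩
  set D : Pair q → Pair q → k := fun y z => A y z - A z y
  have hD : ∀ (g : Grp q) y z, D (g • y) (g • z) = D y z := fun g y z => by simp [D, hA g]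
  have hswap : ∀ (g : Grp q) y z, g • y = z → g • z = y → D y z = 0 := fun g y z h h' => by
    show A y z - A z y = 0
    rw [← hA g y z, h, h', sub_self]
  refine ⟨D basePair z₁, fun y z => ?_⟩
  obtain ⟨g, -, rfl⟩ := exists_smul_basePair y
  obtain ⟨w, rfl⟩ : ∃ w, g • w = z := ⟨g⁻¹ • z, smul_inv_smul g z⟩
  show D (g • basePair) (g • w) = _
  rw [hD]
  simp only [Pair.smul_fst, Pair.smul_snd, smul_left_cancel_iff]
  show D basePair w = D basePair z₁ *
    ((if w.fst = ∞ then 1 else 0) - if w.snd = ((0 : ZMod q) : Line q) then 1 else 0)
  obtain ⟨a, b, hab⟩ := w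
  induction a using OnePoint.rec with
  | infty =>
    induction b using OnePoint.rec with
    | infty => exact absurd rfl hab
    | coe d =>
      by_cases hd : d = 0
      · subst hd
        rw [if_pos rfl, if_pos rfl, sub_self, mul_zero]
        refine hswap (GeneralLinearGroup.mkOfDetNeZero !![0, 1; 1, 0] (by simp [det_fin_two_of]))
          _ _ ?_ ?_ <;> ext <;>
          simp [basePair, OnePoint.smul_infty_eq_ite, OnePoint.smul_some_eq_ite]
      · rw [if_pos rfl, if_neg (by simpa using hd), sub_zero, mul_one]
        have e : diagGrp d hd • z₁ = ⟨∞, (d : Line q), hab⟩ :=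
          Pair.ext (diagGrp_smul_infty hd) ((diagGrp_smul_coe hd 1).trans (by rw [mul_one]))
        rw [← e, ← hD (diagGrp d hd) basePair z₁, diagGrp_smul_basePair hd]
  | coe c =>
    rw [if_neg (OnePoint.coe_ne_infty c), zero_sub]
    induction b using OnePoint.rec with
    | infty =>
      rw [if_neg (OnePoint.infty_ne_coe _), neg_zero, mul_zero]
      refine hswap (GeneralLinearGroup.mkOfDetNeZero !![-1, c; 0, 1] (by simp [det_fin_two_of]))
        _ _ ?_ ?_ <;> ext <;>
        simp [basePair, OnePoint.smul_infty_eq_ite, OnePoint.smul_some_eq_ite]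
    | coe d =>
      have hcd : c ≠ d := fun h => hab (by rw [h])
      by_cases hd : d = 0
      · subst hd
        rw [if_pos rfl, mul_neg, mul_one]
        let g : Grp q := GeneralLinearGroup.mkOfDetNeZero !![1, -c; 1, 0]
          (by simpa [det_fin_two_of] using hcd)
        have e1 : g • (⟨(c : Line q), ((0 : ZMod q) : Line q), hab⟩ : Pair q) = basePair := by
          ext <;> simp [g, basePair, OnePoint.smul_some_eq_ite, hcd]
        have e2 : g • basePair = z₁ := by
          ext <;> simp [g, z₁, basePair, OnePoint.smul_infty_eq_ite, OnePoint.smul_some_eq_ite]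
        rw [← hD g basePair, e1, e2]
        show A z₁ basePair - A basePair z₁ = -(A basePair z₁ - A z₁ basePair)
        rw [neg_sub]
      · rw [if_neg (by simpa using hd), neg_zero, mul_zero]
        refine hswap (GeneralLinearGroup.mkOfDetNeZero !![d, -(d * c); 1, -d] ?_) _ _ ?_ ?_
        · rw [det_fin_two_of]
          intro h
          exact mul_ne_zero hd (sub_ne_zero.2 hcd) (by linear_combination h)
        · ext <;> simp [basePair, OnePoint.smul_infty_eq_ite, OnePoint.smul_some_eq_ite, hd]
        · ext <;> simp [basePair, OnePoint.smul_some_eq_ite, mul_comm d c, sub_ne_zero.2 hcd,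
            ← sub_eq_add_neg]

/-- Compressed invariant kernels are symmetric. -/
theorem transpose_proj_mul_mul_proj (hq : (q : k) ≠ 0) {A : Matrix (Pair q) (Pair q) k}
    (hA : IsInvariant A) :
    (proj q k * A * proj q k)ᵀ = proj q k * A * proj q k := by
  obtain ⟨c, hc⟩ := exists_asymm hA
  let J : Matrix (Pair q) (Pair q) k := Matrix.of fun y z => if z.fst = y.snd then 1 else 0
  have hJ : proj q k * J = 0 := Matrix.ext_of_mulVec_single fun w => by
    rw [← mulVec_mulVec, zero_mulVec,
      show J *ᵥ Pi.single w 1 = liftSnd (fun x => if w.fst = x then (1 : k) else 0) from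
        funext fun y => by simp [J, liftSnd]]
    exact proj_mulVec_liftSnd hq _
  have hA' : A = Aᵀ + c • (J - Jᵀ) := Matrix.ext fun y z => by
    have h := hc y z
    simp only [Matrix.add_apply, Matrix.transpose_apply, Matrix.smul_apply, Matrix.sub_apply,
      smul_eq_mul, J, Matrix.of_apply]
    rw [show (if y.fst = z.snd then (1 : k) else 0) = if z.snd = y.fst then 1 else 0 from
      if_congr eq_comm rfl rfl]
    linear_combination h
  have hJ' : Jᵀ * proj q k = 0 := by
    have h := congrArg Matrix.transpose hJ
    rwa [Matrix.transpose_mul, transpose_proj, Matrix.transpose_zero] at h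
  rw [Matrix.transpose_mul, Matrix.transpose_mul, transpose_proj, ← mul_assoc]
  conv_rhs => rw [hA']
  rw [mul_add, add_mul, mul_smul_comm, mul_sub, hJ, zero_sub, smul_mul_assoc, neg_mul,
    mul_assoc _ Jᵀ, hJ', mul_zero, neg_zero, smul_zero, add_zero]

/-- An invariant kernel compressed by the projection. -/
structure IsCompressed (X : Matrix (Pair q) (Pair q) k) : Prop where
  invariant : IsInvariant X
  left : proj q k * X = X
  right : X * proj q k = X

/-- Compressing an invariant kernel gives a compressed one. -/
lemma IsCompressed.of_invariant (hq : (q : k) ≠ 0) {A : Matrix (Pair q) (Pair q) k}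
    (hA : IsInvariant A) : IsCompressed (proj q k * A * proj q k) where
  invariant := (isInvariant_proj.mul hA).mul isInvariant_proj
  left := by rw [← mul_assoc, ← mul_assoc, proj_mul_proj hq]
  right := by rw [mul_assoc, proj_mul_proj hq]

/-- Compressed kernels are symmetric. -/
lemma IsCompressed.symm (hq : (q : k) ≠ 0) {X : Matrix (Pair q) (Pair q) k}
    (hX : IsCompressed X) : Xᵀ = X := by
  have h := transpose_proj_mul_mul_proj hq hX.invariant
  rwa [hX.left, hX.right] at h

/-- Products of compressed kernels are compressed. -/
lemma IsCompressed.mul {X Y : Matrix (Pair q) (Pair q) k} (hX : IsCompressed X)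
    (hY : IsCompressed Y) : IsCompressed (X * Y) where
  invariant := hX.invariant.mul hY.invariant
  left := by rw [← mul_assoc, hX.left]
  right := by rw [mul_assoc, hY.right]

/-- Compressed kernels commute. -/
lemma IsCompressed.comm (hq : (q : k) ≠ 0) {X Y : Matrix (Pair q) (Pair q) k}
    (hX : IsCompressed X) (hY : IsCompressed Y) : X * Y = Y * X := by
  conv_lhs => rw [← (hX.mul hY).symm hq, Matrix.transpose_mul, hX.symm hq, hY.symm hq]

/-- Compressed kernels kill functions of the second point. -/
lemma IsCompressed.mulVec_liftSnd (hq : (q : k) ≠ 0) {X : Matrix (Pair q) (Pair q) k}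
    (hX : IsCompressed X) (f : Line q → k) : X *ᵥ liftSnd f = 0 := by
  rw [← hX.right, ← mulVec_mulVec, proj_mulVec_liftSnd hq, mulVec_zero]

/-- Images of compressed kernels have vanishing sums. -/
lemma IsCompressed.sumSnd_mulVec (hq : (q : k) ≠ 0) {X : Matrix (Pair q) (Pair q) k}
    (hX : IsCompressed X) (f : Pair q → k) : sumSnd (X *ᵥ f) = 0 := by
  rw [← hX.left, ← mulVec_mulVec, sumSnd_proj hq]

end Fermat.Agent.ResidualCarayol
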