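import Fermat.Agent.ResidualCarayol.HeckeCoeff
import Fermat.Agent.ResidualCarayol.Step
import Fermat.Agent.GroupH1.HeckePair

/-!
# Lifting cocycles modulo constants

A cochain on functions on `ℙ¹(𝔽_q)` which is a cocycle modulo the constant functions agrees with a
cocycle modulo constants if `2` and `3` are invertible, and after one `T_ℓ`, `ℓ ≡ 2 (mod 3)`,
up to a coboundary, if only `2` is invertible.
-/

set_option autoImplicit false

noncomputable section

namespace Fermat.Agent.ResidualCarayol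

open CongruenceSubgroup ModularGroup
open Fermat.Agent.GroupH1 (IsCoc Weights base smul_base_of_mem symS symU symS_rel symU_rel
  exists_cocycle closure_S_U S_sq U_cube U)
open Fermat.Agent.HeckeLattice (gamma0System Idx)
open scoped MatrixGroups OnePoint

variable {N q : ℕ} [Fact q.Prime] {k : Type*} [Field k]

variable (q) in
/-- The cocycle identity modulo constant functions. -/
def IsQuasi {Γ : Subgroup SL(2, ℤ)} (g : Γ → Line q → k) : Prop :=
  ∀ γ δ : Γ, g (γ * δ) - (g γ + perm k (toG q (γ : SL(2, ℤ))) (g δ)) ∈ constFun q k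

/-- `-1` acts trivially on the projective line. -/
lemma toG_neg_one_smul (x : Line q) : toG q (-1 : SL(2, ℤ)) • x = x := by
  induction x using OnePoint.rec with
  | infty => rw [OnePoint.smul_infty_eq_self_iff, toG_apply]; simp
  | coe a =>
    rw [OnePoint.smul_some_eq_ite]
    simp [toG_apply]

variable (q k) in
/-- The projective line modulo constants. -/
abbrev LineMod : Type _ := (Line q → k) ⧸ constFun q k

variable (q k) in
/-- The reduction modulo constants. -/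
abbrev toMod : (Line q → k) →ₗ[k] LineMod q k := (constFun q k).mkQ

omit [Fact (Nat.Prime q)] in
lemma toMod_eq_iff {f f' : Line q → k} : toMod q k f = toMod q k f' ↔ f - f' ∈ constFun q k :=
  Submodule.Quotient.eq _

omit [Fact (Nat.Prime q)] in
lemma toMod_eq_zero {f : Line q → k} : toMod q k f = 0 ↔ f ∈ constFun q k :=
  Submodule.Quotient.mk_eq_zero _

variable (k) in
/-- The action modulo constants. -/
def permMod (g : Grp q) : LineMod q k →ₗ[k] LineMod q k :=
  (constFun q k).mapQ (constFun q k) (perm k g) fun _ hf => perm_mem_constFun g hf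

lemma permMod_toMod (g : Grp q) (f : Line q → k) :
    permMod k g (toMod q k f) = toMod q k (perm k g f) :=
  rfl

lemma permMod_mul (g h : Grp q) (x : LineMod q k) :
    permMod k (g * h) x = permMod k g (permMod k h x) := by
  obtain ⟨f, rfl⟩ := Submodule.mkQ_surjective _ x
  rw [permMod_toMod, permMod_toMod, permMod_toMod, perm_mul]

lemma permMod_one (x : LineMod q k) : permMod k (1 : Grp q) x = x := by
  obtain ⟨f, rfl⟩ := Submodule.mkQ_surjective _ x
  rw [permMod_toMod, perm_one]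

namespace IsQuasi

variable {Γ : Subgroup SL(2, ℤ)} {g : Γ → Line q → k}

lemma toMod_mul (hg : IsQuasi q g) (γ δ : Γ) :
    toMod q k (g (γ * δ)) =
      toMod q k (g γ) + permMod k (toG q (γ : SL(2, ℤ))) (toMod q k (g δ)) := by
  rw [permMod_toMod, ← map_add, toMod_eq_iff]
  exact hg γ δ

lemma toMod_one (hg : IsQuasi q g) : toMod q k (g 1) = 0 := by
  have h := hg.toMod_mul 1 1
  rwa [mul_one, OneMemClass.coe_one, map_one, permMod_one, left_eq_add] at h

lemma toMod_inv (hg : IsQuasi q g) (γ : Γ) :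
    toMod q k (g γ⁻¹) = -permMod k (toG q (γ : SL(2, ℤ)))⁻¹ (toMod q k (g γ)) := by
  have h := hg.toMod_mul γ⁻¹ γ
  rw [inv_mul_cancel, hg.toMod_one, Subgroup.coe_inv, map_inv] at h
  exact eq_neg_of_add_eq_zero_left h.symm

lemma toMod_neg_one (hg : IsQuasi q g) (h2 : (2 : k) ≠ 0) (hΓ : (-1 : SL(2, ℤ)) ∈ Γ) :
    toMod q k (g ⟨-1, hΓ⟩) = 0 := by
  have h := hg.toMod_mul ⟨-1, hΓ⟩ ⟨-1, hΓ⟩
  rw [show (⟨-1, hΓ⟩ : Γ) * ⟨-1, hΓ⟩ = 1 from Subtype.ext (by simp), hg.toMod_one,
    permMod_toMod, show perm k (toG q (-1)) (g ⟨-1, hΓ⟩) = g ⟨-1, hΓ⟩ from funext fun x => by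
      rw [perm_apply, inv_smul_eq_iff.2 (toG_neg_one_smul x).symm], ← two_smul k] at h
  exact (smul_eq_zero.1 h.symm).resolve_left h2

end IsQuasi

/-! ### Lifting along weights -/

/-- A cochain which is a cocycle modulo constants agrees with a cocycle modulo constants, given
weights. -/
theorem exists_cocycle_of_quasi {Γ : Subgroup SL(2, ℤ)} (hΓ : (-1 : SL(2, ℤ)) ∈ Γ)
    (w : Weights k Γ) (h2 : (2 : k) ≠ 0) {g : Γ → Line q → k} (hg : IsQuasi q g) :
    ∃ G : Γ → Line q → k,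
      (∀ γ δ : Γ, G (γ * δ) = G γ + perm k (toG q (γ : SL(2, ℤ))) (G δ)) ∧
        ∀ γ, G γ - g γ ∈ constFun q k := by
  classical
  let : MulAction SL(2, ℤ) (Line q) := MulAction.compHom (Line q) (toG q)
  let gt : Γ → Line q → k := fun r m => g r (toG q (r : SL(2, ℤ)) • m)
  have hgt : ∀ r s : Γ, ∀ m m' : Line q,
      gt (r * s) m - gt r (toG q (s : SL(2, ℤ)) • m) - gt s m =
        gt (r * s) m' - gt r (toG q (s : SL(2, ℤ)) • m') - gt s m' := fun r s m m' => by
    have h := mem_constFun.1 (hg r s) (toG q ((r * s : Γ) : SL(2, ℤ)) • m)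
      (toG q ((r * s : Γ) : SL(2, ℤ)) • m')
    simp only [Pi.sub_apply, Pi.add_apply, perm_apply, Subgroup.coe_mul, map_mul, mul_smul,
      inv_smul_smul] at h
    simp only [gt, Subgroup.coe_mul, map_mul, mul_smul]
    linear_combination h
  have hneg := GroupH1.neg_one_smul hΓ
  let rp : SL(2, ℤ) ⧸ Γ → SL(2, ℤ) := fun x => if x = base Γ then 1 else x.out
  have hrp : ∀ x, (QuotientGroup.mk (rp x) : SL(2, ℤ) ⧸ Γ) = x := fun x => by
    by_cases h : x = base Γ
    · simp only [rp, if_pos h]; exact h.symm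
    · simp only [rp, if_neg h]; exact QuotientGroup.out_eq' x
  let r : SL(2, ℤ) → SL(2, ℤ) ⧸ Γ → Γ := fun h x => ⟨(rp (h • x))⁻¹ * (h * rp x), by
    rw [← QuotientGroup.eq, hrp]
    conv_lhs => rw [← hrp x, MulAction.Quotient.smul_mk, smul_eq_mul]⟩
  let z0 : SL(2, ℤ) → (SL(2, ℤ) ⧸ Γ) × Line q → k := fun h z =>
    gt (r h z.1) ((toG q (rp z.1))⁻¹ • z.2)
  have hr : ∀ h h' x, r (h * h') x = r h (h' • x) * r h' x := fun h h' x => Subtype.ext (by
    simp only [r, mul_smul, Subgroup.coe_mul]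
    group)
  have hz0 : ∀ h h' : SL(2, ℤ), ∀ x, ∀ l l' : Line q,
      z0 (h * h') (x, l) - z0 h (h' • (x, l)) - z0 h' (x, l) =
        z0 (h * h') (x, l') - z0 h (h' • (x, l')) - z0 h' (x, l') := by
    intro h h' x l l'
    have key : ∀ l : Line q, z0 h (h' • (x, l)) =
        gt (r h (h' • x)) (toG q (r h' x : SL(2, ℤ)) • (toG q (rp x))⁻¹ • l) := by
      intro l
      show gt (r h (h' • x)) ((toG q (rp (h' • x)))⁻¹ • toG q h' • l) = _
      simp only [r, map_mul, map_inv, mul_smul, smul_inv_smul]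
    simp only [key, z0, hr]
    exact hgt _ _ _ _
  have hnegZ : ∀ z : (SL(2, ℤ) ⧸ Γ) × Line q, (-1 : SL(2, ℤ)) • z = z := fun z =>
    Prod.ext (hneg z.1) (toG_neg_one_smul z.2)
  have hneg0 : ∀ x, ∀ l l' : Line q, z0 (-1) (x, l) = z0 (-1) (x, l') := by
    intro x l l'
    have e : r (-1) x = ⟨-1, hΓ⟩ := Subtype.ext (by
      simp only [r, hneg, neg_mul, one_mul, mul_neg, inv_mul_cancel])
    simp only [z0, e]
    exact mem_constFun.1 (toMod_eq_zero.1 (hg.toMod_neg_one h2 hΓ)) _ _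
  obtain ⟨z, hz, hzS, hzU⟩ := exists_cocycle hnegZ
    (symS (fun z => w.wS z.1) (z0 S)) (symU (fun z => w.wU z.1) (z0 U))
    (symS_rel hnegZ (fun z => w.sum_S z.1) _) (symU_rel hnegZ (fun z => w.sum_U z.1) _)
  set D : SL(2, ℤ) → (SL(2, ℤ) ⧸ Γ) × Line q → k := fun h a => z h a - z0 h a
  have hD : ∀ h : SL(2, ℤ), ∀ x, ∀ l l' : Line q, D h (x, l) = D h (x, l') := by
    intro h
    have hmem : h ∈ Subgroup.closure {S, U} := by rw [closure_S_U]; trivial
    induction hmem using Subgroup.closure_induction with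
    | mem y hy =>
      intro x l l'
      rcases hy with rfl | rfl
      · simp only [D, hzS, GroupH1.symS_apply, smul_eq_mul]
        have e1 := hz0 S S x l l'
        rw [S_sq, hneg0 x l l'] at e1
        linear_combination w.wS x * e1
      · simp only [D, hzU, GroupH1.symU_apply, smul_eq_mul]
        have e1 := hz0 (U * U) U x l l'
        have e2 := hz0 U U (U • x) (U • l) (U • l')
        rw [U_cube, hneg0 x l l'] at e1
        simp only [Prod.smul_mk] at e1 e2 ⊢
        linear_combination w.wU x * e1 + w.wU x * e2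
    | one =>
      intro x l l'
      have e := hz0 1 1 x l l'
      simp only [mul_one, one_smul] at e
      simp only [D, hz.map_one]
      linear_combination e
    | mul a b _ _ ha hb =>
      intro x l l'
      have e := hz0 a b x l l'
      have e1 := ha (b • x) (b • l) (b • l')
      have e2 := hb x l l'
      simp only [D, Prod.smul_mk, hz a b] at e e1 e2 ⊢
      linear_combination e1 + e2 - e
    | inv a _ ha =>
      intro x l l'
      have e := hz0 a a⁻¹ x l l'
      have e' := hz0 1 1 x l l'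
      have e1 := ha (a⁻¹ • x) (a⁻¹ • l) (a⁻¹ • l')
      simp only [mul_one, one_smul] at e'
      rw [mul_inv_cancel] at e
      simp only [D, Prod.smul_mk, hz.map_inv] at e e1 e' ⊢
      linear_combination -e1 + e + e'
  refine ⟨fun γ l => z γ (base Γ, ((toG q (γ : SL(2, ℤ)))⁻¹ • l : Line q)), fun γ δ => funext
    fun l => ?_, fun γ => mem_constFun.2 fun l l' => ?_⟩
  · show z ((γ : SL(2, ℤ)) * (δ : SL(2, ℤ))) _ = z (γ : SL(2, ℤ)) _ + z (δ : SL(2, ℤ)) _
    rw [hz]
    congr 2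
    · refine Prod.ext (smul_base_of_mem δ) ?_
      show toG q (δ : SL(2, ℤ)) • (toG q ((γ * δ : Γ) : SL(2, ℤ)))⁻¹ • l = _
      rw [Subgroup.coe_mul, map_mul, _root_.mul_inv_rev, mul_smul, smul_inv_smul]
    · rw [Subgroup.coe_mul, map_mul, _root_.mul_inv_rev, mul_smul]
  · have key : ∀ l : Line q, z0 γ (base Γ, ((toG q (γ : SL(2, ℤ)))⁻¹ • l : Line q)) = g γ l := by
      intro l
      have e : r (γ : SL(2, ℤ)) (base Γ) = γ :=
        Subtype.ext (by simp [r, rp, smul_base_of_mem])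
      simp only [z0, e, gt, rp, if_pos, map_one, inv_one, one_smul, smul_inv_smul]
    have h := hD γ (base Γ) ((toG q (γ : SL(2, ℤ)))⁻¹ • l : Line q)
      ((toG q (γ : SL(2, ℤ)))⁻¹ • l' : Line q)
    simpa only [D, key, Pi.sub_apply] using h

/-- Lifting when `2` and `3` are invertible. -/
theorem exists_isCocycle_of_quasi (h2 : (2 : k) ≠ 0) (h3 : (3 : k) ≠ 0)
    {d : Gamma0 N → Line q → k} (hd : IsQuasi q d) :
    ∃ D, IsCocycle q D ∧ ∀ γ, D γ - d γ ∈ constFun q k := by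
  obtain ⟨G, hG, hGd⟩ := exists_cocycle_of_quasi
    (Γ := Gamma0 N) (Gamma0_mem.2 (by simp)) (Weights.ofUnits h2.isUnit h3.isUnit) h2 hd
  exact ⟨G, fun γ δ x => congrFun (hG γ δ) x, hGd⟩

/-! ### Lifting after one Hecke operator -/

variable {ℓ : ℕ} [Fact ℓ.Prime]

/-- `Γ₀(N)` permutes the representatives of `T_ℓ` transitively. -/
theorem exists_next_infty (h : ¬ ℓ ∣ N) (x : Idx ℓ) :
    ∃ t : Gamma0 N, (gamma0System N ℓ h).next t ∞ = x := by
  induction x using OnePoint.rec with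
  | infty => exact ⟨1, (gamma0System N ℓ h).next_one ∞⟩
  | coe j =>
    have hN : (N : ZMod ℓ) ≠ 0 := by rwa [Ne, ZMod.natCast_eq_zero_iff]
    set i : ℕ := (j - (N : ZMod ℓ)⁻¹).val
    obtain ⟨e, he⟩ : (ℓ : ℤ) ∣ (N : ℤ) * i + 1 - (N : ℤ) * j.val := by
      rw [← ZMod.intCast_zmod_eq_zero_iff_dvd]
      push_cast
      simp only [i, ZMod.natCast_zmod_val]
      field_simp
      ring
    refine ⟨⟨⟨!![1, (i : ℤ); (N : ℤ), (N : ℤ) * i + 1],
      by rw [Matrix.det_fin_two_of]; ring⟩, Gamma0_mem.2 (by simp)⟩, ?_⟩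
    refine ((gamma0System N ℓ h).eq_of_rep_mul
      (g := ⟨⟨!![(ℓ : ℤ), (i : ℤ) - j.val; (N : ℤ), e],
        by rw [Matrix.det_fin_two_of]; linear_combination -he⟩, Gamma0_mem.2 (by simp)⟩)
      (Units.ext ?_)).1
    have hm : repZ ℓ ∞ * !![1, (i : ℤ); (N : ℤ), (N : ℤ) * i + 1] =
        !![(ℓ : ℤ), (i : ℤ) - j.val; (N : ℤ), e] * repZ ℓ (j : Idx ℓ) := by
      ext a b
      fin_cases a <;> fin_cases b <;>
        simp [repZ, Matrix.mul_apply, Fin.sum_univ_two, -ZMod.natCast_val] <;>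
        first | ring1 | linear_combination he
    have hcast : ∀ v : Gamma0 N,
        ((HeckeLattice.toGL v : GL (Fin 2) ℝ) : Matrix (Fin 2) (Fin 2) ℝ) =
          v.1.1.map (Int.castRingHom ℝ) := fun v => by ext a b; simp [HeckeLattice.toGL]
    have hm' := congrArg (fun A : Matrix (Fin 2) (Fin 2) ℤ => A.map (Int.castRingHom ℝ)) hm
    simp only [Matrix.map_mul] at hm'
    simp only [Units.val_mul, hcast, show (gamma0System N ℓ h).β = HeckeLattice.rep ℓ from rfl,
      coe_rep, show (Int.cast : ℤ → ℝ) = ⇑(Int.castRingHom ℝ) from rfl]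
    exact hm'

/-- The stabiliser of the representative `∞` has no elliptic point of order three. -/
theorem U_smul_ne_stab_infty (h : ¬ ℓ ∣ N) (h3 : ℓ % 3 = 2)
    (x : SL(2, ℤ) ⧸ GroupH1.stab (gamma0System N ℓ h) ∞) : GroupH1.U • x ≠ x := by
  obtain ⟨g, rfl⟩ := QuotientGroup.mk_surjective x
  intro he
  rw [MulAction.Quotient.smul_mk, smul_eq_mul, eq_comm, QuotientGroup.eq] at he
  refine GroupH1.U_smul_ne (M := ℓ) (H := ⊤) dvd_rfl h3 (QuotientGroup.mk g) ?_
  rw [MulAction.Quotient.smul_mk, smul_eq_mul, eq_comm, QuotientGroup.eq, GroupH1.GammaH_top]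
  obtain ⟨hm, hm'⟩ := he
  have e := congrArg (fun A : Matrix (Fin 2) (Fin 2) ℤ => (A 1 0 : ZMod ℓ))
    (repZ_mul h ⟨_, hm⟩ ∞)
  rw [hm'] at e
  refine Gamma0_mem.2 ?_
  simpa [repZ, Matrix.mul_apply, Fin.sum_univ_two] using e

/-- After `T_ℓ`, `ℓ ≡ 2 (mod 3)`, a cocycle modulo constants is a cocycle up to a coboundary. -/
theorem exists_isCocycle_of_quasi_heckeT (h2 : (2 : k) ≠ 0) (h : ¬ ℓ ∣ N) (hℓq : ℓ ≠ q)
    (h3 : ℓ % 3 = 2) {d : Gamma0 N → Line q → k} (hd : IsQuasi q d) :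
    ∃ (D : Gamma0 N → Line q → k) (v : Line q → k), IsCocycle q D ∧
      ∀ γ, D γ - (heckeT h hℓq d γ - cob N q v γ) ∈ constFun q k := by
  set C := gamma0System N ℓ h
  have hnegN : (-1 : SL(2, ℤ)) ∈ Gamma0 N := Gamma0_mem.2 (by simp)
  have hred : ∀ γ x, (repQ hℓq x)⁻¹ * red N q (C.cocycle γ x) =
      red N q γ * (repQ hℓq (C.next γ x))⁻¹ := fun γ x => by
    rw [inv_mul_eq_iff_eq_mul, ← mul_assoc, repQ_mul h hℓq, mul_inv_cancel_right]
  let g : GroupH1.stab C ∞ → Line q → k := fun u =>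
    perm k (repQ hℓq ∞)⁻¹ (d (C.cocycle ⟨u, u.2.1⟩ ∞))
  have hg : IsQuasi q g := fun u u' => by
    refine toMod_eq_iff.1 ?_
    have hu : C.next ⟨u, u.2.1⟩ ∞ = ∞ := u.2.2
    simp only [g]
    rw [show (⟨((u * u' : GroupH1.stab C ∞) : SL(2, ℤ)), (u * u').2.1⟩ : Gamma0 N) =
      ⟨u, u.2.1⟩ * ⟨u', u'.2.1⟩ from rfl, C.cocycle_mul, hu, map_add, ← permMod_toMod,
      ← permMod_toMod, ← permMod_toMod, ← permMod_toMod, hd.toMod_mul, map_add]
    congr 1
    rw [← permMod_mul, ← permMod_mul]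
    have e := hred ⟨u, u.2.1⟩ ∞
    rw [hu] at e
    exact congrArg (fun a => permMod k a _) e
  obtain ⟨G, hG, hGg⟩ := exists_cocycle_of_quasi (GroupH1.neg_one_mem_stab C ∞ hnegN)
    (Weights.ofFree h2.isUnit (GroupH1.neg_one_mem_stab C ∞ hnegN)
      (U_smul_ne_stab_infty h h3)) h2 hg
  choose t ht using exists_next_infty h
  have hmem : ∀ (γ : Gamma0 N) (x : Idx ℓ),
      ((t x * γ * (t (C.next γ x))⁻¹ : Gamma0 N) : SL(2, ℤ)) ∈ GroupH1.stab C ∞ := fun γ x =>
    GroupH1.mem_stab.2 (by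
      rw [C.next_mul, C.next_mul, ht]
      exact GroupH1.next_inv_of_next C (ht _))
  let η : Gamma0 N → Idx ℓ → GroupH1.stab C ∞ := fun γ x => ⟨_, hmem γ x⟩
  have hη : ∀ γ δ x, η (γ * δ) x = η γ x * η δ (C.next γ x) := fun γ δ x => Subtype.ext (by
    simp only [η, C.next_mul, Subgroup.coe_mul, Subgroup.coe_inv]
    group)
  have hηt : ∀ γ x, (red N q (t x))⁻¹ * toG q (η γ x : SL(2, ℤ)) =
      red N q γ * (red N q (t (C.next γ x)))⁻¹ := fun γ x => by
    show (red N q (t x))⁻¹ * red N q (t x * γ * (t (C.next γ x))⁻¹) = _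
    rw [map_mul, map_mul, map_inv, mul_assoc, inv_mul_cancel_left]
  refine ⟨fun γ => ∑ x, perm k (red N q (t x))⁻¹ (G (η γ x)),
    fun i => ∑ x, perm k (repQ hℓq x * 1)⁻¹
      (perm k (red N q (C.cocycle (t x) ∞))⁻¹ (d (C.cocycle (t x) ∞))) i, ?_, fun γ => ?_⟩
  · intro γ δ i
    refine congrFun (?_ : (∑ x, perm k (red N q (t x))⁻¹ (G (η (γ * δ) x))) =
      (∑ x, perm k (red N q (t x))⁻¹ (G (η γ x))) +
        perm k (red N q γ) (∑ x, perm k (red N q (t x))⁻¹ (G (η δ x)))) i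
    simp only [hη, hG, map_add, Finset.sum_add_distrib]
    rw [map_sum]
    congr 1
    simp only [← perm_mul, hηt]
    exact sum_next h γ fun x => perm k (red N q γ * (red N q (t x))⁻¹) (G (η δ x))
  · refine toMod_eq_iff.1 ?_
    set e : Idx ℓ → Gamma0 N := fun x => C.cocycle (t x) ∞
    set V : Idx ℓ → LineMod q k := fun x =>
      permMod k (repQ hℓq x)⁻¹ (permMod k (red N q (e x))⁻¹ (toMod q k (d (e x))))
    have hv : toMod q k (fun i => ∑ x,
        perm k (repQ hℓq x * 1)⁻¹ (perm k (red N q (e x))⁻¹ (d (e x))) i)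
        = ∑ x, V x := by
      rw [show (fun i => ∑ x, perm k (repQ hℓq x * 1)⁻¹ (perm k (red N q (e x))⁻¹ (d (e x))) i) =
        ∑ x, perm k (repQ hℓq x * 1)⁻¹ (perm k (red N q (e x))⁻¹ (d (e x))) from
          funext fun i => (Finset.sum_apply i _ _).symm, map_sum]
      simp only [mul_one, V, permMod_toMod]
    rw [heckeT_eq_sum, cob_eq, map_sum, map_sub, map_sub, map_sum, hv, ← permMod_toMod, hv, map_sum]
    rw [← sum_next h γ (fun x => permMod k (red N q γ) (V x)), ← Finset.sum_sub_distrib,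
      ← Finset.sum_sub_distrib]
    refine Finset.sum_congr rfl fun x _ => ?_
    have hGx : toMod q k (G (η γ x)) =
        permMod k (repQ hℓq ∞)⁻¹ (toMod q k (d (C.cocycle (t x * γ * (t (C.next γ x))⁻¹) ∞))) := by
      rw [permMod_toMod]
      exact toMod_eq_iff.2 (hGg _)
    have hc : C.cocycle (t x * γ * (t (C.next γ x))⁻¹) ∞ =
        e x * C.cocycle γ x * (e (C.next γ x))⁻¹ := by
      have h1 := C.cocycle_mul (t (C.next γ x)) (t (C.next γ x))⁻¹ ∞
      rw [mul_inv_cancel, C.cocycle_one, ht] at h1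
      rw [C.cocycle_mul, C.cocycle_mul, C.next_mul, ht, eq_inv_of_mul_eq_one_right h1.symm]
    have hte : ∀ y, (red N q (t y))⁻¹ * (repQ hℓq ∞)⁻¹ =
        (repQ hℓq y)⁻¹ * (red N q (e y))⁻¹ := fun y => by
      rw [← _root_.mul_inv_rev, ← _root_.mul_inv_rev, repQ_mul h hℓq, ht]
    rw [← permMod_toMod, ← permMod_toMod, hGx, hc, ← permMod_mul, hte, hd.toMod_mul, hd.toMod_mul,
      hd.toMod_inv, map_add, map_add, map_neg, map_neg]
    simp only [V, ← permMod_mul, Subgroup.coe_mul, map_mul]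
    rw [show (repQ hℓq x)⁻¹ * (red N q (e x))⁻¹ * toG q (e x : SL(2, ℤ)) = (repQ hℓq x)⁻¹ from
      inv_mul_cancel_right _ _]
    rw [show (repQ hℓq x)⁻¹ * (red N q (e x))⁻¹ * (toG q (e x : SL(2, ℤ)) *
      toG q (C.cocycle γ x : SL(2, ℤ)) * (toG q (e (C.next γ x) : SL(2, ℤ)))⁻¹) =
        red N q γ * ((repQ hℓq (C.next γ x))⁻¹ * (red N q (e (C.next γ x)))⁻¹) by
      rw [← mul_assoc (red N q γ), ← hred γ x]
      show _ = (repQ hℓq x)⁻¹ * toG q (C.cocycle γ x : SL(2, ℤ)) * (toG q (e _ : SL(2, ℤ)))⁻¹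
      rw [show red N q (e x) = toG q (e x : SL(2, ℤ)) from rfl]
      group]
    abel

end Fermat.Agent.ResidualCarayol
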