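import Fermat.Agent.ResidualCarayol.Coeff

/-!
# Orbital operators on `Hom(Γ₀(q²N), k)`

An invariant kernel on pairs of points of `ℙ¹(𝔽_q)` acts on homomorphisms of the stabiliser of a
pair in `Γ₀(N)`, hence of `Γ₀(q² N)`.
-/

set_option autoImplicit false

noncomputable section

namespace Fermat.Agent.ResidualCarayol

open CongruenceSubgroup Matrix
open scoped MatrixGroups

variable {N q : ℕ} [Fact q.Prime] {k : Type*} [CommRing k]

/-- An invariant kernel on pairs. -/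
def IsInvariant (A : Pair q → Pair q → k) : Prop :=
  ∀ (g : Grp q) (y z : Pair q), A (g • y) (g • z) = A y z

/-- The operator of a kernel. -/
def kerOp (A : Pair q → Pair q → k) : (Pair q → k) →ₗ[k] (Pair q → k) where
  toFun f y := ∑ z, A y z * f z
  map_add' f f' := funext fun y => by simp [mul_add, Finset.sum_add_distrib]
  map_smul' a f := funext fun y => by simp [mul_left_comm, Finset.mul_sum]

/-- `kerOp` evaluated at a pair. -/
@[simp] lemma kerOp_apply (A : Pair q → Pair q → k) (f : Pair q → k) (y : Pair q) :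
    kerOp A f y = ∑ z, A y z * f z := rfl

/-- Invariant kernels give equivariant maps. -/
lemma isEquivariant_kerOp {A : Pair q → Pair q → k} (hA : IsInvariant A) :
    IsEquivariant q (kerOp A) := fun g f => funext fun y => by
  simp only [kerOp_apply, perm_apply]
  refine Fintype.sum_equiv (MulAction.toPerm g⁻¹) _ _ fun z => ?_
  rw [MulAction.toPerm_apply, hA g⁻¹ y z]

/-- A kernel kills the functions pulled back from either factor. -/
def KillsOld (A : Pair q → Pair q → k) : Prop :=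
  ∀ f : Line q → k, kerOp A (fun y => f y.fst) = 0 ∧ kerOp A (fun y => f y.snd) = 0

/-- The action of an invariant kernel on homomorphisms of `Γ_T`. -/
def opT (hqN : ¬ q ∣ N) (A : Pair q → Pair q → k) (hA : IsInvariant A)
    (φ : Additive (stabGroup N q (basePair : Pair q)) →+ k) :
    Additive (stabGroup N q (basePair : Pair q)) →+ k :=
  atBase basePair _
    ((isCocycle_shapiro (isTransitiveFrom_pair hqN) φ).map (isEquivariant_kerOp hA))

omit [Fact (Nat.Prime q)] in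
/-- The lower left entry on `Γ₀(q² N)` is divisible by `q² N`. -/
lemma dvd_lowerLeft (γ : Gamma0 (q ^ 2 * N)) : ((q : ℤ) ^ 2 * N) ∣ γ.1 1 0 := by
  have h := (ZMod.intCast_zmod_eq_zero_iff_dvd _ _).1 (Gamma0_mem.1 γ.2)
  push_cast at h
  exact h

/-- A prime is not zero in `ℤ`. -/
lemma natCast_ne (q : ℕ) [hq : Fact q.Prime] : (q : ℤ) ≠ 0 :=
  Int.natCast_ne_zero.2 hq.out.ne_zero

omit [Fact (Nat.Prime q)] in
/-- The lower left entry on `Γ₀(q² N)` is `q` times its quotient by `q`. -/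
lemma mul_lowerLeft_div (γ : Gamma0 (q ^ 2 * N)) :
    (q : ℤ) * (γ.1 1 0 / (q : ℤ)) = γ.1 1 0 :=
  Int.mul_ediv_cancel' ((Dvd.intro _ (by ring : (q : ℤ) * ((q : ℤ) * N) = (q : ℤ) ^ 2 * N)).trans
    (dvd_lowerLeft γ))

/-- Conjugation by `diag(q, 1)`. -/
def conjUp (γ : Gamma0 (q ^ 2 * N)) : SL(2, ℤ) :=
  ⟨!![γ.1 0 0, (q : ℤ) * γ.1 0 1; γ.1 1 0 / (q : ℤ), γ.1 1 1], by
    have hd : γ.1 0 0 * γ.1 1 1 - γ.1 0 1 * γ.1 1 0 = 1 := by rw [← det_fin_two]; exact γ.1.2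
    rw [det_fin_two_of]
    linear_combination hd - γ.1 0 1 * mul_lowerLeft_div γ⟩

lemma conjUp_mem (γ : Gamma0 (q ^ 2 * N)) : conjUp γ ∈ stabGroup N q (basePair : Pair q) := by
  obtain ⟨e, he⟩ := dvd_lowerLeft γ
  have hdiv : γ.1 1 0 / (q : ℤ) = (q : ℤ) * N * e := by
    rw [he, show (q : ℤ) ^ 2 * N * e = (q : ℤ) * ((q : ℤ) * N * e) by ring,
      Int.mul_ediv_cancel_left _ (natCast_ne q)]
  refine mem_gammaT.2 ⟨?_, ?_, ?_⟩
  · show ((γ.1 1 0 / (q : ℤ) : ℤ) : ZMod N) = 0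
    rw [hdiv]; simp
  · show (((q : ℤ) * γ.1 0 1 : ℤ) : ZMod q) = 0
    simp
  · show ((γ.1 1 0 / (q : ℤ) : ℤ) : ZMod q) = 0
    rw [hdiv]; simp

lemma conjUp_mul (γ δ : Gamma0 (q ^ 2 * N)) : conjUp (γ * δ) = conjUp γ * conjUp δ := by
  have hc := mul_lowerLeft_div γ
  have hc' := mul_lowerLeft_div δ
  have hcc := mul_lowerLeft_div (γ * δ)
  refine Matrix.SpecialLinearGroup.ext _ _ fun i j => ?_
  rw [Matrix.SpecialLinearGroup.coe_mul, Matrix.mul_apply, Fin.sum_univ_two]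
  have e : ∀ i j, (γ * δ).1 i j = γ.1 i 0 * δ.1 0 j + γ.1 i 1 * δ.1 1 j := fun i j => by
    rw [Subgroup.coe_mul, Matrix.SpecialLinearGroup.coe_mul, Matrix.mul_apply, Fin.sum_univ_two]
  fin_cases i <;> fin_cases j
  · show (γ * δ).1 0 0 = γ.1 0 0 * δ.1 0 0 + (q : ℤ) * γ.1 0 1 * (δ.1 1 0 / (q : ℤ))
    linear_combination e 0 0 - γ.1 0 1 * hc'
  · show (q : ℤ) * (γ * δ).1 0 1 = γ.1 0 0 * ((q : ℤ) * δ.1 0 1) + (q : ℤ) * γ.1 0 1 * δ.1 1 1
    linear_combination (q : ℤ) * e 0 1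
  · show (γ * δ).1 1 0 / (q : ℤ) = γ.1 1 0 / (q : ℤ) * δ.1 0 0 + γ.1 1 1 * (δ.1 1 0 / (q : ℤ))
    refine mul_left_cancel₀ (natCast_ne q) ?_
    linear_combination hcc + e 1 0 - δ.1 0 0 * hc - γ.1 1 1 * hc'
  · show (γ * δ).1 1 1 = γ.1 1 0 / (q : ℤ) * ((q : ℤ) * δ.1 0 1) + γ.1 1 1 * δ.1 1 1
    linear_combination e 1 1 - δ.1 0 1 * hc

/-- Conjugation by `diag(1/q, 1)`. -/
def conjDown (η : stabGroup N q (basePair : Pair q)) : SL(2, ℤ) :=
  ⟨!![η.1 0 0, η.1 0 1 / (q : ℤ); (q : ℤ) * η.1 1 0, η.1 1 1], by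
    have hb : (q : ℤ) * (η.1 0 1 / (q : ℤ)) = η.1 0 1 :=
      Int.mul_ediv_cancel' ((ZMod.intCast_zmod_eq_zero_iff_dvd _ _).1 (mem_gammaT.1 η.2).2.1)
    have hd : η.1 0 0 * η.1 1 1 - η.1 0 1 * η.1 1 0 = 1 := by rw [← det_fin_two]; exact η.1.2
    rw [det_fin_two_of]
    linear_combination hd - η.1 1 0 * hb⟩

lemma conjDown_mem (hqN : ¬ q ∣ N) (η : stabGroup N q (basePair : Pair q)) :
    conjDown η ∈ Gamma0 (q ^ 2 * N) := by
  obtain ⟨hN, -, hc⟩ := mem_gammaT.1 η.2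
  have h := (Int.isCoprime_iff_gcd_eq_one.2
      (by simpa using ((Fact.out : q.Prime).coprime_iff_not_dvd.2 hqN))).mul_dvd
    ((ZMod.intCast_zmod_eq_zero_iff_dvd _ _).1 hc)
    ((ZMod.intCast_zmod_eq_zero_iff_dvd _ _).1 (Gamma0_mem.1 hN))
  show (((q : ℤ) * η.1 1 0 : ℤ) : ZMod (q ^ 2 * N)) = 0
  rw [ZMod.intCast_zmod_eq_zero_iff_dvd]
  push_cast
  rw [pow_two, mul_assoc]
  exact mul_dvd_mul_left _ h

/-- The conjugation isomorphism `Γ₀(q² N) ≃ Γ_T`. -/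
def conjT (hqN : ¬ q ∣ N) : Gamma0 (q ^ 2 * N) ≃* stabGroup N q (basePair : Pair q) where
  toFun γ := ⟨conjUp γ, conjUp_mem γ⟩
  invFun η := ⟨conjDown η, conjDown_mem hqN η⟩
  left_inv γ := by
    refine Subtype.ext (Matrix.SpecialLinearGroup.ext _ _ fun i j => ?_)
    fin_cases i <;> fin_cases j
    · rfl
    · exact Int.mul_ediv_cancel_left _ (natCast_ne q)
    · exact mul_lowerLeft_div γ
    · rfl
  right_inv η := by
    refine Subtype.ext (Matrix.SpecialLinearGroup.ext _ _ fun i j => ?_)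
    fin_cases i <;> fin_cases j
    · rfl
    · exact Int.mul_ediv_cancel' ((ZMod.intCast_zmod_eq_zero_iff_dvd _ _).1 (mem_gammaT.1 η.2).2.1)
    · exact Int.mul_ediv_cancel_left _ (natCast_ne q)
    · rfl
  map_mul' γ δ := Subtype.ext (conjUp_mul γ δ)

/-- The action of an invariant kernel on homomorphisms of `Γ₀(q² N)`. -/
def opHom (hqN : ¬ q ∣ N) (A : Pair q → Pair q → k) (hA : IsInvariant A)
    (χ : Additive (Gamma0 (q ^ 2 * N)) →+ k) : Additive (Gamma0 (q ^ 2 * N)) →+ k :=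
  (opT hqN A hA (χ.comp (MonoidHom.toAdditive (conjT hqN).symm.toMonoidHom))).comp
    (MonoidHom.toAdditive (conjT hqN).toMonoidHom)

/-- The orbital operator as a sum over the pairs. -/
lemma opHom_apply (hqN : ¬ q ∣ N) (A : Pair q → Pair q → k) (hA : IsInvariant A)
    (χ : Additive (Gamma0 (q ^ 2 * N)) →+ k) (γ : Gamma0 (q ^ 2 * N)) :
    opHom hqN A hA χ (Additive.ofMul γ) = ∑ z, A basePair z *
      shapiro (isTransitiveFrom_pair hqN)
        (χ.comp (MonoidHom.toAdditive (conjT hqN).symm.toMonoidHom))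
        ⟨conjT hqN γ, stabGroup_le (conjT hqN γ).2⟩ z := rfl

end Fermat.Agent.ResidualCarayol
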