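import Mathlib.Topology.Compactification.OnePoint.ProjectiveLine
import Mathlib.NumberTheory.ModularForms.CongruenceSubgroups
import Mathlib.Algebra.Field.ZMod

/-!
# Pairs of distinct points of `ℙ¹(𝔽_q)` and the groups `Γ_T`

`Γ₀(N)` maps onto `SL₂(𝔽_q)` for `q ∤ N`; the stabiliser of the pair `(0, ∞)` in it is conjugate
to `Γ₀(q² N)`.
-/

set_option autoImplicit false

noncomputable section

namespace Fermat.Agent.ResidualCarayol

open CongruenceSubgroup Matrix Matrix.SpecialLinearGroup
open scoped MatrixGroups OnePoint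

/-- The projective line over `𝔽_q`. -/
abbrev Line (q : ℕ) : Type := OnePoint (ZMod q)

/-- `GL₂(𝔽_q)`. -/
abbrev Grp (q : ℕ) : Type := GL (Fin 2) (ZMod q)

/-- Ordered pairs of distinct points. -/
@[ext] structure Pair (q : ℕ) where
  /-- The first point. -/
  fst : Line q
  /-- The second point. -/
  snd : Line q
  ne : fst ≠ snd

/-- Reduction modulo `q`. -/
def toG (q : ℕ) : SL(2, ℤ) →* Grp q := mapGL (ZMod q)

/-- The entries of the reduction. -/
lemma toG_apply (q : ℕ) (g : SL(2, ℤ)) (i j : Fin 2) :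
    (toG q g) i j = ((g i j : ℤ) : ZMod q) := rfl

variable {q : ℕ} [Fact q.Prime]

instance : MulAction (Grp q) (Pair q) where
  smul g y := ⟨g • y.fst, g • y.snd, fun h => y.ne (smul_left_cancel g h)⟩
  one_smul _ := Pair.ext (one_smul _ _) (one_smul _ _)
  mul_smul _ _ _ := Pair.ext (mul_smul _ _ _) (mul_smul _ _ _)

/-- The first point of a translated pair. -/
@[simp] lemma Pair.smul_fst (g : Grp q) (y : Pair q) : (g • y).fst = g • y.fst := rfl

/-- The second point of a translated pair. -/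
@[simp] lemma Pair.smul_snd (g : Grp q) (y : Pair q) : (g • y).snd = g • y.snd := rfl

instance : Fintype (Line q) := inferInstanceAs (Fintype (Option (ZMod q)))

instance : DecidableEq (Line q) := inferInstanceAs (DecidableEq (Option (ZMod q)))

/-- The projective line has `q + 1` points. -/
lemma card_line : Fintype.card (Line q) = q + 1 :=
  Fintype.card_option.trans (by rw [ZMod.card])

instance : DecidableEq (Pair q) := fun a b =>
  decidable_of_iff (a.fst = b.fst ∧ a.snd = b.snd) Pair.ext_iff.symm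

instance : Fintype (Pair q) :=
  Fintype.ofEquiv {y : Line q × Line q // y.1 ≠ y.2}
    { toFun := fun y => ⟨y.1.1, y.1.2, y.2⟩
      invFun := fun y => ⟨(y.fst, y.snd), y.ne⟩
      left_inv := fun _ => rfl
      right_inv := fun _ => rfl }

/-- The base pair `(0, ∞)`. -/
def basePair : Pair q := ⟨((0 : ZMod q) : Line q), ∞, OnePoint.coe_ne_infty _⟩

/-- A translation. -/
def upper (b : ZMod q) : Grp q :=
  GeneralLinearGroup.mkOfDetNeZero !![1, b; 0, 1] (by simp [det_fin_two_of])

/-- A lower unipotent. -/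
def lower (c : ZMod q) : Grp q :=
  GeneralLinearGroup.mkOfDetNeZero !![1, 0; c, 1] (by simp [det_fin_two_of])

/-- Translations fix `∞`. -/
lemma upper_smul_infty (b : ZMod q) : upper b • (∞ : Line q) = ∞ :=
  OnePoint.smul_infty_eq_self_iff.2 (by simp [upper])

/-- Translations add to finite points. -/
lemma upper_smul_coe (b a : ZMod q) : upper b • (a : Line q) = ((a + b : ZMod q) : Line q) := by
  rw [OnePoint.smul_some_eq_ite]; simp [upper]

/-- Translations compose by addition. -/
lemma upper_mul (a b : ZMod q) : upper a * upper b = upper (a + b) := by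
  apply Units.ext; ext i j; fin_cases i <;> fin_cases j <;> simp [upper, Matrix.mul_apply, add_comm]

/-- The translation by `0` is the identity. -/
lemma upper_zero : upper (0 : ZMod q) = 1 := by
  apply Units.ext; ext i j; fin_cases i <;> fin_cases j <;> simp [upper]

/-- A diagonal matrix. -/
def diagGrp (s : ZMod q) (hs : s ≠ 0) : Grp q :=
  GeneralLinearGroup.mkOfDetNeZero !![s, 0; 0, 1] (by simpa [det_fin_two_of] using hs)

/-- A diagonal matrix scales finite points. -/
lemma diagGrp_smul_coe {s : ZMod q} (hs : s ≠ 0) (a : ZMod q) :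
    diagGrp s hs • (a : Line q) = ((s * a : ZMod q) : Line q) := by
  rw [OnePoint.smul_some_eq_ite]; simp [diagGrp]

/-- A diagonal matrix fixes `∞`. -/
lemma diagGrp_smul_infty {s : ZMod q} (hs : s ≠ 0) : diagGrp s hs • (∞ : Line q) = ∞ :=
  OnePoint.smul_infty_eq_self_iff.2 (by simp [diagGrp])

/-- A diagonal matrix fixes the base pair. -/
lemma diagGrp_smul_basePair {s : ZMod q} (hs : s ≠ 0) :
    diagGrp s hs • (basePair : Pair q) = basePair :=
  Pair.ext (by
    show diagGrp s hs • ((0 : ZMod q) : Line q) = _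
    rw [diagGrp_smul_coe hs, mul_zero]; rfl) (diagGrp_smul_infty hs)

/-- The matrices of determinant one are generated by the two kinds of unipotents. -/
theorem mem_closure_of_det_eq_one {g : Grp q}
    (hg : (g : Matrix (Fin 2) (Fin 2) (ZMod q)).det = 1) :
    g ∈ Subgroup.closure (Set.range upper ∪ Set.range lower) := by
  set H := Subgroup.closure (Set.range (upper (q := q)) ∪ Set.range lower)
  have key : ∀ g : Grp q, (g : Matrix (Fin 2) (Fin 2) (ZMod q)).det = 1 → g 1 0 ≠ 0 → g ∈ H := by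
    intro g hg hc
    have e : g = upper ((g 0 0 - 1) / g 1 0) * lower (g 1 0) * upper ((g 1 1 - 1) / g 1 0) := by
      rw [det_fin_two] at hg
      apply Units.ext; ext i j
      fin_cases i <;> fin_cases j <;> simp [upper, lower, Matrix.mul_apply] <;> field_simp <;>
        grind
    rw [e]
    exact mul_mem (mul_mem (Subgroup.subset_closure (Or.inl ⟨_, rfl⟩))
      (Subgroup.subset_closure (Or.inr ⟨_, rfl⟩))) (Subgroup.subset_closure (Or.inl ⟨_, rfl⟩))
  by_cases hc : g 1 0 = 0
  · have hl : lower (1 : ZMod q) ∈ H := Subgroup.subset_closure (Or.inr ⟨_, rfl⟩)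
    have hdet : ((lower 1 * g : Grp q) : Matrix (Fin 2) (Fin 2) (ZMod q)).det = 1 := by
      rw [GeneralLinearGroup.coe_mul, det_mul, hg]; simp [lower, det_fin_two_of]
    have h := key (lower 1 * g) hdet (by
      rw [det_fin_two, hc] at hg
      simp only [GeneralLinearGroup.coe_mul, Matrix.mul_apply, Fin.sum_univ_two, lower]
      intro h
      simp [hc] at h
      simp [h] at hg)
    exact (H.mul_mem_cancel_left hl).1 h
  · exact key g hg hc

variable {N : ℕ}

/-- The translations lift to `Γ₀(N)`. -/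
theorem exists_gamma0_upper (b : ZMod q) : ∃ γ ∈ Gamma0 N, toG q γ = upper b := by
  let γ : SL(2, ℤ) := ⟨!![1, (b.val : ℤ); 0, 1], by simp [det_fin_two_of]⟩
  refine ⟨γ, ?_, ?_⟩
  · show (((0 : ℤ)) : ZMod N) = 0
    exact Int.cast_zero
  · apply Units.ext; ext i j
    refine (toG_apply q γ i j).trans ?_
    fin_cases i <;> fin_cases j <;> simp [γ, upper]

/-- The lower unipotents lift to `Γ₀(N)` for `q ∤ N`. -/
theorem exists_gamma0_lower (hqN : ¬ q ∣ N) (c : ZMod q) :
    ∃ γ ∈ Gamma0 N, toG q γ = lower c := by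
  have hN : (N : ZMod q) ≠ 0 := fun h => hqN ((ZMod.natCast_eq_zero_iff _ _).1 h)
  let γ : SL(2, ℤ) :=
    ⟨!![1, 0; (N : ℤ) * ((c / N : ZMod q).val : ℤ), 1], by simp [det_fin_two_of]⟩
  refine ⟨γ, ?_, ?_⟩
  · show (((N : ℤ) * ((c / N : ZMod q).val : ℤ) : ℤ) : ZMod N) = 0
    simp
  · apply Units.ext; ext i j
    refine (toG_apply q γ i j).trans ?_
    fin_cases i <;> fin_cases j <;> simp [γ, lower, mul_div_cancel₀ _ hN]

/-- `Γ₀(N)` maps onto `SL₂(𝔽_q)`. -/
theorem exists_gamma0_lift (hqN : ¬ q ∣ N) {g : Grp q}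
    (hg : (g : Matrix (Fin 2) (Fin 2) (ZMod q)).det = 1) :
    ∃ γ ∈ Gamma0 N, toG q γ = g := by
  have h := mem_closure_of_det_eq_one hg
  have hle : Subgroup.closure (Set.range upper ∪ Set.range lower) ≤ (Gamma0 N).map (toG q) := by
    rw [Subgroup.closure_le]
    rintro _ (⟨b, rfl⟩ | ⟨c, rfl⟩)
    · exact exists_gamma0_upper b
    · exact exists_gamma0_lower hqN c
  exact hle h

/-- The point `∞` goes to any point under `SL₂(𝔽_q)`. -/
theorem exists_smul_infty (x : Line q) :
    ∃ g : Grp q, (g : Matrix (Fin 2) (Fin 2) (ZMod q)).det = 1 ∧ g • (∞ : Line q) = x := by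
  induction x using OnePoint.rec with
  | infty => exact ⟨1, by simp, one_smul _ _⟩
  | coe a =>
    refine ⟨GeneralLinearGroup.mkOfDetNeZero !![a, -1; 1, 0] (by simp [det_fin_two_of]),
      by simp [det_fin_two_of], ?_⟩
    rw [OnePoint.smul_infty_eq_ite]; simp

/-- The base pair goes to any pair under `SL₂(𝔽_q)`. -/
theorem exists_smul_basePair (y : Pair q) :
    ∃ g : Grp q, (g : Matrix (Fin 2) (Fin 2) (ZMod q)).det = 1 ∧ g • basePair = y := by
  obtain ⟨g, hg, hgy⟩ := exists_smul_infty y.snd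
  obtain ⟨s, hs⟩ := OnePoint.ne_infty_iff_exists.1 fun h : g⁻¹ • y.fst = ∞ =>
    y.ne (by rw [← hgy, ← h, smul_inv_smul])
  refine ⟨g * upper s, ?_, ?_⟩
  · rw [GeneralLinearGroup.coe_mul, det_mul, hg, upper]; simp [det_fin_two_of]
  · ext
    · rw [Pair.smul_fst, mul_smul]
      show g • upper s • ((0 : ZMod q) : Line q) = _
      rw [upper_smul_coe, zero_add, hs, smul_inv_smul]
    · rw [Pair.smul_snd, mul_smul]
      show g • upper s • (∞ : Line q) = _
      rw [upper_smul_infty, hgy]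

/-- The stabiliser of `(0, ∞)` consists of the diagonal matrices. -/
theorem smul_basePair_iff {g : Grp q} :
    g • (basePair : Pair q) = basePair ↔ g 0 1 = 0 ∧ g 1 0 = 0 := by
  have h0 : g • ((0 : ZMod q) : Line q) = ((0 : ZMod q) : Line q) ↔ g 0 1 = 0 := by
    rw [OnePoint.smul_some_eq_ite, mul_zero, zero_add]
    by_cases h : g 1 1 = 0
    · have hd := g.det_ne_zero
      rw [det_fin_two, h, mul_zero, zero_sub, neg_ne_zero] at hd
      simp [h, (mul_ne_zero_iff.1 hd).1]
    · simp [h]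
  rw [Pair.ext_iff, Pair.smul_fst, Pair.smul_snd]
  exact and_congr h0 OnePoint.smul_infty_eq_self_iff

/-- `Γ₀(N)` with the pair `(0, ∞)` fixed modulo `q`. -/
def gammaT (N q : ℕ) [Fact q.Prime] : Subgroup SL(2, ℤ) :=
  Gamma0 N ⊓ (MulAction.stabilizer (Grp q) (basePair : Pair q)).comap (toG q)

/-- Membership in `gammaT` by congruences. -/
theorem mem_gammaT {g : SL(2, ℤ)} :
    g ∈ gammaT N q ↔ g ∈ Gamma0 N ∧ (g 0 1 : ZMod q) = 0 ∧ (g 1 0 : ZMod q) = 0 := by
  rw [gammaT, Subgroup.mem_inf, Subgroup.mem_comap, MulAction.mem_stabilizer_iff,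
    smul_basePair_iff, toG_apply, toG_apply]

/-- `Γ₀(q N)` is the stabiliser of `∞` in `Γ₀(N)` for `q ∤ N`. -/
theorem gamma0_mul_iff (hqN : ¬ q ∣ N) {g : SL(2, ℤ)} :
    g ∈ Gamma0 (q * N) ↔ g ∈ Gamma0 N ∧ toG q g • (∞ : Line q) = ∞ := by
  rw [Gamma0_mem, Gamma0_mem, OnePoint.smul_infty_eq_self_iff, toG_apply,
    ZMod.intCast_zmod_eq_zero_iff_dvd, ZMod.intCast_zmod_eq_zero_iff_dvd,
    ZMod.intCast_zmod_eq_zero_iff_dvd, Nat.cast_mul]
  refine ⟨fun h => ⟨(dvd_mul_left _ _).trans h, (dvd_mul_right _ _).trans h⟩, fun h => ?_⟩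
  exact (Int.isCoprime_iff_gcd_eq_one.2
    (by simpa using ((Fact.out : q.Prime).coprime_iff_not_dvd.2 hqN))).mul_dvd h.2 h.1

end Fermat.Agent.ResidualCarayol
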