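import Fermat.Agent.ResidualCarayol.Kernels
import Mathlib.LinearAlgebra.Span.Basic

/-!
# Vectors fixed by the diagonal torus with vanishing translation sum

These vectors parametrise the invariant maps out of the functions on pairs with vanishing fibre
sums, and they detect whether translations act trivially on a subquotient.
-/

set_option autoImplicit false

noncomputable section

namespace Fermat.Agent.ResidualCarayol

open Matrix
open scoped OnePoint

variable {q : ℕ} [Fact q.Prime] {k : Type*} [Field k]

/-- The diagonal element of a unit. -/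
def torus (u : (ZMod q)ˣ) : Grp q := diagGrp (u : ZMod q) u.ne_zero

lemma torus_mul (u v : (ZMod q)ˣ) : torus (u * v) = torus u * torus v := by
  apply Units.ext; ext i j
  fin_cases i <;> fin_cases j <;> simp [torus, diagGrp, Matrix.mul_apply]

lemma torus_one : torus (1 : (ZMod q)ˣ) = 1 := by
  apply Units.ext; ext i j
  fin_cases i <;> fin_cases j <;> simp [torus, diagGrp]

lemma torus_mul_upper (u : (ZMod q)ˣ) (b : ZMod q) :
    torus u * upper b = upper ((u : ZMod q) * b) * torus u := by
  apply Units.ext; ext i j
  fin_cases i <;> fin_cases j <;> simp [torus, diagGrp, upper, Matrix.mul_apply]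

lemma upper_mul_torus (u : (ZMod q)ˣ) (b : ZMod q) :
    upper b * torus u = torus u * upper (((u⁻¹ : (ZMod q)ˣ) : ZMod q) * b) := by
  rw [torus_mul_upper, ← mul_assoc, Units.mul_inv, one_mul]

/-- The translation sum. -/
def sumUpper (f : Pair q → k) : Pair q → k := ∑ b : ZMod q, perm k (upper b) f

lemma sumUpper_upper (a : ZMod q) (f : Pair q → k) :
    sumUpper (perm k (upper a) f) = sumUpper f := by
  simp only [sumUpper, ← perm_mul, upper_mul]
  exact Fintype.sum_equiv (Equiv.addRight a) _ _ fun b => rfl

lemma sumUpper_torus (u : (ZMod q)ˣ) (f : Pair q → k) :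
    sumUpper (perm k (torus u) f) = perm k (torus u) (sumUpper f) := by
  simp only [sumUpper, map_sum, ← perm_mul]
  refine Fintype.sum_equiv (Equiv.mulLeft₀ ((u⁻¹ : (ZMod q)ˣ) : ZMod q) (Units.ne_zero _)) _ _
    fun b => ?_
  rw [upper_mul_torus]; rfl

/-- Fixed by the torus, with vanishing translation sum. -/
structure IsCirc (f : Pair q → k) : Prop where
  fixed : ∀ u : (ZMod q)ˣ, perm k (torus u) f = f
  sum_eq : sumUpper f = 0

/-- `perm` depends only on the action on the projective line. -/
lemma perm_eq_of_smul {g h : Grp q} (e : ∀ x : Line q, g • x = h • x) (f : Pair q → k) :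
    perm k g f = perm k h f := funext fun y => by
  rw [perm_apply, perm_apply]
  congr 1
  rw [inv_smul_eq_iff]
  exact Pair.ext (by simp [e, Pair.smul_fst]) (by simp [e, Pair.smul_snd])

lemma exists_torus {g : Grp q} (hg : g • (basePair : Pair q) = basePair) :
    ∃ u : (ZMod q)ˣ, ∀ x : Line q, g • x = torus u • x := by
  obtain ⟨h1, h2⟩ := smul_basePair_iff.1 hg
  have hd := g.det_ne_zero
  rw [det_fin_two, h1, zero_mul, sub_zero, mul_ne_zero_iff] at hd
  refine ⟨Units.mk0 (g 0 0 / g 1 1) (div_ne_zero hd.1 hd.2), fun x => ?_⟩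
  induction x using OnePoint.rec with
  | infty =>
    rw [OnePoint.smul_infty_eq_self_iff.2 h2]
    exact (diagGrp_smul_infty _).symm
  | coe a =>
    rw [OnePoint.smul_some_eq_ite, if_neg (by simp [h2, hd.2]), h1, h2, zero_mul, zero_add,
      add_zero, torus, diagGrp_smul_coe, Units.val_mk0, mul_comm (g 0 0 / g 1 1), mul_div_assoc',
      mul_comm a]

lemma IsCirc.fixed_stab {f : Pair q → k} (hf : IsCirc f) {g : Grp q}
    (hg : g • (basePair : Pair q) = basePair) : perm k g f = f := by
  obtain ⟨u, hu⟩ := exists_torus hg
  rw [perm_eq_of_smul hu, hf.fixed]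

/-- A chosen element taking the base pair to a given pair. -/
def toPair (z : Pair q) : Grp q := (exists_smul_basePair z).choose

lemma toPair_spec (z : Pair q) : toPair z • (basePair : Pair q) = z :=
  (exists_smul_basePair z).choose_spec.2

lemma perm_toPair {f : Pair q → k} (hf : IsCirc f) {g : Grp q} {z : Pair q}
    (hg : g • (basePair : Pair q) = z) : perm k (toPair z) f = perm k g f := by
  have h : (g⁻¹ * toPair z) • (basePair : Pair q) = basePair := by
    rw [mul_smul, toPair_spec, inv_smul_eq_iff, hg]
  conv_rhs => rw [← hf.fixed_stab h, ← perm_mul, mul_inv_cancel_left]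

/-- The indicator of a pair. -/
def single (z : Pair q) : Pair q → k := Pi.single z 1

lemma perm_single (g : Grp q) (z : Pair q) : perm k g (single z) = single (g • z) := by
  funext y
  simp [single, Pi.single_apply, inv_smul_eq_iff]

/-- The kernel with a given column at the base pair. -/
def ofVec (f : Pair q → k) : Matrix (Pair q) (Pair q) k :=
  Matrix.of fun y z => perm k (toPair z) f y

lemma ofVec_single (f : Pair q → k) (z : Pair q) : ofVec f *ᵥ single z = perm k (toPair z) f := by
  funext y
  simp [ofVec, single]

lemma ofVec_mulVec (f v : Pair q → k) :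
    ofVec f *ᵥ v = ∑ z, v z • perm k (toPair z) f := by
  funext y
  simp [ofVec, mulVec, dotProduct, Finset.sum_apply, mul_comm]

/-- The operator of a circular vector recovers it at the base pair. -/
lemma IsCirc.ofVec_base {f : Pair q → k} (hf : IsCirc f) : ofVec f *ᵥ single basePair = f := by
  rw [ofVec_single, perm_toPair hf (one_smul _ _), perm_one]

/-- The operator of a circular vector is invariant. -/
lemma IsCirc.isInvariant {f : Pair q → k} (hf : IsCirc f) : IsInvariant (ofVec f) := fun g y z => by
  show perm k (toPair (g • z)) f (g • y) = perm k (toPair z) f y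
  have h : (g * toPair z) • (basePair : Pair q) = g • z := by rw [mul_smul, toPair_spec]
  rw [perm_toPair hf h, perm_mul, perm_apply, inv_smul_smul]

lemma liftSnd_indicator_eq (x : Line q) :
    (liftSnd (Pi.single x 1) : Pair q → k) =
      ∑ z, (if z.snd = x then (1 : k) else 0) • single z := by
  funext y
  rw [Finset.sum_apply, Finset.sum_eq_single y]
  · simp [liftSnd, single, Pi.single_apply]
  · intro z _ hz
    simp [single, Pi.single_eq_of_ne hz.symm]
  · exact fun h => absurd (Finset.mem_univ y) h

lemma sumUpper_single : (sumUpper (single basePair) : Pair q → k) = liftSnd (Pi.single ∞ 1) := by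
  classical
  rw [liftSnd_indicator_eq, sumUpper]
  simp only [perm_single, ite_smul, one_smul, zero_smul]
  rw [← Finset.sum_filter]
  refine Finset.sum_bij (fun b _ => upper b • (basePair : Pair q)) ?_ ?_ ?_ (fun b _ => rfl)
  · intro b _
    exact Finset.mem_filter.2 ⟨Finset.mem_univ _, upper_smul_infty b⟩
  · intro b _ b' _ h
    have := congrArg Pair.fst h
    simpa [basePair, upper_smul_coe] using this
  · intro z hz
    obtain ⟨a, ha⟩ := OnePoint.ne_infty_iff_exists.1 ((Finset.mem_filter.1 hz).2 ▸ z.ne)
    refine ⟨a, Finset.mem_univ _, Pair.ext ?_ ?_⟩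
    · show upper a • ((0 : ZMod q) : Line q) = _
      rw [upper_smul_coe, zero_add, ha]
    · show upper a • (∞ : Line q) = _
      rw [upper_smul_infty, (Finset.mem_filter.1 hz).2]

lemma IsInvariant.mulVec_liftSnd_eq_zero {A : Matrix (Pair q) (Pair q) k} (hA : IsInvariant A)
    (h : sumUpper (A *ᵥ single basePair) = 0) (f : Line q → k) : A *ᵥ liftSnd f = 0 := by
  have h0 : A *ᵥ liftSnd (Pi.single (∞ : Line q) 1) = 0 := by
    rw [← sumUpper_single, sumUpper, mulVec_sum]
    simp only [hA.mulVec_perm]
    exact h
  have e : (liftSnd f : Pair q → k) = ∑ x, f x • liftSnd (Pi.single x 1) := by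
    funext y
    simp [liftSnd, Finset.sum_apply, Pi.single_apply]
  rw [e, mulVec_sum]
  refine Finset.sum_eq_zero fun x _ => ?_
  obtain ⟨g, -, hg⟩ := exists_smul_infty x
  have e2 : (liftSnd (Pi.single x 1) : Pair q → k) = perm k g (liftSnd (Pi.single ∞ 1)) := by
    funext y
    simp [liftSnd, Pi.single_apply, inv_smul_eq_iff, hg]
  rw [mulVec_smul, e2, hA.mulVec_perm, h0, map_zero, smul_zero]

/-- The operator of a circular vector with vanishing sums is compressed. -/
lemma IsCirc.isCompressed {f : Pair q → k} (hf : IsCirc f) (hs : sumSnd f = 0) :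
    IsCompressed (ofVec f) where
  invariant := hf.isInvariant
  left := Matrix.ext_of_mulVec_single fun z => by
    rw [← mulVec_mulVec, show Pi.single z (1 : k) = single z from rfl, ofVec_single,
      proj_mulVec_of_sumSnd (by rw [sumSnd_perm, hs, map_zero])]
  right := Matrix.ext_of_mulVec_single fun z => by
    rw [← mulVec_mulVec, proj_mulVec, mulVec_sub, mulVec_smul,
      hf.isInvariant.mulVec_liftSnd_eq_zero (by rw [hf.ofVec_base, hf.sum_eq]), smul_zero, sub_zero]

/-- A compressed kernel at the base pair gives a circular vector. -/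
lemma IsCompressed.isCirc (hq : (q : k) ≠ 0) {X : Matrix (Pair q) (Pair q) k}
    (hX : IsCompressed X) : IsCirc (X *ᵥ single basePair) where
  fixed u := by
    rw [← hX.invariant.mulVec_perm, perm_single, torus, diagGrp_smul_basePair]
  sum_eq := by
    rw [sumUpper]
    simp only [← hX.invariant.mulVec_perm]
    rw [← mulVec_sum, ← sumUpper, sumUpper_single, hX.mulVec_liftSnd hq]

/-! ### The trace -/

/-- `(1 - translation by one) / q`. -/
def halfProj (f : Pair q → k) : Pair q → k := (q : k)⁻¹ • (f - perm k (upper (1 : ZMod q)) f)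

/-- The trace onto `IsCirc` vectors. -/
def circTrace (f : Pair q → k) : Pair q → k := ∑ u : (ZMod q)ˣ, perm k (torus u) (halfProj f)

lemma sumUpper_halfProj (f : Pair q → k) : sumUpper (halfProj f) = 0 := by
  have e : ∀ a : k, ∀ v : Pair q → k, sumUpper (a • v) = a • sumUpper v := fun a v => by
    simp [sumUpper, Finset.smul_sum]
  have e' : ∀ v w : Pair q → k, sumUpper (v - w) = sumUpper v - sumUpper w := fun v w => by
    simp [sumUpper]
  rw [halfProj, e, e', sumUpper_upper, sub_self, smul_zero]

/-- Traces are circular. -/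
lemma isCirc_circTrace (f : Pair q → k) : IsCirc (circTrace f) where
  fixed u := by
    simp only [circTrace, map_sum, ← perm_mul, ← torus_mul]
    exact Fintype.sum_equiv (Equiv.mulLeft u) _ _ fun v => rfl
  sum_eq := by
    have e : ∀ s : (ZMod q)ˣ → Pair q → k, sumUpper (∑ u, s u) = ∑ u, sumUpper (s u) := fun s => by
      simp only [sumUpper, map_sum]
      exact Finset.sum_comm
    rw [circTrace, e]
    exact Finset.sum_eq_zero fun u _ => by rw [sumUpper_torus, sumUpper_halfProj, map_zero]

/-- `halfProj` is recovered from the trace. -/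
lemma sum_perm_circTrace (f : Pair q → k) :
    ∑ a : ZMod q, perm k (upper (-a)) (circTrace (perm k (upper a) f)) = (q : k) • halfProj f := by
  classical
  have e : ∀ a : ZMod q, perm k (upper (-a)) (circTrace (perm k (upper a) f)) =
      ∑ u : (ZMod q)ˣ, perm k (upper (((u : ZMod q) - 1) * a))
        (perm k (torus u) (halfProj f)) := fun a => by
    rw [circTrace, map_sum]
    refine Finset.sum_congr rfl fun u _ => ?_
    have hc : halfProj (perm k (upper a) f) = perm k (upper a) (halfProj f) := by
      rw [halfProj, halfProj, map_smul, map_sub, ← perm_mul, ← perm_mul, upper_mul, upper_mul,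
        add_comm a 1]
    rw [hc, ← perm_mul (torus u), torus_mul_upper, perm_mul, ← perm_mul (upper (-a)), upper_mul]
    congr 3
    ring
  rw [Finset.sum_congr rfl fun a _ => e a, Finset.sum_comm,
    Fintype.sum_eq_single (1 : (ZMod q)ˣ) fun u hu => ?_]
  · simp only [Units.val_one, sub_self, zero_mul, upper_zero, torus_one, perm_one, Finset.sum_const,
      Finset.card_univ, ZMod.card, Nat.cast_smul_eq_nsmul]
  · have hu' : (u : ZMod q) - 1 ≠ 0 := sub_ne_zero.2 fun h => hu (Units.ext h)
    refine (Equiv.sum_comp (Equiv.mulLeft₀ _ hu')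
      (fun b => perm k (upper b) (perm k (torus u) (halfProj f)))).trans ?_
    exact (sumUpper_torus u _).trans (by rw [sumUpper_halfProj, map_zero])

/-! ### Stable subspaces -/

/-- A subspace stable under the group. -/
def IsStable (A : Submodule k (Pair q → k)) : Prop := ∀ (g : Grp q), ∀ f ∈ A, perm k g f ∈ A

/-- Stable subspaces contain the traces of their members. -/
lemma IsStable.circTrace_mem {A : Submodule k (Pair q → k)} (hA : IsStable A) {f : Pair q → k}
    (hf : f ∈ A) : circTrace f ∈ A :=
  sum_mem fun _ _ => hA _ _ (A.smul_mem _ (A.sub_mem hf (hA _ _ hf)))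

/-- Stable subspaces contain the images under the operators of their members. -/
lemma IsStable.ofVec_mem {A : Submodule k (Pair q → k)} (hA : IsStable A) {f : Pair q → k}
    (hf : f ∈ A) (v : Pair q → k) : ofVec f *ᵥ v ∈ A := by
  rw [ofVec_mulVec]
  exact sum_mem fun _ _ => A.smul_mem _ (hA _ _ hf)

/-- If all traces lie in `A'`, the matrices of determinant one act trivially modulo `A'`. -/
theorem perm_sub_mem_of_det {A A' : Submodule k (Pair q → k)} (hq : (q : k) ≠ 0)
    (hA : IsStable A) (hA' : IsStable A') (htr : ∀ f ∈ A, circTrace f ∈ A') {g : Grp q}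
    (hg : (g : Matrix (Fin 2) (Fin 2) (ZMod q)).det = 1) {f : Pair q → k} (hf : f ∈ A) :
    perm k g f - f ∈ A' := by
  let H : Subgroup (Grp q) :=
    { carrier := {g | ∀ f ∈ A, perm k g f - f ∈ A'}
      one_mem' := fun f _ => by rw [perm_one, sub_self]; exact zero_mem _
      mul_mem' := fun {g h} hg hh f hf => by
        rw [perm_mul, show perm k g (perm k h f) - f =
          (perm k g (perm k h f) - perm k h f) + (perm k h f - f) by abel]
        exact add_mem (hg _ (hA _ _ hf)) (hh f hf)
      inv_mem' := fun {g} hg f hf => by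
        have h := hg _ (hA g⁻¹ _ hf)
        rw [← perm_mul, mul_inv_cancel, perm_one] at h
        rw [← neg_sub]; exact neg_mem h }
  have h1 : upper (1 : ZMod q) ∈ H := fun f hf => by
    have h : (q : k) • halfProj f ∈ A' :=
      sum_perm_circTrace f ▸ sum_mem fun a _ => hA' _ _ (htr _ (hA _ _ hf))
    rw [halfProj, smul_smul, mul_inv_cancel₀ hq, one_smul] at h
    rw [← neg_sub]; exact neg_mem h
  have hup : ∀ b : ZMod q, upper b ∈ H := fun b => by
    have hpow : ∀ n : ℕ, upper (n : ZMod q) ∈ H := fun n => by
      induction n with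
      | zero => rw [Nat.cast_zero, upper_zero]; exact one_mem H
      | succ n ih => rw [Nat.cast_succ, ← upper_mul]; exact mul_mem ih h1
    simpa using hpow b.val
  let w : Grp q := GeneralLinearGroup.mkOfDetNeZero !![0, 1; 1, 0] (by simp [det_fin_two_of])
  have hlow : ∀ c, lower c ∈ H := fun c f hf => by
    have e : lower c = w * upper c * w := by
      apply Units.ext; ext i j
      fin_cases i <;> fin_cases j <;> simp [w, lower, upper, Matrix.mul_apply]
    have ew : w * w = 1 := by
      apply Units.ext; ext i j
      fin_cases i <;> fin_cases j <;> simp [w, Matrix.mul_apply]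
    have h := hA' w _ (hup c _ (hA w _ hf))
    rwa [map_sub, ← perm_mul, ← perm_mul, ← perm_mul, ← e, ew, perm_one] at h
  have hle : Subgroup.closure (Set.range upper ∪ Set.range lower) ≤ H := by
    rw [Subgroup.closure_le]
    rintro _ (⟨b, rfl⟩ | ⟨c, rfl⟩)
    exacts [hup b, hlow c]
  exact hle (mem_closure_of_det_eq_one hg) f hf

end Fermat.Agent.ResidualCarayol
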